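import Mathlib
import Fermat.Agent.H02L.NRoot
import Fermat.Agent.CC.LocLCF

set_option autoImplicit false
set_option linter.unusedSectionVars false
set_option linter.style.haveILetI false

/-!
# Elements unramified outside `S` and `S`-units of `ℚbar`
-/

noncomputable section

namespace Fermat.Agent.H02M

export Fermat.Agent.CC (Qb GQ)

open scoped Pointwise
open Fermat.Agent.CC (lev levS UL)
open Fermat.Agent.TW (NVal Bl Bs)

variable {S : Finset Nat.Primes}

/-- `x` is fixed by all the inertia groups outside of `S` -/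
def SL (S : Finset Nat.Primes) (x : Qb) : Prop :=
  ∀ q : Nat.Primes, q ∉ S → ∀ A : ValuationSubring Qb, A.LiesOverPrime (q : ℕ) →
    ∀ σ ∈ A.inertiaSubgroupIn ℚ, σ x = x

/-- `x` is an `S`-unit -/
def SU (S : Finset Nat.Primes) (x : Qb) : Prop :=
  ∀ q : Nat.Primes, q ∉ S → ∀ A : ValuationSubring Qb, A.LiesOverPrime (q : ℕ) →
    x ∈ A ∧ x⁻¹ ∈ A

theorem SL.smul {x : Qb} (h : SL S x) (g : GQ) : SL S (g x) := by
  intro q hq A hA τ hτ
  have h1 : g⁻¹ * τ * g ∈ (g⁻¹ • A).inertiaSubgroupIn ℚ := by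
    apply H09.inertia_conj
    rwa [smul_inv_smul]
  have h2 := h q hq (g⁻¹ • A) ((H05.liesOverPrime_smul_iff g⁻¹ A q).mpr hA) _ h1
  have h3 := congrArg g h2
  rw [← AlgEquiv.mul_apply] at h3
  have h4 : g * (g⁻¹ * τ * g) = τ * g := by group
  rw [h4, AlgEquiv.mul_apply] at h3
  exact h3

theorem SU.smul {x : Qb} (h : SU S x) (g : GQ) : SU S (g x) := by
  intro q hq A hA
  have h1 := h q hq (g⁻¹ • A) ((H05.liesOverPrime_smul_iff g⁻¹ A q).mpr hA)
  rw [ValuationSubring.mem_pointwise_smul_iff_inv_smul_mem,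
    ValuationSubring.mem_pointwise_smul_iff_inv_smul_mem, inv_inv] at h1
  refine ⟨h1.1, ?_⟩
  have h2 : g • x⁻¹ = (g x)⁻¹ := map_inv₀ g x
  rw [← h2]
  exact h1.2

theorem SL.mul {x y : Qb} (hx : SL S x) (hy : SL S y) : SL S (x * y) := fun q hq A hA σ hσ => by
  rw [map_mul, hx q hq A hA σ hσ, hy q hq A hA σ hσ]

theorem SL.inv {x : Qb} (hx : SL S x) : SL S x⁻¹ := fun q hq A hA σ hσ => by
  rw [map_inv₀, hx q hq A hA σ hσ]

theorem SL.one : SL S 1 := fun _ _ _ _ σ _ => map_one σ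

theorem SU.mul {x y : Qb} (hx : SU S x) (hy : SU S y) : SU S (x * y) := fun q hq A hA => by
  refine ⟨A.mul_mem _ _ (hx q hq A hA).1 (hy q hq A hA).1, ?_⟩
  rw [mul_inv]
  exact A.mul_mem _ _ (hx q hq A hA).2 (hy q hq A hA).2

theorem SU.inv {x : Qb} (hx : SU S x) : SU S x⁻¹ := fun q hq A hA => by
  refine ⟨(hx q hq A hA).2, ?_⟩
  rw [inv_inv]
  exact (hx q hq A hA).1

theorem SU.one : SU S 1 := fun q hq A hA => by
  rw [inv_one]
  exact ⟨A.one_mem, A.one_mem⟩

theorem mem_of_pow_mem {A : ValuationSubring Qb} {x : Qb} {n : ℕ} (hn : n ≠ 0) (h : x ^ n ∈ A) :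
    x ∈ A := by
  rw [← A.valuation_le_one_iff, map_pow] at h
  rw [← A.valuation_le_one_iff]
  exact (pow_le_one_iff hn).mp h

theorem SU.of_pow {x : Qb} {n : ℕ} (hn : n ≠ 0) (h : SU S (x ^ n)) : SU S x := fun q hq A hA => by
  have h1 := h q hq A hA
  rw [← inv_pow] at h1
  exact ⟨mem_of_pow_mem hn h1.1, mem_of_pow_mem hn h1.2⟩

theorem SU.pow {x : Qb} (h : SU S x) (n : ℕ) : SU S (x ^ n) := by
  induction n with
  | zero => rw [pow_zero]; exact SU.one
  | succ n ih => rw [pow_succ]; exact ih.mul h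

theorem SL.of_mem {L : IntermediateField ℚ Qb} (hL : L.IsUnramifiedOutside S) {x : Qb}
    (hx : x ∈ L) : SL S x := fun q hq A hA σ hσ =>
  (IntermediateField.mem_fixingSubgroup_iff L σ).mp (hL.2 q hq A hA hσ) x hx

theorem SL.unr {x : Qb} (h : SL S x) :
    (IntermediateField.adjoin ℚ {x}).IsUnramifiedOutside S := by
  have hg := Fermat.Agent.H51.isGalois_Qbar
  refine ⟨IntermediateField.adjoin.finiteDimensional (Algebra.IsIntegral.isIntegral x),
    fun q hq A hA σ hσ => ?_⟩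
  have h1 : IntermediateField.adjoin ℚ {x} ≤
      IntermediateField.fixedField (Subgroup.zpowers σ) := by
    rw [IntermediateField.adjoin_simple_le_iff, IntermediateField.mem_fixedField_iff]
    intro τ hτ
    have h2 : Subgroup.zpowers σ ≤ MulAction.stabilizer GQ x := by
      rw [Subgroup.zpowers_le]
      exact h q hq A hA σ hσ
    exact h2 hτ
  rw [IntermediateField.mem_fixingSubgroup_iff]
  intro y hy
  have h3 := h1 hy
  rw [IntermediateField.mem_fixedField_iff] at h3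
  exact h3 σ (Subgroup.mem_zpowers σ)

/-- extraction of roots -/
theorem SL.root {α β : Qb} {n : ℕ} (hβ : SL S β) (hβ0 : β ≠ 0) (hαβ : α ^ n = β)
    (hn : ∀ q : Nat.Primes, q ∉ S → ¬ (q : ℕ) ∣ n)
    (hloc : ∀ q : Nat.Primes, q ∉ S → ∀ A : ValuationSubring Qb, A.LiesOverPrime (q : ℕ) →
      ∃ γ : Qb, γ ≠ 0 ∧ SL S γ ∧ β / γ ^ n ∈ A ∧ (β / γ ^ n)⁻¹ ∈ A) : SL S α := by
  intro q hq A hA σ hσ
  obtain ⟨γ, hγ0, hγ, h1, h2⟩ := hloc q hq A hA
  have hn0 : n ≠ 0 := by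
    rintro rfl
    exact hn q hq (dvd_zero _)
  have hα0 : α ≠ 0 := by
    rintro rfl
    rw [zero_pow hn0] at hαβ
    exact hβ0 hαβ.symm
  set δ := α / γ with hδ
  have hδ0 : δ ≠ 0 := div_ne_zero hα0 hγ0
  have hδn : δ ^ n = β / γ ^ n := by rw [hδ, div_pow, hαβ]
  have hδA : δ ∈ A := mem_of_pow_mem hn0 (by rw [hδn]; exact h1)
  have hδA' : δ⁻¹ ∈ A := mem_of_pow_mem hn0 (by rw [inv_pow, hδn]; exact h2)
  have h3 : σ (δ ^ n) = δ ^ n := by
    rw [hδn]
    have hγn : SL S (γ ^ n)⁻¹ := by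
      refine SL.inv ?_
      have : ∀ m : ℕ, SL S (γ ^ m) := by
        intro m
        induction m with
        | zero => rw [pow_zero]; exact SL.one
        | succ m ih => rw [pow_succ]; exact ih.mul hγ
      exact this n
    rw [div_eq_mul_inv]
    exact (hβ.mul hγn) q hq A hA σ hσ
  have h4 : (σ δ / δ) ^ n = 1 := by
    rw [div_pow, ← map_pow, h3, div_self (pow_ne_zero _ hδ0)]
  have h5 : σ δ / δ - 1 ∈ A.nonunits := by
    have h6 : σ δ - δ ∈ A.nonunits := by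
      rw [ValuationSubring.mem_nonunits_iff]
      exact H08.val_sub_lt_of_mem_inertia hσ (A.valuation_le_one_iff δ |>.mpr hδA)
    have h7 : σ δ / δ - 1 = (σ δ - δ) * δ⁻¹ := by field_simp
    rw [h7, ValuationSubring.mem_nonunits_iff, map_mul]
    rw [ValuationSubring.mem_nonunits_iff] at h6
    exact mul_lt_one_of_lt_of_le h6 ((A.valuation_le_one_iff _).mpr hδA')
  have h6 : σ δ / δ = 1 :=
    H05.rootsOfUnity_eq_of_residue_eq q.2 hA (hn q hq) h4 (one_pow n) h5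
  have h7 : σ δ = δ := by
    rwa [div_eq_one_iff_eq hδ0] at h6
  have h8 : α = δ * γ := by rw [hδ, div_mul_cancel₀ _ hγ0]
  rw [h8, map_mul, h7, hγ q hq A hA σ hσ]

/-- extraction of roots of `S`-units -/
theorem SL.root_unit {α β : Qb} {n : ℕ} (hβ : SL S β) (hβ0 : β ≠ 0) (hβu : SU S β)
    (hαβ : α ^ n = β) (hn : ∀ q : Nat.Primes, q ∉ S → ¬ (q : ℕ) ∣ n) : SL S α := by
  refine SL.root hβ hβ0 hαβ hn fun q hq A hA => ⟨1, one_ne_zero, SL.one, ?_⟩
  rw [one_pow, div_one]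
  exact hβu q hq A hA

end Fermat.Agent.H02M
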