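import Mathlib
import Fermat.Agent.H02M.SUnit
import Fermat.Agent.H02L.Dict
import Fermat.Agent.H02L.LocNorm
import Fermat.Agent.CFT.Ext2

set_option autoImplicit false
set_option linter.unusedSectionVars false
set_option linter.style.haveILetI false

/-!
# Primes over `S` and places
-/

noncomputable section

namespace Fermat.Agent.H02M

open Module NumberField IsDedekindDomain WithZero Fermat.Agent.CFT
open scoped Pointwise
open Fermat.Agent.CC (PrimeUnder)
open Fermat.Agent.TW (NVal Bl Bs)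
open Fermat.Agent.LF (DK ZK)

variable {S : Finset Nat.Primes}

/-- primes of `K` over `S` -/
def SK (S : Finset Nat.Primes) (K : IntermediateField ℚ Qb) [NumberField K] :
    Set (HeightOneSpectrum (𝓞 K)) :=
  {v | ∃ q ∈ S, ∃ A : ValuationSubring Qb, A.LiesOverPrime (q : ℕ) ∧ PrimeUnder A K v}

variable {K F : IntermediateField ℚ Qb} [NumberField K] [NumberField F]

theorem natCast_mem_of_primeUnder {A : ValuationSubring Qb} {q : ℕ} (hA : A.LiesOverPrime q)
    {v : HeightOneSpectrum (𝓞 K)} (hv : PrimeUnder A K v) : (q : 𝓞 K) ∈ v.asIdeal := by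
  rw [← H02L.primeOf_of_primeUnder hv, L00.Unr.mem_primeOf]
  have h3 : (((q : 𝓞 K) : K) : Qb) = (q : Qb) := by push_cast; rfl
  rw [h3]
  exact hA

theorem SK_finite (S : Finset Nat.Primes) (K : IntermediateField ℚ Qb) [NumberField K] :
    (SK S K).Finite := by
  have h1 : SK S K ⊆ ⋃ q ∈ S, {v : HeightOneSpectrum (𝓞 K) | v.asIdeal ∣ Ideal.span {((q : ℕ) : 𝓞 K)}} := by
    rintro v ⟨q, hq, A, hA, hv⟩
    rw [Set.mem_iUnion₂]
    refine ⟨q, hq, ?_⟩
    rw [Set.mem_ofPred_eq, Ideal.dvd_span_singleton]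
    exact natCast_mem_of_primeUnder hA hv
  refine Set.Finite.subset ?_ h1
  refine Set.Finite.biUnion S.finite_toSet fun q _ => ?_
  refine Ideal.finite_factors ?_
  rw [Ne, Ideal.zero_eq_bot, Ideal.span_singleton_eq_bot]
  exact Nat.cast_ne_zero.mpr q.2.ne_zero

theorem eq_of_liesOver {A : ValuationSubring Qb} {q q' : ℕ} (hq : q.Prime) (hq' : q'.Prime)
    (hA : A.LiesOverPrime q) (hA' : A.LiesOverPrime q') : q = q' := by
  by_contra hne
  obtain ⟨w, hw⟩ := TW.exists_NVal hq hA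
  have h1 : Bs w 0 (q : Qb) := hw.nonunits_iff.1 hA
  have h2 : Bs w 0 (q' : Qb) := hw.nonunits_iff.1 hA'
  have hco : IsCoprime (q : ℤ) (q' : ℤ) := Nat.isCoprime_iff_coprime.mpr ((Nat.coprime_primes hq hq').mpr hne)
  obtain ⟨a, b, hab⟩ := hco
  have h3 : ((a * q + b * q' : ℤ) : Qb) = 1 := by rw [hab]; simp
  push_cast at h3
  have h4 : Bs w 0 (1 : Qb) := by
    rw [← h3]
    exact hw.Bs_add (hw.Bs_mul_left (hw.intCast a) h1) (hw.Bs_mul_left (hw.intCast b) h2)
  rcases h4 with h4 | h4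
  · exact one_ne_zero h4
  · rw [hw.log.one] at h4
    exact lt_irrefl _ h4

theorem mem_SK_iff {A : ValuationSubring Qb} {q : Nat.Primes} (hA : A.LiesOverPrime (q : ℕ))
    {v : HeightOneSpectrum (𝓞 K)} (hv : PrimeUnder A K v) : v ∈ SK S K ↔ q ∈ S := by
  constructor
  · rintro ⟨q', hq', A', hA', hv'⟩
    obtain ⟨g, -, rfl⟩ := H02L.exists_conj q.2 hA hv hv'
    have h1 := (H05.liesOverPrime_smul_iff g A (q : ℕ)).mpr hA
    have h2 := eq_of_liesOver q.2 q'.2 h1 hA'
    rwa [Nat.Primes.coe_nat_injective h2]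
  · intro hq
    exact ⟨q, hq, A, hA, hv⟩

/-- places above primes -/
theorem exists_place (v : HeightOneSpectrum (𝓞 K)) :
    ∃ (q : Nat.Primes) (A : ValuationSubring Qb), A.LiesOverPrime (q : ℕ) ∧ PrimeUnder A K v := by
  obtain ⟨q, A, hq, hA, hv⟩ := H02L.exists_place_over v
  exact ⟨⟨q, hq⟩, A, hA, hv⟩

theorem unit_iff {A : ValuationSubring Qb} {v : HeightOneSpectrum (𝓞 K)} (hv : PrimeUnder A K v)
    (x : Kˣ) : (((x : K) : Qb) ∈ A ∧ ((x : K) : Qb)⁻¹ ∈ A) ↔ ordv v x = 0 := by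
  have h1 := hv (x : K)
  have h2 := hv ((x⁻¹ : Kˣ) : K)
  have h3 : (((x⁻¹ : Kˣ) : K) : Qb) = ((x : K) : Qb)⁻¹ := by
    rw [Units.val_inv_eq_inv_val]; push_cast; rfl
  rw [h3] at h2
  rw [h1, h2, valuation_le_one_iff, valuation_le_one_iff, ordv_inv]
  constructor
  · rintro ⟨h4, h5⟩
    omega
  · intro h
    rw [h]
    exact ⟨le_refl _, by omega⟩

/-- `S`-units in terms of orders -/
theorem SU_iff (x : Kˣ) : SU S ((x : K) : Qb) ↔ ∀ v ∉ SK S K, ordv v x = 0 := by
  constructor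
  · intro h v hv
    obtain ⟨q, A, hA, hvA⟩ := exists_place v
    have hq : q ∉ S := fun hq => hv ((mem_SK_iff hA hvA).mpr hq)
    exact (unit_iff hvA x).mp (h q hq A hA)
  · intro h q hq A hA
    have hv := H02L.primeUnder_plc q.2 hA K
    refine (unit_iff hv x).mpr (h _ fun hmem => hq ((mem_SK_iff hA hv).mp hmem))

/-- value groups of fields unramified outside `S` -/
theorem eps_eq_one {A : ValuationSubring Qb} {q : ℕ} {w : Qb → ℝ} (hq : q.Prime)
    (hA : A.LiesOverPrime q) (h : NVal A q w) {v : HeightOneSpectrum (𝓞 K)}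
    (hv : PrimeUnder A K v) (hK : A.inertiaSubgroupIn ℚ ≤ K.fixingSubgroup) (x : Kˣ) :
    w ((x : K) : Qb) = ordv v x := by
  obtain ⟨ε, hε, hw⟩ := H02L.exists_eps h hv
  obtain ⟨π, hπ⟩ := H02L.exists_ordv_one v
  have hint : ∃ n : ℤ, w ((π : K) : Qb) = n := by
    have hπ0 : ((π : K) : Qb) ≠ 0 := by exact_mod_cast π.ne_zero
    refine TW.PL.int_of_fixed ⟨hq, hA, h⟩ hπ0 fun σ hσ => ?_
    exact (IntermediateField.mem_fixingSubgroup_iff K σ).mp (hK hσ) _ (π : K).2
  obtain ⟨n, hn⟩ := hint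
  rw [hw, hπ, Int.cast_one, one_mul] at hn
  have hq0 : (q : K) ≠ 0 := Nat.cast_ne_zero.mpr hq.ne_zero
  have h1 := hw (Units.mk0 (q : K) hq0)
  rw [Units.val_mk0] at h1
  have h2 : (((q : K) : K) : Qb) = (q : Qb) := by push_cast; rfl
  rw [h2, h.norm] at h1
  set m := ordv v (Units.mk0 (q : K) hq0) with hm
  have h3 : (m : ℝ) * n = 1 := by rw [← hn]; exact h1.symm
  have h4 : m * n = 1 := by exact_mod_cast h3
  have hn0 : 0 < n := by
    have : (0 : ℝ) < n := by rw [← hn]; exact hε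
    exact_mod_cast this
  have hn1 : n = 1 := by
    rcases Int.mul_eq_one_iff_eq_one_or_neg_one.mp h4 with h5 | h5
    · exact h5.2
    · omega
  rw [hw, hn, hn1, Int.cast_one, mul_one]

variable [Algebra K F] [IsScalarTower K F Qb]

/-- no ramification outside `S` -/
theorem ramE_eq_one (hF : F.IsUnramifiedOutside S) (P : HeightOneSpectrum (𝓞 F))
    (hP : under K F P ∉ SK S K) : ramE K P = 1 := by
  obtain ⟨q, A, hA, hPA⟩ := exists_place P
  have hv := primeUnder_under (K := K) hPA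
  have hq : q ∉ S := fun hq => hP ((mem_SK_iff hA hv).mpr hq)
  obtain ⟨w, hw⟩ := TW.exists_NVal q.2 hA
  have hFi := hF.2 q hq A hA
  have hKi : A.inertiaSubgroupIn ℚ ≤ K.fixingSubgroup :=
    hFi.trans (IntermediateField.fixingSubgroup_antitone (H02L.le_of_tower K F))
  obtain ⟨π, hπ⟩ := H02L.exists_ordv_one (under K F P)
  have h1 := eps_eq_one q.2 hA hw hv hKi π
  have h2 := eps_eq_one q.2 hA hw hPA hFi (incl K F π)
  have h3 : ((incl K F π : F) : Qb) = ((π : K) : Qb) := by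
    rw [incl_coe]
    exact H02L.coe_algebraMap' K F _
  rw [h3, h1, ordv_incl, hπ] at h2
  have h4 : (1 : ℝ) = ramE K P := by
    have := h2
    push_cast at this
    linarith
  exact_mod_cast h4.symm

end Fermat.Agent.H02M
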