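import Mathlib
import Fermat.Agent.CFT.IndexCount
import Fermat.Agent.CFT.Hasse

set_option autoImplicit false
set_option linter.unusedSectionVars false
set_option linter.style.haveILetI false

/-!
# The second inequality for an arbitrary finite set of primes
-/

noncomputable section

namespace Fermat.Agent.H02M

open Module NumberField IsDedekindDomain WithZero Fermat.Agent.CFT

variable {K F : Type} [Field K] [NumberField K] [Field F] [NumberField F] [Algebra K F]

/-- elements of `K` whose order outside `S` is divisible by the local degree -/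
def VS (F : Type) [Field F] [NumberField F] [Algebra K F]
    (S : Set (HeightOneSpectrum (𝓞 K))) : Subgroup Kˣ where
  carrier := {a | ∀ v ∉ S, (locDeg K F v : ℤ) ∣ ordv v a}
  one_mem' v _ := by rw [ordv_one]; exact dvd_zero _
  mul_mem' {a b} ha hb v hv := by rw [ordv_mul]; exact dvd_add (ha v hv) (hb v hv)
  inv_mem' {a} ha v hv := by rw [ordv_inv]; exact (dvd_neg).mpr (ha v hv)

theorem mem_VS {S : Set (HeightOneSpectrum (𝓞 K))} {a : Kˣ} :
    a ∈ VS F S ↔ ∀ v ∉ S, (locDeg K F v : ℤ) ∣ ordv v a := Iff.rfl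

variable [IsGalois K F] (σ : F ≃ₐ[K] F) (hσ : ∀ τ : F ≃ₐ[K] F, τ ∈ Subgroup.zpowers σ)

include hσ in
/-- local norms at unramified primes have order divisible by the local degree -/
theorem dvd_ordv_of_mem_LN {P : HeightOneSpectrum (𝓞 F)} (hP : ramE K P = 1) {a : Kˣ}
    (ha : a ∈ LN F (under K F P)) : (locDeg K F (under K F P) : ℤ) ∣ ordv (under K F P) a := by
  rw [LN, Subgroup.mem_iInf] at ha
  obtain ⟨_, ⟨b, rfl⟩, u, hu, rfl⟩ := Subgroup.mem_sup.mp (ha 0)
  have h1 := ram_mul_ordv_NK σ hσ P b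
  rw [hP, Nat.cast_one, one_mul] at h1
  rw [ordv_mul, h1, ordv_eq_zero_of_Uw hu, add_zero]
  exact dvd_mul_right _ _

include hσ in
/-- **Second inequality** for an arbitrary finite set of primes containing the ramified ones. -/
theorem index_VS (S : Set (HeightOneSpectrum (𝓞 K))) (hS : S.Finite) (p : ℕ) [hp : Fact p.Prime]
    (hn : finrank K F = p)
    (hunr : ∀ P : HeightOneSpectrum (𝓞 F), under K F P ∉ S → ramE K P = 1) :
    ((⨅ w : S, LN F w.1) ⊔ VS F S).index ≠ 0 ∧ ((⨅ w : S, LN F w.1) ⊔ VS F S).index ≤ p := by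
  classical
  obtain ⟨S', hS'fin, hSS', hgen, hgenF⟩ := exists_sgen_both K F S hS
  haveI : Fintype S' := hS'fin.fintype
  obtain ⟨h1, h2⟩ := index_HS σ hσ S' p hn hgen hgenF
    (fun P hP => hunr P fun h => hP (hSS' h))
  set X := (⨅ w : S, LN F w.1) ⊔ VS F S with hX
  set LB : Subgroup Kˣ := ⨅ w : (S' \ S : Set _), LN F w.1 with hLB
  -- approximation
  have hsup : LB ⊔ X = ⊤ := by
    rw [eq_top_iff]
    intro a _
    choose m hm using fun w : S' => exists_Uw_le_LN (F := F) w.1
    obtain ⟨x, hx⟩ := weak_approx S' (fun w => if w.1 ∈ S then a else 1) (∑ w, m w)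
    have hx' : ∀ w : S', x / (if w.1 ∈ S then a else 1) ∈ LN F w.1 := fun w =>
      hm w (Uw_antitone w.1 (Finset.single_le_sum (fun _ _ => Nat.zero_le _)
        (Finset.mem_univ w)) (hx w))
    have hxB : x ∈ LB := by
      rw [hLB, Subgroup.mem_iInf]
      rintro ⟨w, hw, hwS⟩
      have h3 := hx' ⟨w, hw⟩
      simp only [if_neg hwS, div_one] at h3
      exact h3
    have hxA : x / a ∈ (⨅ w : S, LN F w.1 : Subgroup Kˣ) := by
      rw [Subgroup.mem_iInf]
      rintro ⟨w, hw⟩
      have h3 := hx' ⟨w, hSS' hw⟩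
      simp only [if_pos hw] at h3
      exact h3
    have h4 : a = x * (x / a)⁻¹ := by
      rw [inv_div, mul_div_cancel]
    rw [h4]
    exact Subgroup.mul_mem_sup hxB ((X).inv_mem (Subgroup.mem_sup_left hxA))
  have hle : HS F S' ⊓ LB ≤ X := by
    rintro b ⟨hb1, hb2⟩
    obtain ⟨l, hl, s, hs, rfl⟩ := Subgroup.mem_sup.mp hb1
    have hlB : l ∈ LB := by
      rw [hLB, Subgroup.mem_iInf]
      rintro ⟨w, hw, hwS⟩
      exact (Subgroup.mem_iInf.mp hl) ⟨w, hw⟩
    have hlA : l ∈ (⨅ w : S, LN F w.1 : Subgroup Kˣ) := by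
      rw [Subgroup.mem_iInf]
      rintro ⟨w, hw⟩
      exact (Subgroup.mem_iInf.mp hl) ⟨w, hSS' hw⟩
    have hsB : s ∈ LB := (LB.mul_mem_cancel_left hlB).mp hb2
    refine Subgroup.mul_mem_sup hlA ?_
    intro v hv
    obtain ⟨P, rfl⟩ := under_surjective (F := F) v
    by_cases hv' : under K F P ∈ S'
    · exact dvd_ordv_of_mem_LN σ hσ (hunr P hv) ((Subgroup.mem_iInf.mp hsB) ⟨_, hv', hv⟩)
    · rw [hs _ hv']
      exact dvd_zero _
  have e1 : X.index = X.relIndex LB := by
    rw [← Subgroup.relIndex_top_right, ← hsup, Subgroup.relIndex_sup_right]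
  have e2 : X.relIndex LB ∣ (HS F S').relIndex LB := by
    rw [← Subgroup.inf_relIndex_right (HS F S') LB]
    exact Subgroup.relIndex_dvd_of_le_left _ hle
  have e3 : (HS F S').relIndex LB ∣ (HS F S').index := Subgroup.relIndex_dvd_index_of_normal _ _
  have e4 : X.index ∣ (HS F S').index := by rw [e1]; exact e2.trans e3
  have hpos : 0 < (HS F S').index := Nat.pos_of_ne_zero h1
  exact ⟨fun h0 => by rw [h0, zero_dvd_iff] at e4; exact h1 e4,
    (Nat.le_of_dvd hpos e4).trans h2⟩

end Fermat.Agent.H02M
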