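import Mathlib
import Fermat.Agent.H02M.Count

set_option autoImplicit false
set_option linter.unusedSectionVars false
set_option linter.style.haveILetI false

/-!
# Powers of ideals with given norm
-/

noncomputable section

namespace Fermat.Agent.H02M

open Module NumberField IsDedekindDomain WithZero Fermat.Agent.CFT
open scoped nonZeroDivisors Classical

/-- the class number kills all primes -/
theorem exists_pi (F : Type) [Field F] [NumberField F] :
    ∃ h : ℕ, 0 < h ∧ ∀ P : HeightOneSpectrum (𝓞 F), ∃ x : Fˣ,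
      ∀ Q, ordv Q x = if Q = P then (h : ℤ) else 0 := by
  refine ⟨Fintype.card (ClassGroup (𝓞 F)), Fintype.card_pos, fun P => ?_⟩
  set h := Fintype.card (ClassGroup (𝓞 F)) with hh
  have hP0 : P.asIdeal ∈ (Ideal (𝓞 F))⁰ := mem_nonZeroDivisors_of_ne_zero P.ne_bot
  have h1 : ClassGroup.mk0 (⟨P.asIdeal, hP0⟩ ^ h) = 1 := by
    rw [map_pow]
    exact pow_card_eq_one
  rw [ClassGroup.mk0_eq_one_iff] at h1
  obtain ⟨a, ha⟩ := h1
  have ha' : P.asIdeal ^ h = Ideal.span {a} := ha
  have ha0 : a ≠ 0 := by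
    rintro rfl
    rw [Ideal.span_singleton_eq_bot.mpr rfl] at ha'
    exact pow_ne_zero _ P.ne_bot ha'
  have ha0' : (a : F) ≠ 0 := by exact_mod_cast ha0
  refine ⟨Units.mk0 (a : F) ha0', fun Q => ?_⟩
  have h2 : FractionalIdeal.spanSingleton (𝓞 F)⁰ (a : F) =
      (P.asIdeal : FractionalIdeal (𝓞 F)⁰ F) ^ h := by
    rw [← FractionalIdeal.coeIdeal_pow, ha', FractionalIdeal.coeIdeal_span_singleton]
  change FractionalIdeal.count F Q (FractionalIdeal.spanSingleton (𝓞 F)⁰ (a : F)) = _
  rw [h2, FractionalIdeal.count_pow, FractionalIdeal.count_maximal]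
  by_cases hQ : Q = P
  · rw [if_pos hQ, if_pos hQ.symm, mul_one]
  · rw [if_neg hQ, if_neg fun h => hQ h.symm, mul_zero]

variable {K F : Type} [Field K] [NumberField K] [Field F] [NumberField F] [Algebra K F]
variable [IsGalois K F] (σ : F ≃ₐ[K] F) (hσ : ∀ τ : F ≃ₐ[K] F, τ ∈ Subgroup.zpowers σ)

include hσ in
/-- an element of `VS` is up to `S`-units and powers a norm from `F`, of an element which is a power
as an ideal -/
theorem exists_beta (S : Set (HeightOneSpectrum (𝓞 K)))
    (hunr : ∀ P : HeightOneSpectrum (𝓞 F), under K F P ∉ S → ramE K P = 1) :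
    ∃ h : ℕ, 0 < h ∧ ∀ a ∈ VS F S, ∃ β : Fˣ, (∀ P : HeightOneSpectrum (𝓞 F), (h : ℤ) ∣ ordv P β) ∧
      ∀ v ∉ S, ordv v (NK K F β) = h * ordv v a := by
  obtain ⟨h, hh, hpi⟩ := exists_pi F
  refine ⟨h, hh, fun a ha => ?_⟩
  choose π hπ using hpi
  choose P hP using under_surjective (K := K) (F := F)
  set T : Finset (HeightOneSpectrum (𝓞 K)) := (ordv_finite a).toFinset.filter (fun v => v ∉ S) with hT
  set n : HeightOneSpectrum (𝓞 K) → ℤ := fun v => ordv v a / locDeg K F v with hn
  set β : Fˣ := ∏ v ∈ T, π (P v) ^ n v with hβ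
  have hord : ∀ Q, ordv Q β = ∑ v ∈ T, n v * (if Q = P v then (h : ℤ) else 0) := by
    intro Q
    rw [hβ, ordv_prod]
    refine Finset.sum_congr rfl fun v _ => ?_
    rw [ordv_zpow, hπ]
  refine ⟨β, fun Q => ?_, fun v0 hv0 => ?_⟩
  · rw [hord]
    refine Finset.dvd_sum fun v _ => ?_
    split_ifs
    · exact dvd_mul_left _ _
    · rw [mul_zero]; exact dvd_zero _
  · have h1 := ram_mul_ordv_NK σ hσ (P v0) β
    rw [hunr (P v0) (by rw [hP]; exact hv0), hP, Nat.cast_one, one_mul] at h1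
    rw [h1]
    have h2 : ∑ Q ∈ fib F v0, ordv Q β = n v0 * h := by
      rw [Finset.sum_congr rfl fun Q _ => hord Q, Finset.sum_comm]
      have h3 : ∀ v ∈ T, ∑ Q ∈ fib F v0, n v * (if Q = P v then (h : ℤ) else 0) =
          if v = v0 then n v0 * h else 0 := by
        intro v _
        rw [← Finset.mul_sum, Finset.sum_ite_eq']
        by_cases hv : v = v0
        · subst hv
          rw [if_pos (mem_fib.mpr (hP _)), if_pos rfl]
        · rw [if_neg (fun h => hv (by rw [← hP v]; exact mem_fib.mp h)), if_neg hv, mul_zero]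
      rw [Finset.sum_congr rfl h3, Finset.sum_ite_eq']
      by_cases hv0T : v0 ∈ T
      · rw [if_pos hv0T]
      · rw [if_neg hv0T]
        have h4 : ordv v0 a = 0 := by
          by_contra hne
          exact hv0T (Finset.mem_filter.mpr ⟨(ordv_finite a).mem_toFinset.mpr hne, hv0⟩)
        rw [hn]
        simp only [h4, Int.zero_ediv, zero_mul]
    rw [h2]
    have h5 := Int.mul_ediv_cancel' (ha v0 hv0)
    calc (locDeg K F v0 : ℤ) * (n v0 * h) = (locDeg K F v0 * n v0) * h := by ring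
      _ = ordv v0 a * h := by rw [hn]; simp only [h5]
      _ = _ := by ring

/-- elements with given orders up to `p`-divisibility -/
theorem exists_root_local (P : HeightOneSpectrum (𝓞 F)) (β : Fˣ) (n : ℕ)
    (hn : (n : ℤ) ∣ ordv P β) : ∃ γ : Fˣ, ordv P (β / γ ^ n) = 0 := by
  obtain ⟨x, hx⟩ := exists_ordv_one P
  obtain ⟨k, hk⟩ := hn
  refine ⟨x ^ k, ?_⟩
  rw [ordv_div, ordv_pow, ordv_zpow, hx, hk]
  ring

end Fermat.Agent.H02M
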