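import Mathlib

set_option autoImplicit false
set_option linter.unusedSectionVars false
set_option linter.style.haveILetI false

/-!
# Index of the subgroup of `p`-th powers
-/

noncomputable section

namespace Fermat.Agent.H02M

/-- index of the `n`-th powers -/
def pidx (G : Type*) [CommGroup G] (n : ℕ) : ℕ := (powMonoidHom n : G →* G).range.index

theorem pidx_congr {G G' : Type*} [CommGroup G] [CommGroup G'] (e : G ≃* G') (n : ℕ) :
    pidx G n = pidx G' n := by
  unfold pidx
  have h1 : (powMonoidHom n : G →* G).range =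
      ((powMonoidHom n : G' →* G').range).comap e.toMonoidHom := by
    ext x
    constructor
    · rintro ⟨y, rfl⟩
      exact ⟨e y, (map_pow e y n).symm⟩
    · rintro ⟨y, hy⟩
      refine ⟨e.symm y, ?_⟩
      apply e.injective
      change e ((e.symm y) ^ n) = e x
      rw [map_pow, e.apply_symm_apply]
      exact hy
  rw [h1]
  exact Subgroup.index_comap_of_surjective _ e.surjective

/-- multiplicativity of the index of powers -/
theorem pidx_mul {A B : Type*} [CommGroup A] [CommGroup B] (f : A →* B) (n : ℕ)
    (hB : ∀ b : B, b ^ n = 1 → b = 1) : pidx A n = pidx f.range n * pidx f.ker n := by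
  unfold pidx
  set P := (powMonoidHom n : A →* A).range with hP
  have h1 := Subgroup.relIndex_mul_index (show P ≤ f.ker ⊔ P from le_sup_right)
  rw [Subgroup.relIndex_sup_right] at h1
  have h2 : P.relIndex f.ker = (powMonoidHom n : f.ker →* f.ker).range.index := by
    rw [Subgroup.relIndex]
    congr 1
    ext ⟨x, hx⟩
    rw [Subgroup.mem_subgroupOf]
    constructor
    · rintro ⟨y, hy⟩
      have hy' : y ^ n = x := hy
      have hyk : y ∈ f.ker := by
        rw [MonoidHom.mem_ker]
        apply hB
        rw [← map_pow, hy']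
        exact hx
      exact ⟨⟨y, hyk⟩, Subtype.ext hy'⟩
    · rintro ⟨y, hy⟩
      exact ⟨y.1, congrArg Subtype.val hy⟩
  have h3 : (f.ker ⊔ P).index = (powMonoidHom n : f.range →* f.range).range.index := by
    have h4 : f.ker ⊔ P = ((powMonoidHom n : f.range →* f.range).range).comap f.rangeRestrict := by
      ext x
      rw [Subgroup.mem_sup, Subgroup.mem_comap]
      constructor
      · rintro ⟨k, hk, _, ⟨y, rfl⟩, rfl⟩
        refine ⟨f.rangeRestrict y, ?_⟩
        apply Subtype.ext
        change (f y) ^ n = f (k * y ^ n)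
        rw [map_mul, (MonoidHom.mem_ker).mp hk, one_mul, map_pow]
      · rintro ⟨⟨_, y, rfl⟩, hy⟩
        have hy' : (f y) ^ n = f x := congrArg Subtype.val hy
        refine ⟨x * (y ^ n)⁻¹, ?_, y ^ n, ⟨y, rfl⟩, inv_mul_cancel_right _ _⟩
        rw [MonoidHom.mem_ker, map_mul, map_inv, map_pow, hy', mul_inv_cancel]
    rw [h4, Subgroup.index_comap_of_surjective _ f.rangeRestrict_surjective]
  rw [h2, h3] at h1
  rw [← h1, mul_comm]

/-- finite index subgroups of torsion-free groups -/
theorem pidx_of_index {L : Type*} [CommGroup L] (D : Subgroup L) (hD : D.index ≠ 0) (n : ℕ)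
    (hL : ∀ b : L, b ^ n = 1 → b = 1) : pidx D n = pidx L n := by
  unfold pidx
  set φ : L →* L := powMonoidHom n with hφ
  have hinj : Function.Injective φ := by
    rw [injective_iff_map_eq_one]
    exact hL
  have h1 : D.map φ ≤ D := by
    rintro _ ⟨x, hx, rfl⟩
    exact D.pow_mem hx n
  have h2 : D.map φ ≤ φ.range := Subgroup.map_le_range φ D
  have e1 := Subgroup.relIndex_mul_index h1
  have e2 := Subgroup.relIndex_mul_index h2
  have e3 : (D.map φ).relIndex φ.range = D.index := by
    rw [MonoidHom.range_eq_map, Subgroup.relIndex_map_map_of_injective _ _ hinj,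
      Subgroup.relIndex_top_right]
  have e4 : (D.map φ).relIndex D = (powMonoidHom n : D →* D).range.index := by
    rw [Subgroup.relIndex]
    congr 1
    ext ⟨x, hx⟩
    rw [Subgroup.mem_subgroupOf]
    constructor
    · rintro ⟨y, hy, hyx⟩
      exact ⟨⟨y, hy⟩, Subtype.ext hyx⟩
    · rintro ⟨y, hy⟩
      exact ⟨y.1, y.2, congrArg Subtype.val hy⟩
  rw [e3] at e2
  rw [e4] at e1
  rw [← e2, mul_comm D.index] at e1
  exact Nat.eq_of_mul_eq_mul_right (Nat.pos_of_ne_zero hD) e1

/-- lattices -/
theorem pidx_lattice (ι : Type*) [Fintype ι] (n : ℕ) (hn : n ≠ 0) :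
    pidx (Multiplicative (ι → ℤ)) n = n ^ Fintype.card ι := by
  haveI : NeZero n := ⟨hn⟩
  unfold pidx
  let f : Multiplicative (ι → ℤ) →* Multiplicative (ι → ZMod n) :=
    AddMonoidHom.toMultiplicative
      { toFun := fun x i => (x i : ZMod n)
        map_zero' := funext fun i => Int.cast_zero
        map_add' := fun x y => funext fun i => Int.cast_add _ _ }
  have hf : Function.Surjective f := by
    intro y
    choose x hx using fun i => ZMod.intCast_surjective (y.toAdd i)
    exact ⟨Multiplicative.ofAdd x, congrArg Multiplicative.ofAdd (funext hx)⟩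
  have hker : (powMonoidHom n : Multiplicative (ι → ℤ) →* Multiplicative (ι → ℤ)).range = f.ker := by
    ext x
    rw [MonoidHom.mem_ker]
    constructor
    · rintro ⟨y, rfl⟩
      refine congrArg Multiplicative.ofAdd (funext fun i => ?_)
      change (((n • y.toAdd : ι → ℤ) i : ℤ) : ZMod n) = 0
      rw [Pi.smul_apply, nsmul_eq_mul]
      simp
    · intro h
      have h1 : ∀ i, ((x.toAdd i : ℤ) : ZMod n) = 0 := fun i => congrFun (congrArg Multiplicative.toAdd h) i
      have h2 : ∀ i, ∃ k : ℤ, x.toAdd i = n * k := fun i => (ZMod.intCast_zmod_eq_zero_iff_dvd _ n).mp (h1 i)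
      choose k hk using h2
      refine ⟨Multiplicative.ofAdd k, ?_⟩
      apply Multiplicative.toAdd.injective
      funext i
      change (n • k) i = x.toAdd i
      rw [Pi.smul_apply, nsmul_eq_mul, hk]
  rw [hker, Subgroup.index_ker, MonoidHom.range_eq_top.mpr hf,
    Nat.card_congr (Subgroup.topEquiv (G := Multiplicative (ι → ZMod n))).toEquiv,
    Nat.card_congr Multiplicative.toAdd, Nat.card_pi]
  simp [Nat.card_zmod]

end Fermat.Agent.H02M
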