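import Mathlib
import Fermat.Agent.H02M.PowIndex
import Fermat.Agent.H02M.Beta

set_option autoImplicit false
set_option linter.unusedSectionVars false
set_option linter.style.haveILetI false

/-!
# The `S`-units modulo `p`-th powers
-/

noncomputable section

namespace Fermat.Agent.H02M

open Module NumberField IsDedekindDomain WithZero Fermat.Agent.CFT NumberField.Units
open scoped Classical

variable {K : Type} [Field K] [NumberField K]

/-- orders at the places of `T` -/
def dv (T : Set (HeightOneSpectrum (𝓞 K))) : SU T →* Multiplicative (T → ℤ) where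
  toFun x := Multiplicative.ofAdd (fun w => ordv w.1 (x : Kˣ))
  map_one' := congrArg Multiplicative.ofAdd (funext fun w => ordv_one w.1)
  map_mul' x y := congrArg Multiplicative.ofAdd (funext fun w => ordv_mul w.1 _ _)

/-- units as `S`-units -/
def unitsToKer (T : Set (HeightOneSpectrum (𝓞 K))) : (𝓞 K)ˣ →* (dv T).ker where
  toFun u := ⟨⟨unitsHom K u, fun v _ => ordv_unitsHom v u⟩,
    congrArg Multiplicative.ofAdd (funext fun w => ordv_unitsHom w.1 u)⟩
  map_one' := Subtype.ext (Subtype.ext (map_one _))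
  map_mul' a b := Subtype.ext (Subtype.ext (map_mul _ _ _))

theorem unitsToKer_bijective (T : Set (HeightOneSpectrum (𝓞 K))) :
    Function.Bijective (unitsToKer T) := by
  constructor
  · intro u v h
    exact unitsHom_injective (congrArg (fun z => ((z : (dv T).ker).1 : SU T).1) h)
  · rintro ⟨⟨x, hx⟩, hx'⟩
    obtain ⟨u, hu⟩ := exists_unit_of_ordv_eq_zero x (fun v => by
      by_cases hv : v ∈ T
      · exact congrFun (congrArg Multiplicative.toAdd hx') ⟨v, hv⟩
      · exact hx v hv)
    exact ⟨u, Subtype.ext (Subtype.ext hu)⟩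

theorem torsionFree_pi (ι : Type*) (n : ℕ) (hn : n ≠ 0) (b : Multiplicative (ι → ℤ))
    (hb : b ^ n = 1) : b = 1 := by
  apply Multiplicative.toAdd.injective
  funext i
  have h1 := congrFun (congrArg Multiplicative.toAdd hb) i
  have h2 : (n : ℤ) * b.toAdd i = 0 := by
    have h3 : (n • b.toAdd) i = 0 := h1
    rwa [Pi.smul_apply, nsmul_eq_mul] at h3
  rcases mul_eq_zero.mp h2 with h3 | h3
  · exact absurd (by exact_mod_cast h3) hn
  · exact h3

theorem index_range_dv (T : Set (HeightOneSpectrum (𝓞 K))) [Fintype T] :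
    (dv T).range.index ≠ 0 := by
  obtain ⟨h, hh, hπ⟩ := exists_pi K
  choose π hπ using hπ
  have h1 : (powMonoidHom h : Multiplicative (T → ℤ) →* Multiplicative (T → ℤ)).range ≤
      (dv T).range := by
    rintro _ ⟨m, rfl⟩
    refine ⟨⟨∏ w : T, π w.1 ^ (m.toAdd w), ?_⟩, ?_⟩
    · intro v hv
      rw [ordv_prod]
      refine Finset.sum_eq_zero fun w _ => ?_
      rw [ordv_zpow, hπ, if_neg (fun h => hv (by rw [h]; exact w.2)), mul_zero]
    · apply Multiplicative.toAdd.injective
      funext w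
      change ordv w.1 (∏ w : T, π w.1 ^ (m.toAdd w)) = (h • m.toAdd) w
      rw [ordv_prod, Finset.sum_eq_single w]
      · rw [ordv_zpow, hπ, if_pos rfl, Pi.smul_apply, nsmul_eq_mul, mul_comm]
      · intro w' _ hne
        rw [ordv_zpow, hπ, if_neg (fun h => hne (Subtype.ext h.symm)), mul_zero]
      · intro h
        exact absurd (Finset.mem_univ _) h
  intro h0
  have h2 := Subgroup.index_dvd_of_le h1
  rw [h0, zero_dvd_iff] at h2
  have h3 := pidx_lattice T h hh.ne'
  rw [pidx, h2] at h3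
  exact pow_ne_zero _ hh.ne' h3.symm

/-- units in terms of the fundamental system -/
def unitsEquivHom (K : Type) [Field K] [NumberField K] :
    torsion K × Multiplicative (Fin (rank K) → ℤ) →* (𝓞 K)ˣ where
  toFun x := x.1 * ∏ i, fundSystem K i ^ (x.2.toAdd i)
  map_one' := by
    change ((1 : torsion K) : (𝓞 K)ˣ) * ∏ i, fundSystem K i ^ (0 : ℤ) = 1
    simp
  map_mul' x y := by
    have h1 : ∀ i, fundSystem K i ^ ((x.2 * y.2).toAdd i) =
        fundSystem K i ^ (x.2.toAdd i) * fundSystem K i ^ (y.2.toAdd i) := fun i => zpow_add _ _ _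
    change ((x.1 * y.1 : torsion K) : (𝓞 K)ˣ) * ∏ i, fundSystem K i ^ ((x.2 * y.2).toAdd i) = _
    rw [Finset.prod_congr rfl fun i _ => h1 i, Finset.prod_mul_distrib, Subgroup.coe_mul]
    exact mul_mul_mul_comm _ _ _ _

theorem unitsEquivHom_bijective : Function.Bijective (unitsEquivHom K) := by
  constructor
  · intro x y h
    obtain ⟨z, _, hz⟩ := exist_unique_eq_mul_prod K (unitsEquivHom K x)
    have h1 := hz (x.1, x.2.toAdd) rfl
    have h2 := hz (y.1, y.2.toAdd) h
    rw [← h2] at h1
    have h3 : x.1 = y.1 := congrArg Prod.fst h1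
    have h4 : x.2.toAdd = y.2.toAdd := congrArg Prod.snd h1
    exact Prod.ext h3 h4
  · intro x
    obtain ⟨z, hz, _⟩ := exist_unique_eq_mul_prod K x
    exact ⟨(z.1, Multiplicative.ofAdd z.2), hz.symm⟩

/-- index of powers in the torsion -/
theorem pidx_torsion (p : ℕ) (hp : p.Prime) (hζ : ∃ ζ : K, IsPrimitiveRoot ζ p) :
    pidx (torsion K) p = p := by
  obtain ⟨ζ, hζ⟩ := hζ
  unfold pidx
  rw [IsCyclic.index_powMonoidHom_range]
  -- the root of unity
  haveI : NeZero p := ⟨hp.ne_zero⟩
  have hζu : IsPrimitiveRoot (hζ.toInteger : 𝓞 K) p := hζ.toInteger_isPrimitiveRoot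
  obtain ⟨u, hu⟩ := hζu.isUnit hp.ne_zero
  have hu' : IsPrimitiveRoot u p := by
    rw [← hu] at hζu
    exact IsPrimitiveRoot.coe_units_iff.mp hζu
  have hut : u ∈ torsion K := by
    rw [torsion, CommGroup.mem_torsion, isOfFinOrder_iff_pow_eq_one]
    exact ⟨p, hp.pos, hu'.pow_eq_one⟩
  have h4 : orderOf (⟨u, hut⟩ : torsion K) = p := by
    rw [hu'.eq_orderOf]
    exact (Subgroup.orderOf_mk u hut)
  have h5 : p ∣ Nat.card (torsion K) := by
    have h6 := orderOf_dvd_natCard (⟨u, hut⟩ : torsion K)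
    rwa [h4] at h6
  exact Nat.gcd_eq_right h5

/-- units modulo `p`-th powers -/
theorem pidx_units (p : ℕ) (hp : p.Prime) (hζ : ∃ ζ : K, IsPrimitiveRoot ζ p) :
    pidx (𝓞 K)ˣ p = p ^ (rank K + 1) := by
  rw [← pidx_congr (MulEquiv.ofBijective _ (unitsEquivHom_bijective (K := K))),
    pidx_mul (MonoidHom.snd (torsion K) (Multiplicative (Fin (rank K) → ℤ))) p
      (torsionFree_pi _ p hp.ne_zero)]
  have h1 : (MonoidHom.snd (torsion K) (Multiplicative (Fin (rank K) → ℤ))).range = ⊤ :=
    MonoidHom.range_eq_top.mpr Prod.snd_surjective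
  let e : torsion K ≃* (MonoidHom.snd (torsion K) (Multiplicative (Fin (rank K) → ℤ))).ker :=
    { toFun := fun x => ⟨(x, 1), rfl⟩
      invFun := fun y => y.1.1
      left_inv := fun x => rfl
      right_inv := fun y => Subtype.ext (Prod.ext rfl y.2.symm)
      map_mul' := fun x y => Subtype.ext (Prod.ext rfl (mul_one _).symm) }
  rw [h1, pidx_congr Subgroup.topEquiv, pidx_lattice _ _ hp.ne_zero, Fintype.card_fin,
    ← pidx_congr e, pidx_torsion p hp hζ, pow_succ]

/-- **`S`-units modulo `p`-th powers** -/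
theorem pidx_SU (T : Set (HeightOneSpectrum (𝓞 K))) [Fintype T] (p : ℕ) (hp : p.Prime)
    (hζ : ∃ ζ : K, IsPrimitiveRoot ζ p) :
    pidx (SU T) p = p ^ (Fintype.card T + (rank K + 1)) := by
  rw [pidx_mul (dv T) p (torsionFree_pi _ p hp.ne_zero),
    pidx_of_index _ (index_range_dv T) p (torsionFree_pi _ p hp.ne_zero),
    pidx_lattice _ _ hp.ne_zero,
    ← pidx_congr (MulEquiv.ofBijective _ (unitsToKer_bijective T)), pidx_units p hp hζ, ← pow_add]

end Fermat.Agent.H02M
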