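import Mathlib
import Fermat.Agent.CC.Kummer
import Fermat.Agent.CC.GSub

set_option autoImplicit false
set_option linter.unusedSectionVars false
set_option linter.style.haveILetI false

/-!
# Descent of a carry class to a coarser level structure
-/

noncomputable section

namespace Fermat.Agent.H02M

open Fermat.Agent.CC

section Sums

variable {W : Type*} [AddCommGroup W] (T : ℕ → W)

theorem sum_shift (p : ℕ) : ∑ i ∈ Finset.range p, i • T (i + 1) =
    ∑ i ∈ Finset.range p, i • T i + p • T p - ∑ i ∈ Finset.range p, T (i + 1) := by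
  induction p with
  | zero => simp
  | succ p ih =>
    rw [Finset.sum_range_succ, ih, Finset.sum_range_succ _ p, Finset.sum_range_succ _ p,
      succ_nsmul (T (p + 1)) p]
    abel

variable {T} {p : ℕ} (hT : ∀ i, T (i + p) = T i)

include hT

theorem sum_window (r : ℕ) : ∑ i ∈ Finset.range p, T (r + i) = ∑ i ∈ Finset.range p, T i := by
  induction r with
  | zero => simp
  | succ r ih =>
    rw [← ih]
    have h1 := Finset.sum_range_succ (fun i => T (r + i)) p
    have h2 := Finset.sum_range_succ' (fun i => T (r + i)) p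
    rw [h1, hT r] at h2
    simp only [add_zero] at h2
    have h3 := add_right_cancel h2
    rw [h3]
    refine Finset.sum_congr rfl fun i _ => ?_
    congr 1
    ring

theorem sum_long (r k : ℕ) : ∑ i ∈ Finset.range (r + p * k), T i =
    ∑ i ∈ Finset.range r, T i + k • ∑ i ∈ Finset.range p, T i := by
  induction k with
  | zero => simp
  | succ k ih =>
    rw [mul_add, mul_one, ← add_assoc, Finset.sum_range_add, ih, sum_window hT, succ_nsmul]
    abel

theorem sum_weight (m : ℕ) : ∑ i ∈ Finset.range p, i • T (i + m) =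
    ∑ i ∈ Finset.range p, i • T i + p • ∑ i ∈ Finset.range m, T i -
      m • ∑ i ∈ Finset.range p, T i := by
  induction m with
  | zero => simp
  | succ m ih =>
    have h1 := sum_shift (fun i => T (i + m)) p
    have h2 : ∀ i, T (i + 1 + m) = T (i + (m + 1)) := fun i => by congr 1; ring
    simp only [h2] at h1
    rw [h1, ih, Finset.sum_range_succ, add_comm p m, hT, smul_add]
    have h3 : ∑ i ∈ Finset.range p, T (i + (m + 1)) = ∑ i ∈ Finset.range p, T i := by
      rw [← sum_window hT (m + 1)]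
      exact Finset.sum_congr rfl fun i _ => by rw [add_comm]
    rw [h3, succ_nsmul]
    abel

end Sums

section Abs

variable {p : ℕ} [Fact p.Prime] {G : Type*} [Group G] {M : Type*} [AddCommGroup M]
  [DistribMulAction G M]
  (χ : G → ZMod p) (hχ : ∀ g h, χ (g * h) = χ g + χ h) (t : G) (ht : χ t = 1)

/-- partial norm -/
def phi (α : M) (g : G) : M := ∑ i ∈ Finset.range (χ g).val, t ^ i • α

/-- weighted norm -/
def theta (p : ℕ) (t : G) (α : M) : M := -∑ i ∈ Finset.range p, i • t ^ i • α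

/-- the two-cochain -/
def cc (a α : M) (g h : G) : M := car p (χ g) (χ h) • a - d1 (phi χ t α) g h

/-- the one-cochain of `p c` -/
def uu (a α : M) (g : G) : M :=
  (χ g).val • a - p • phi χ t α g - (g • theta p t α - theta p t α)

theorem gsmul_nsmul (g : G) (n : ℕ) (x : M) : g • (n • x) = n • (g • x) := by
  change DistribSMul.toAddMonoidHom M g _ = _
  rw [map_nsmul]; rfl

theorem gsmul_sum {ι : Type*} (g : G) (s : Finset ι) (f : ι → M) :
    g • (∑ i ∈ s, f i) = ∑ i ∈ s, g • f i := by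
  change DistribSMul.toAddMonoidHom M g _ = _
  rw [map_sum]; rfl

include hχ in
theorem car_val (g h : G) : (χ g).val + (χ h).val = (χ (g * h)).val + p * car p (χ g) (χ h) := by
  rw [hχ]; exact car_spec p (χ g) (χ h)

include hχ ht

/-- the action of `g` on the translates of an invariant of the kernel -/
theorem smul_T {x : M} (hx : ∀ h : G, χ h = 0 → h • x = x) (g : G) (i : ℕ) :
    g • t ^ i • x = t ^ (i + (χ g).val) • x := by
  have h1 : χ ((t ^ (i + (χ g).val))⁻¹ * (g * t ^ i)) = 0 := by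
    rw [hχ, chi_inv χ hχ, hχ, chi_pow χ hχ, chi_pow χ hχ, ht]
    push_cast
    rw [ZMod.natCast_zmod_val]
    ring
  have h2 := hx _ h1
  rw [mul_smul, inv_smul_eq_iff, mul_smul] at h2
  exact h2

theorem T_period {x : M} (hx : ∀ h : G, χ h = 0 → h • x = x) (i : ℕ) :
    t ^ (i + p) • x = t ^ i • x := by
  rw [pow_add, mul_smul, hx (t ^ p) (by rw [chi_pow χ hχ, ht]; simp)]

/-- the class of the two-cochain vanishes if `a` is a norm -/
theorem cc_eq_zero {a α : M} (hα : ∀ h : G, χ h = 0 → h • α = α)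
    (ha : a = ∑ i ∈ Finset.range p, t ^ i • α) (g h : G) : cc χ t a α g h = 0 := by
  unfold cc d1 phi
  rw [gsmul_sum, Finset.sum_congr rfl fun i _ => smul_T χ hχ t ht hα g i]
  have h1 := sum_long (T := fun i => t ^ i • α) (T_period χ hχ t ht hα) (χ (g * h)).val
    (car p (χ g) (χ h))
  rw [← car_val χ hχ, Finset.sum_range_add, ← ha] at h1
  have h2 : ∑ i ∈ Finset.range (χ h).val, t ^ (i + (χ g).val) • α =
      ∑ x ∈ Finset.range (χ h).val, t ^ ((χ g).val + x) • α :=
    Finset.sum_congr rfl fun i _ => by rw [add_comm]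
  rw [h2]
  simp only at h1
  rw [sub_eq_zero, sub_add_eq_add_sub, eq_sub_iff_add_eq, add_comm, ← h1, add_comm]

theorem uu_eq_zero {a α : M} (hα : ∀ h : G, χ h = 0 → h • α = α)
    (ha : a = ∑ i ∈ Finset.range p, t ^ i • α) (g : G) : uu χ t a α g = 0 := by
  unfold uu theta phi
  rw [smul_neg, gsmul_sum]
  have h1 : ∀ i ∈ Finset.range p, g • i • t ^ i • α = i • t ^ (i + (χ g).val) • α := fun i _ => by
    rw [gsmul_nsmul, smul_T χ hχ t ht hα]
  rw [Finset.sum_congr rfl h1]
  have h2 := sum_weight (T := fun i => t ^ i • α) (T_period χ hχ t ht hα) (χ g).val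
  rw [← ha] at h2
  rw [h2]
  abel

omit ht in
theorem p_cc {a α : M} (ha : ∀ g : G, g • a = a) (g h : G) :
    p • cc χ t a α g h = d1 (uu χ t a α) g h := by
  unfold cc uu d1
  rw [smul_sub, ← mul_smul]
  have h1 := car_val χ hχ g h
  have h2 : ((χ g).val + (χ h).val) • a = ((χ (g * h)).val + p * car p (χ g) (χ h)) • a := by
    rw [h1]
  rw [add_smul, add_smul] at h2
  have h3 : (p * car p (χ g) (χ h)) • a = (χ g).val • a + (χ h).val • a - (χ (g * h)).val • a := by
    rw [h2]; abel
  rw [h3]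
  simp only [smul_sub, gsmul_nsmul, ha, smul_add, mul_smul]
  abel

end Abs

section Main

variable {p : ℕ} [Fact p.Prime] {G : Type*} [Group G] {𝓛 𝓛S : Lev G}
  {M : Type*} [AddCommGroup M] [DistribMulAction G M]
  (N U : GSub G M) (smN : 𝓛S.Smooth N.S)
  (χ : G → ZMod p) (hχ : ∀ g h, χ (g * h) = χ g + χ h) (hcS : 𝓛S.Const1 χ)
  (t : G) (ht : χ t = 1)

include smN in
theorem const2_coe_d1 {f : G → M} (hf : 𝓛S.Const1 f) (hN : ∀ g, f g ∈ N.N) :
    𝓛S.Const2 (d1 f) := by
  have h1 : 𝓛S.Const1 (fun g => N.mkS (f g) (hN g)) := by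
    obtain ⟨V, hV, h⟩ := hf
    exact ⟨V, hV, fun g s hs => N.incl_injective (h g s hs)⟩
  have h2 := (const2_d1 smN h1).comp N.incl
  exact h2

include smN hχ hcS ht in
/-- **Descent of carry classes.** -/
theorem exists_descent (hcont : Lev.Cont (MonoidHom.id G) 𝓛 𝓛S) (hc : 𝓛.Const1 χ)
    (hdiv : ∀ m : M, ∃ m', p • m' = m)
    (hroot : ∀ x ∈ N.N, x ∈ U.N → ∀ y, p • y = x → y ∈ N.N)
    (a : H0 G M) (haN : (a : M) ∈ N.N) (α : M) (hαN : α ∈ N.N)
    (hα : ∀ h : G, χ h = 0 → h • α - α ∈ U.N)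
    (haα : (a : M) - ∑ i ∈ Finset.range p, t ^ i • α ∈ U.N) :
    ∃ y : H2 𝓛S (TorP p M), H2coef 𝓛 (TorP.incl p M) TorP.incl_smul
      (H2map (MonoidHom.id G) hcont (AddMonoidHom.id (TorP p M)) (fun _ _ => rfl) y) =
        carC χ hχ hc a := by
  classical
  choose rt hrt using hdiv
  -- membership
  have hα' : ∀ h : G, χ h = 0 → h • U.proj α = U.proj α := by
    intro h hh
    rw [← U.proj_smul, ← sub_eq_zero, ← map_sub, U.proj_eq_zero]
    exact hα h hh
  have ha' : U.proj (a : M) = ∑ i ∈ Finset.range p, t ^ i • U.proj α := by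
    rw [← sub_eq_zero]
    have h1 := U.proj_eq_zero.mpr haα
    rw [map_sub, map_sum] at h1
    exact h1
  have hproj_phi : ∀ g, U.proj (phi χ t α g) = phi χ t (U.proj α) g := by
    intro g
    unfold phi
    rw [map_sum]
    rfl
  have hproj_theta : U.proj (theta p t α) = theta p t (U.proj α) := by
    unfold theta
    rw [map_neg, map_sum]
    congr 1
  have huU : ∀ g, uu χ t (a : M) α g ∈ U.N := by
    intro g
    rw [← U.proj_eq_zero]
    have h1 : U.proj (uu χ t (a : M) α g) = uu χ t (U.proj (a : M)) (U.proj α) g := by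
      unfold uu
      rw [map_sub, map_sub, map_sub, map_nsmul, map_nsmul, U.proj_smul, hproj_phi, hproj_theta]
    rw [h1]
    exact uu_eq_zero χ hχ t ht hα' ha' g
  have hTN : ∀ i : ℕ, t ^ i • α ∈ N.N := fun i => N.stab _ _ hαN
  have hphiN : ∀ g, phi χ t α g ∈ N.N := fun g => sum_mem fun i _ => hTN i
  have hthN : theta p t α ∈ N.N := neg_mem (sum_mem fun i _ => nsmul_mem (hTN i) i)
  have huN : ∀ g, uu χ t (a : M) α g ∈ N.N := fun g =>
    sub_mem (sub_mem (nsmul_mem haN _) (nsmul_mem (hphiN g) _))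
      (sub_mem (N.stab _ _ hthN) hthN)
  have hphiC : 𝓛S.Const1 (phi χ t α) := by
    obtain ⟨V, hV, h⟩ := hcS
    exact ⟨V, hV, fun g s hs => by unfold phi; rw [h g s hs]⟩
  have hthC : 𝓛S.Const1 (fun g : G => g • theta p t α) := by
    obtain ⟨V, hV, h⟩ := smN.const1_smul (N.mkS _ hthN)
    exact ⟨V, hV, fun g s hs => congrArg N.incl (h g s hs)⟩
  have huC : 𝓛S.Const1 (uu χ t (a : M) α) := by
    have h1 : 𝓛S.Const1 (fun g => (χ g).val • (a : M)) := hcS.comp (fun c => c.val • (a : M))
    exact (h1.comp₂ (hphiC.comp (fun x => p • x)) (· - ·)).comp₂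
      (hthC.comp (fun x => x - theta p t α)) (· - ·)
  set v : G → M := fun g => rt (uu χ t (a : M) α g) with hv
  have hvN : ∀ g, v g ∈ N.N := fun g => hroot _ (huN g) (huU g) _ (hrt _)
  have hvC : 𝓛S.Const1 v := huC.comp rt
  -- the cocycle
  have hpy : ∀ g h, p • (cc χ t (a : M) α g h - d1 v g h) = 0 := by
    intro g h
    rw [smul_sub, p_cc χ hχ t a.2]
    have h1 : p • d1 v g h = d1 (uu χ t (a : M) α) g h := by
      unfold d1
      rw [smul_add, smul_sub, ← gsmul_nsmul]
      simp only [hv, hrt]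
    rw [h1, sub_self]
  have hccoc : IsCocycle2 (fun g h => cc χ t (a : M) α g h - d1 v g h) := by
    intro g h j
    have e1 := (carZ χ hχ hc a).2.2 g h j
    have e2 := isCocycle2_d1 (phi χ t α) g h j
    have e3 := isCocycle2_d1 v g h j
    change g • (car p (χ h) (χ j) • (a : M)) + car p (χ g) (χ (h * j)) • (a : M) =
      car p (χ (g * h)) (χ j) • (a : M) + car p (χ g) (χ h) • (a : M) at e1
    unfold cc
    simp only [smul_sub]
    calc _ = (g • (car p (χ h) (χ j) • (a : M)) + car p (χ g) (χ (h * j)) • (a : M)) -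
          (g • d1 (phi χ t α) h j + d1 (phi χ t α) g (h * j)) -
          (g • d1 v h j + d1 v g (h * j)) := by abel
      _ = _ := by rw [e1, e2, e3]; abel
  have hcC : 𝓛S.Const2 (fun g h => cc χ t (a : M) α g h - d1 v g h) := by
    have h1 : 𝓛S.Const2 (fun g h => car p (χ g) (χ h) • (a : M)) :=
      hcS.fst.comp₂ hcS.snd (fun x y => car p x y • (a : M))
    have h2 := const2_coe_d1 N smN hphiC hphiN
    have h3 := const2_coe_d1 N smN hvC hvN
    exact (h1.comp₂ h2 (· - ·)).comp₂ h3 (· - ·)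
  let yf : G → G → TorP p M := fun g h => TorP.mk _ (hpy g h)
  have hyinj : ∀ g h, TorP.incl p M (yf g h) = cc χ t (a : M) α g h - d1 v g h := fun g h => rfl
  have hyC : 𝓛S.Const2 yf := by
    obtain ⟨V, hV, h⟩ := hcC
    exact ⟨V, hV, fun g h' s hs s' hs' => TorP.incl_injective (h g h' s hs s' hs')⟩
  have hyZ : IsCocycle2 yf := by
    intro g h j
    apply TorP.incl_injective
    rw [map_add, map_add, TorP.incl_smul]
    exact hccoc g h j
  refine ⟨H2.mk 𝓛S _ ⟨yf, hyC, hyZ⟩, ?_⟩
  rw [carC_apply]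
  change H2.mk 𝓛 M _ = _
  rw [H2.mk_eq_mk]
  have hconst : ∀ {f : G → M}, 𝓛S.Const1 f → 𝓛.Const1 f := by
    rintro f ⟨V, hV, h⟩
    exact ⟨V, hcont V hV, h⟩
  refine ⟨fun g => -(phi χ t α g + v g), (hconst hphiC).comp₂ (hconst hvC)
    (fun x y => -(x + y)), fun g h => ?_⟩
  change cc χ t (a : M) α g h - d1 v g h = car p (χ g) (χ h) • (a : M) + _
  unfold cc d1
  simp only [smul_neg, smul_add]
  abel

end Main

end Fermat.Agent.H02M
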