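import Mathlib
import Fermat.Agent.H02M.SUnit
import Fermat.Agent.H02M.Cocyc

set_option autoImplicit false
set_option linter.unusedSectionVars false
set_option linter.style.haveILetI false

/-!
# Classes unramified outside `S`
-/

noncomputable section

namespace Fermat.Agent.H02M

open scoped Pointwise
open Fermat.Agent.CC

variable (S : Finset Nat.Primes) (H : Subgroup GQ)

/-- elements of level `S` -/
def NS : GSub H (UL Qb) where
  N :=
    { carrier := {a | SL S a.val}
      add_mem' := fun {a b} ha hb => SL.mul ha hb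
      zero_mem' := SL.one
      neg_mem' := fun {a} ha => by
        change SL S (-a).val
        rw [UL.val_neg]
        exact SL.inv ha }
  stab g a ha := SL.smul ha (g : GQ)

/-- `S`-units -/
def US : GSub H (UL Qb) where
  N :=
    { carrier := {a | SU S a.val}
      add_mem' := fun {a b} ha hb => SU.mul ha hb
      zero_mem' := SU.one
      neg_mem' := fun {a} ha => by
        change SU S (-a).val
        rw [UL.val_neg]
        exact SU.inv ha }
  stab g a ha := SU.smul ha (g : GQ)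

variable {S H}

theorem mem_NS {a : UL Qb} : a ∈ (NS S H).N ↔ SL S a.val := Iff.rfl

theorem mem_US {a : UL Qb} : a ∈ (US S H).N ↔ SU S a.val := Iff.rfl

theorem smooth_NS : ((levS S).sub H).Smooth (NS S H).S := by
  intro x
  have hx : SL S ((NS S H).incl x).val := (NS S H).incl_mem x
  refine ⟨(IntermediateField.adjoin ℚ {((NS S H).incl x).val}).fixingSubgroup.comap H.subtype,
    ⟨_, ⟨_, hx.unr, le_rfl⟩, le_rfl⟩, fun s hs => (NS S H).incl_injective (UL.ext ?_)⟩
  have hs' : (s : GQ) ∈ (IntermediateField.adjoin ℚ {((NS S H).incl x).val}).fixingSubgroup := hs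
  rw [IntermediateField.mem_fixingSubgroup_iff] at hs'
  exact hs' _ (IntermediateField.mem_adjoin_simple_self ℚ _)

theorem contS : Lev.Cont (MonoidHom.id H) (lev.sub H) ((levS S).sub H) := by
  rintro U ⟨W, hW, hWU⟩
  exact ⟨W, lev_isOpen_of_levS hW, hWU⟩

/-- inflation from the `S`-levels to all levels -/
def infl (S : Finset Nat.Primes) (H : Subgroup GQ) (A : Type*) [AddCommGroup A]
    [DistribMulAction H A] : H2 ((levS S).sub H) A →+ H2 (lev.sub H) A :=
  H2map (MonoidHom.id H) contS (AddMonoidHom.id A) (fun _ _ => rfl)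

variable {p : ℕ} [Fact p.Prime] {K F : IntermediateField ℚ Qb}

theorem UL.val_sum' {ι : Type*} (s : Finset ι) (f : ι → UL Qb) :
    (∑ i ∈ s, f i).val = ∏ i ∈ s, (f i).val := Fermat.Agent.CC.UL.val_sum s f

/-- **Classes from `S`-levels.** -/
theorem exists_Sclass (hFS : F.IsUnramifiedOutside S)
    (hpS : ∀ q : Nat.Primes, (q : ℕ) = p → q ∈ S)
    (χ : K.fixingSubgroup → ZMod p) (hχ : ∀ g h, χ (g * h) = χ g + χ h)
    (hker : ∀ g, χ g = 0 ↔ (g : GQ) ∈ F.fixingSubgroup) (t : K.fixingSubgroup) (ht : χ t = 1)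
    (hc : (lev.sub K.fixingSubgroup).Const1 χ) (a : H0 K.fixingSubgroup (UL Qb))
    (haS : SL S a.1.val) (k : ℕ) (β : Qb) (hβF : β ∈ F) (hβ0 : β ≠ 0)
    (h1 : SU S (a.1.val ^ (p ^ k) / ∏ i ∈ Finset.range p, ((t : GQ) ^ i) β))
    (h2 : ∀ q : Nat.Primes, q ∉ S → ∀ A : ValuationSubring Qb, A.LiesOverPrime (q : ℕ) →
      ∃ γ : Qb, γ ≠ 0 ∧ SL S γ ∧ β / γ ^ (p ^ k) ∈ A ∧ (β / γ ^ (p ^ k))⁻¹ ∈ A) :
    ∃ y : H2 ((levS S).sub K.fixingSubgroup) (TorP p (UL Qb)),
      H2coef (lev.sub K.fixingSubgroup) (TorP.incl p (UL Qb)) TorP.incl_smul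
        (infl S K.fixingSubgroup _ y) = carC χ hχ hc a := by
  have hp : p.Prime := Fact.out
  have hpk : p ^ k ≠ 0 := pow_ne_zero _ hp.ne_zero
  have hnq : ∀ m : ℕ, ∀ q : Nat.Primes, q ∉ S → ¬ (q : ℕ) ∣ p ^ m := by
    intro m q hq hd
    have h3 := q.2.dvd_of_dvd_pow hd
    exact hq (hpS q ((Nat.prime_dvd_prime_iff_eq q.2 hp).mp h3))
  obtain ⟨α, hα⟩ := IsAlgClosed.exists_pow_nat_eq β (Nat.pos_of_ne_zero hpk)
  have hα0 : α ≠ 0 := by
    rintro rfl
    rw [zero_pow hpk] at hα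
    exact hβ0 hα.symm
  have hβS : SL S β := SL.of_mem hFS hβF
  have hαS : SL S α := SL.root hβS hβ0 hα (hnq k) h2
  have hcS : ((levS S).sub K.fixingSubgroup).Const1 χ := by
    refine ⟨F.fixingSubgroup.comap K.fixingSubgroup.subtype, ⟨_, ⟨F, hFS, le_rfl⟩, le_rfl⟩,
      fun g s hs => ?_⟩
    rw [hχ, (hker s).mpr hs, add_zero]
  refine exists_descent (NS S _) (US S _) smooth_NS χ hχ hcS t ht contS hc
    (Fermat.Agent.CC.UL.divisible hp.ne_zero) ?_ a haS (UL.mk α hα0) hαS ?_ ?_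
  · intro x hxN hxU y hy
    have h3 : y.val ^ p = x.val := by rw [← UL.val_nsmul, hy]
    exact SL.root_unit hxN (UL.val_ne_zero x) hxU h3 (by simpa using hnq 1)
  · intro h hh
    rw [mem_US, UL.val_sub, UL.val_smul, UL.val_mk]
    refine SU.of_pow hpk ?_
    have h3 : (h : GQ) β = β := (IntermediateField.mem_fixingSubgroup_iff F _).mp
      ((hker h).mp hh) β hβF
    change SU S (((h : GQ) α / α) ^ (p ^ k))
    rw [div_pow, ← map_pow, hα, h3, div_self hβ0]
    exact SU.one
  · rw [mem_US, UL.val_sub, UL.val_sum']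
    refine SU.of_pow hpk ?_
    rw [div_pow, ← Finset.prod_pow]
    have h3 : ∏ i ∈ Finset.range p, (t ^ i • UL.mk α hα0).val ^ (p ^ k) =
        ∏ i ∈ Finset.range p, ((t : GQ) ^ i) β := by
      refine Finset.prod_congr rfl fun i _ => ?_
      rw [UL.val_smul, UL.val_mk]
      change (((t : GQ) ^ i) α) ^ (p ^ k) = _
      rw [← map_pow, hα]
    rw [h3]
    exact h1

end Fermat.Agent.H02M
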