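import Mathlib
import Fermat.Agent.H02M.Conc

set_option autoImplicit false
set_option linter.unusedSectionVars false
set_option linter.style.haveILetI false

/-!
# The classes `κ_a ∪ χ`
-/

noncomputable section

namespace Fermat.Agent.H02M

open scoped Pointwise
open Fermat.Agent.CC

variable {p : ℕ} [Fact p.Prime] {H : Subgroup GQ}

theorem smH (H : Subgroup GQ) : (lev.sub H).Smooth (UL Qb) := (Act.self H).smooth

theorem h90H (H : Subgroup GQ) (z : H1 (lev.sub H) (UL Qb)) : z = 0 := (Act.self H).h90 z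

theorem divp (p : ℕ) [hp : Fact p.Prime] (m : UL Qb) : ∃ m', p • m' = m :=
  UL.divisible hp.out.ne_zero m

/-- `a ↦ κ_a ∪ χ` -/
def psi (χ : H → ZMod p) (hχ : ∀ g h, χ (g * h) = χ g + χ h) (hc : (lev.sub H).Const1 χ) :
    H0 H (UL Qb) →+ H2 (lev.sub H) (TorP p (UL Qb)) :=
  ((cup11 (scPair (TorP.killed (p := p) (M := UL Qb)))
    (scPair_eq (TorP.killed (p := p) (M := UL Qb))) (Fp.smooth (lev.sub H))).flip
      (H1.mk _ _ (chiZ χ hχ hc))).comp (kap (smH H) (divp p))

section

variable (χ : H → ZMod p) (hχ : ∀ g h, χ (g * h) = χ g + χ h) (hc : (lev.sub H).Const1 χ)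

theorem psi_apply (a : H0 H (UL Qb)) : psi χ hχ hc a =
    cup11 (scPair (TorP.killed (p := p) (M := UL Qb)))
      (scPair_eq (TorP.killed (p := p) (M := UL Qb))) (Fp.smooth (lev.sub H))
      (kap (smH H) (divp p) a) (H1.mk _ _ (chiZ χ hχ hc)) := rfl

theorem incl_psi (a : H0 H (UL Qb)) :
    H2coef (lev.sub H) (TorP.incl p (UL Qb)) TorP.incl_smul (psi χ hχ hc a) =
      -carC χ hχ hc a :=
  incl_cup_kap (smH H) (divp p) χ hχ hc a

theorem incl_inj : Function.Injective
    (H2coef (lev.sub H) (TorP.incl p (UL Qb)) TorP.incl_smul) :=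
  incl2_injective (smH H) (divp p) (h90H H)

theorem psi_eq_zero_iff {t : H} (ht : χ t = 1) [Finite (H ⧸ chiKer χ hχ)] (a : H0 H (UL Qb)) :
    psi χ hχ hc a = 0 ↔ a ∈ (cores0h (chiKer χ hχ) (UL Qb)).range := by
  rw [psi_apply, cup_kap_eq_zero_iff (smH H) (divp p) χ hχ hc t ht (h90H H) ?_ a]
  · exact Iff.rfl
  · exact ((Act.self H).sub (chiKer χ hχ)).h90

theorem p_smul_H2 (x : H2 (lev.sub H) (TorP p (UL Qb))) : p • x = 0 := H2_killed TorP.killed x

end

/-- an element of `Kˣ` as an invariant -/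
def toH0 {K : IntermediateField ℚ Qb} (hH : H ≤ K.fixingSubgroup) :
    Kˣ →* Multiplicative (H0 H (UL Qb)) where
  toFun a := Multiplicative.ofAdd ⟨UL.mk ((a : K) : Qb) (by
      have := a.ne_zero
      exact_mod_cast this), fun g => UL.ext (by
      rw [UL.val_smul, UL.val_mk]
      exact (IntermediateField.mem_fixingSubgroup_iff K _).mp (hH g.2) _ (a : K).2)⟩
  map_one' := congrArg Multiplicative.ofAdd (Subtype.ext (UL.ext rfl))
  map_mul' a b := congrArg Multiplicative.ofAdd (Subtype.ext (UL.ext rfl))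

theorem toH0_val {K : IntermediateField ℚ Qb} (hH : H ≤ K.fixingSubgroup) (a : Kˣ) :
    ((Multiplicative.toAdd (toH0 hH a) : H0 H (UL Qb)) : UL Qb).val = ((a : K) : Qb) := rfl

section Res

variable {H' : Subgroup GQ} (hle : H' ≤ H)

/-- restriction in degree two -/
def rH2 (A : Type*) [AddCommGroup A] [DistribMulAction GQ A] :
    H2 (lev.sub H) A →+ H2 (lev.sub H') A :=
  H2map (Subgroup.inclusion hle) (lev.cont_inclusion hle) (AddMonoidHom.id A) (fun _ _ => rfl)

/-- restriction of invariants -/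
def rH0 (A : Type*) [AddCommGroup A] [DistribMulAction GQ A] : H0 H A →+ H0 H' A where
  toFun a := ⟨a, fun g => a.2 (Subgroup.inclusion hle g)⟩
  map_zero' := rfl
  map_add' _ _ := rfl

variable (χ : H → ZMod p) (hχ : ∀ g h, χ (g * h) = χ g + χ h) (hc : (lev.sub H).Const1 χ)

include hχ in
theorem chi_res_mul (g h : H') : χ (Subgroup.inclusion hle (g * h)) =
    χ (Subgroup.inclusion hle g) + χ (Subgroup.inclusion hle h) := by
  rw [map_mul, hχ]

include hc in
theorem chi_res_const : (lev.sub H').Const1 (fun g => χ (Subgroup.inclusion hle g)) :=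
  hc.precomp (lev.cont_inclusion hle)

/-- naturality of `psi` -/
theorem res_psi (a : H0 H (UL Qb)) : rH2 hle (TorP p (UL Qb)) (psi χ hχ hc a) =
    psi (fun g => χ (Subgroup.inclusion hle g)) (chi_res_mul hle χ hχ) (chi_res_const hle χ hc)
      (rH0 hle (UL Qb) a) := by
  obtain ⟨b, f, hb, hf, hk⟩ := exists_kap (smH H) (divp p) a
  let f' : Z1 (lev.sub H') (TorP p (UL Qb)) :=
    Z1map (Subgroup.inclusion hle) (lev.cont_inclusion hle) (AddMonoidHom.id _) (fun _ _ => rfl) f
  have hk' : kap (smH H') (divp p) (rH0 hle (UL Qb) a) = H1.mk _ _ f' :=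
    kap_eq (smH H') (divp p) hb (fun g => hf (Subgroup.inclusion hle g))
  rw [psi_apply, psi_apply, hk, hk']
  rfl

/-- localization of classes of `S`-levels -/
def locS (S : Finset Nat.Primes) (A : Type*) [AddCommGroup A] [DistribMulAction GQ A] :
    H2 ((levS S).sub H) A →+ H2 (lev.sub H') A :=
  (rH2 hle A).comp (infl S H A)

end Res

end Fermat.Agent.H02M
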