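import Mathlib
import Fermat.Agent.H02M.Psi
import Fermat.Agent.H02M.Beta
import Fermat.Agent.H02M.SPlaces
import Fermat.Agent.CFT.Iface2Pf

set_option autoImplicit false
set_option linter.unusedSectionVars false
set_option linter.style.haveILetI false

/-!
# Classes `κ_a ∪ χ` unramified outside `S`
-/

noncomputable section

namespace Fermat.Agent.H02M

open Module NumberField IsDedekindDomain WithZero Fermat.Agent.CFT
open scoped Pointwise
open Fermat.Agent.CC (lev levS UL TorP H0 H1 H2 Z1 H2coef chiZ carC CycExt IsLocNorm PrimeUnder Lev H2_killed chiKer cores0h)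
open Fermat.Agent.LF (DK ZK)

variable {S : Finset Nat.Primes} {p : ℕ} [Fact p.Prime] {K F : IntermediateField ℚ Qb}

theorem coe_NK (hC : CycExt p K F) (t : K.fixingSubgroup) (htF : (t : GQ) ∉ F.fixingSubgroup) :
    letI := algKF hC.le; letI := numK hC; letI := numF hC
    ∀ b : Fˣ, ((NK K F b : K) : Qb) = ∏ i ∈ Finset.range p, ((t : GQ) ^ i) ((b : F) : Qb) := by
  letI := algKF hC.le
  haveI := towKF hC.le
  haveI := numK hC
  haveI := numF hC
  haveI := galKF hC
  intro b
  have hσ := gen_rs hC t htF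
  have h1 := incl_NK (rs hC t) hσ b
  rw [finrankKF hC] at h1
  have h2 := congrArg (fun x : Fˣ => ((x : F) : Qb)) h1
  have h3 : (((incl K F (NK K F b) : Fˣ) : F) : Qb) = ((NK K F b : K) : Qb) := rfl
  have h4 : (((∏ i ∈ Finset.range p, gact (rs hC t ^ i) b : Fˣ) : F) : Qb) =
      ∏ i ∈ Finset.range p, ((t : GQ) ^ i) ((b : F) : Qb) := by
    rw [Units.coe_prod]
    have h5 : ((∏ i ∈ Finset.range p, ((gact (rs hC t ^ i) b : Fˣ) : F) : F) : Qb) =
        ∏ i ∈ Finset.range p, (((gact (rs hC t ^ i) b : Fˣ) : F) : Qb) := map_prod F.val _ _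
    rw [h5]
    refine Finset.prod_congr rfl fun i _ => ?_
    rw [gact_coe, ← map_pow]
    rfl
  beta_reduce at h2
  rw [h3, h4] at h2
  exact h2

/-- **`κ_a ∪ χ` comes from the `S`-levels** for `a` in `VS` -/
theorem exists_Sclass_VS (hC : CycExt p K F) (hFS : F.IsUnramifiedOutside S)
    (hpS : ∀ q : Nat.Primes, (q : ℕ) = p → q ∈ S)
    (χ : K.fixingSubgroup → ZMod p) (hχ : ∀ g h, χ (g * h) = χ g + χ h)
    (hker : ∀ g, χ g = 0 ↔ (g : GQ) ∈ F.fixingSubgroup) (t : K.fixingSubgroup) (ht : χ t = 1)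
    (hc : (lev.sub K.fixingSubgroup).Const1 χ) :
    letI := algKF hC.le; letI := numK hC; letI := numF hC
    ∀ a ∈ VS F (SK S K), ∃ y : H2 ((levS S).sub K.fixingSubgroup) (TorP p (UL Qb)),
      infl S K.fixingSubgroup _ y = psi χ hχ hc (Multiplicative.toAdd (toH0 (le_refl _) a)) := by
  letI := algKF hC.le
  haveI := towKF hC.le
  haveI := numK hC
  haveI := numF hC
  haveI := galKF hC
  have hp : p.Prime := Fact.out
  intro a ha
  have htF : (t : GQ) ∉ F.fixingSubgroup := by
    rw [← hker, ht]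
    exact one_ne_zero
  have hσ := gen_rs hC t htF
  have hunr : ∀ P : HeightOneSpectrum (𝓞 F), under K F P ∉ SK S K → ramE K P = 1 :=
    fun P hP => ramE_eq_one hFS P hP
  obtain ⟨h, hh, hβ⟩ := exists_beta (rs hC t) hσ (SK S K) hunr
  obtain ⟨β, hβ1, hβ2⟩ := hβ a ha
  obtain ⟨k, m, hm, hkm⟩ := Nat.exists_eq_pow_mul_and_not_dvd hh.ne' p hp.ne_one
  -- the class of `a ^ m`
  set am : Kˣ := a ^ m with ham
  have haS : SL S ((am : K) : Qb) := SL.of_mem hFS (hC.le (am : K).2)
  have hKey : ∃ y : H2 ((levS S).sub K.fixingSubgroup) (TorP p (UL Qb)),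
      H2coef (lev.sub K.fixingSubgroup) (TorP.incl p (UL Qb)) TorP.incl_smul
        (infl S K.fixingSubgroup _ y) =
          carC χ hχ hc (Multiplicative.toAdd (toH0 (le_refl _) am)) := by
    refine exists_Sclass hFS hpS χ hχ hker t ht hc (Multiplicative.toAdd (toH0 (le_refl _) am))
      haS k ((β : F) : Qb) (β : F).2 (by exact_mod_cast β.ne_zero) ?_ ?_
    · rw [toH0_val, ← coe_NK hC t htF β]
      have h1 : ((am : K) : Qb) ^ p ^ k / ((NK K F β : K) : Qb) =
          (((am ^ p ^ k / NK K F β : Kˣ) : K) : Qb) := by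
        rw [Units.val_div_eq_div_val, Units.val_pow_eq_pow_val]
        push_cast
        rfl
      rw [h1, SU_iff]
      intro v hv
      rw [ordv_div, ordv_pow, ham, ordv_pow, hβ2 v hv, hkm]
      push_cast
      ring
    · intro q hq A hA
      have hP := H02L.primeUnder_plc q.2 hA F
      have hd : ((p ^ k : ℕ) : ℤ) ∣ ordv (H02L.plc q.2 hA F) β := by
        refine Dvd.dvd.trans ?_ (hβ1 _)
        rw [hkm]
        push_cast
        exact dvd_mul_right _ _
      obtain ⟨γ, hγ⟩ := exists_root_local (H02L.plc q.2 hA F) β (p ^ k) hd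
      refine ⟨((γ : F) : Qb), by exact_mod_cast γ.ne_zero, SL.of_mem hFS (γ : F).2, ?_⟩
      have h1 : ((β : F) : Qb) / ((γ : F) : Qb) ^ p ^ k = (((β / γ ^ p ^ k : Fˣ) : F) : Qb) := by
        rw [Units.val_div_eq_div_val, Units.val_pow_eq_pow_val]
        push_cast
        rfl
      rw [h1]
      exact (unit_iff hP _).mpr hγ
  obtain ⟨y, hy⟩ := hKey
  -- inverse of `m` modulo `p`
  obtain ⟨m', hm'⟩ : ∃ m' : ℕ, ∃ j : ℕ, m' * m = 1 + p * j := by
    have hco : Nat.Coprime m p := (Nat.Prime.coprime_iff_not_dvd hp).mpr hm |>.symm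
    obtain ⟨m', -, hm'⟩ := Nat.exists_mul_mod_eq_one_of_coprime hco hp.one_lt
    refine ⟨m', m * m' / p, ?_⟩
    have h1 := Nat.mod_add_div (m * m') p
    rw [hm'] at h1
    rw [mul_comm m' m]
    exact h1.symm
  obtain ⟨j, hj⟩ := hm'
  refine ⟨-(m' • y), ?_⟩
  apply incl_inj
  rw [incl_psi, map_neg, map_neg, map_nsmul, map_nsmul, hy]
  congr 1
  have h1 : Multiplicative.toAdd (toH0 (le_refl K.fixingSubgroup) am) =
      m • Multiplicative.toAdd (toH0 (le_refl K.fixingSubgroup) a) := by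
    rw [ham, map_pow]
    rfl
  rw [h1, map_nsmul, ← mul_smul, hj, add_smul, one_smul, mul_comm p j, mul_smul]
  have h2 : p • carC χ hχ hc (Multiplicative.toAdd (toH0 (le_refl K.fixingSubgroup) a)) = 0 := by
    have h3 := incl_psi χ hχ hc (Multiplicative.toAdd (toH0 (le_refl K.fixingSubgroup) a))
    have h4 : p • -(carC χ hχ hc (Multiplicative.toAdd (toH0 (le_refl K.fixingSubgroup) a))) = 0 := by
      rw [← h3, ← map_nsmul, p_smul_H2, map_zero]
    rwa [smul_neg, neg_eq_zero] at h4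
  rw [h2, smul_zero, add_zero]

end Fermat.Agent.H02M
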