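import Mathlib
import Fermat.Agent.H02M.VSClass
import Fermat.Agent.CC.Iface3

set_option autoImplicit false
set_option linter.unusedSectionVars false
set_option linter.style.haveILetI false

/-!
# Lower bound for the image of localization in degree two
-/

noncomputable section

namespace Fermat.Agent.H02M

open Module NumberField IsDedekindDomain WithZero Fermat.Agent.CFT
open scoped Pointwise
open Fermat.Agent.CC (lev levS UL TorP H0 H1 H2 Z1 H2coef chiZ carC CycExt IsLocNorm PrimeUnder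
  Lev H2_killed chiKer cores0h Mu)
open Fermat.Agent.LF (DK ZK DK_le_fix)

variable {S : Finset Nat.Primes} {p : ℕ} [Fact p.Prime] {K F : IntermediateField ℚ Qb}

/-- the character of a cyclic extension -/
theorem exists_chi_cyc (hC : CycExt p K F) (hFS : F.IsUnramifiedOutside S) :
    ∃ (χ : K.fixingSubgroup → ZMod p) (hχ : ∀ g h, χ (g * h) = χ g + χ h)
      (t : K.fixingSubgroup), (lev.sub K.fixingSubgroup).Const1 χ ∧ χ t = 1 ∧
      ∀ g, χ g = 0 ↔ (g : GQ) ∈ F.fixingSubgroup := by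
  have hopen : ((levS S).sub K.fixingSubgroup).isOpen
      (F.fixingSubgroup.subgroupOf K.fixingSubgroup) := ⟨_, ⟨F, hFS, le_rfl⟩, le_rfl⟩
  obtain ⟨χ, hχ, t, hc, ht, hH⟩ := CC.exists_chi (p := p) hopen hC.nor hC.idx
  refine ⟨χ, hχ, t, ?_, ht, fun g => ?_⟩
  · obtain ⟨V, hV, h⟩ := hc
    exact ⟨V, contS V hV, h⟩
  · rw [← CC.mem_chiKer χ hχ, ← hH, Subgroup.mem_subgroupOf]

/-- local kernels -/
theorem psi_local_eq_zero_iff (hC : CycExt p K F) {A : ValuationSubring Qb} {q : ℕ}
    (hq : q.Prime) (hA : A.LiesOverPrime q)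
    (χ : K.fixingSubgroup → ZMod p) (hχ : ∀ g h, χ (g * h) = χ g + χ h)
    (hc : (lev.sub K.fixingSubgroup).Const1 χ)
    (hker : ∀ g, χ g = 0 ↔ (g : GQ) ∈ F.fixingSubgroup) (hns : ¬ DK A K ≤ F.fixingSubgroup) :
    letI := algKF hC.le; letI := numK hC; letI := numF hC
    ∀ a : Kˣ, psi (fun g : DK A K => χ (Subgroup.inclusion DK_le_fix g))
      (chi_res_mul DK_le_fix χ hχ) (chi_res_const DK_le_fix χ hc)
        (Multiplicative.toAdd (toH0 DK_le_fix a)) = 0 ↔ a ∈ LN F (H02L.plc hq hA K) := by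
  letI := algKF hC.le
  haveI := towKF hC.le
  haveI := numK hC
  haveI := numF hC
  haveI := galKF hC
  intro a
  set χ' : DK A K → ZMod p := fun g => χ (Subgroup.inclusion DK_le_fix g) with hχ'
  have hχm : ∀ g h, χ' (g * h) = χ' g + χ' h := chi_res_mul DK_le_fix χ hχ
  have hcc : (lev.sub (DK A K)).Const1 χ' := chi_res_const DK_le_fix χ hc
  obtain ⟨t, ht⟩ : ∃ t : DK A K, χ' t = 1 := by
    obtain ⟨g, hg, hgF⟩ := SetLike.not_le_iff_exists.mp hns
    have h1 : χ' ⟨g, hg⟩ ≠ 0 := fun h => hgF ((hker _).mp h)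
    refine ⟨(⟨g, hg⟩ : DK A K) ^ ((χ' ⟨g, hg⟩)⁻¹).val, ?_⟩
    rw [CC.chi_pow _ hχm]
    simp [h1]
  have hopen := CC.chiKer_open (𝓛 := lev.sub (DK A K)) χ' hχm hcc
  haveI := CC.finite_quot hopen
  have h1 := psi_eq_zero_iff χ' hχm hcc ht (Multiplicative.toAdd (toH0 DK_le_fix a))
  refine h1.trans ?_
  have hDF : DK A F = (chiKer χ' hχm).map (DK A K).subtype := by
    ext g
    constructor
    · intro hg
      have hgK : g ∈ DK A K := LF.DK_mono hC.le hg
      exact ⟨⟨g, hgK⟩, (hker _).mpr hg.2, rfl⟩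
    · rintro ⟨⟨g', hg'⟩, hgχ, rfl⟩
      exact ⟨hg'.1, (hker _).mp hgχ⟩
  have h2 := CC.mem_range_cores0h (A := A) (CC.Act.self (DK A K)) χ' hχm t ht hDF
    (Multiplicative.toAdd (toH0 DK_le_fix a))
  refine h2.trans ?_
  have htF : (t : GQ) ∉ F.fixingSubgroup := by
    intro h
    have h3 : χ' t = 0 := (hker _).mpr h
    rw [ht] at h3
    exact one_ne_zero h3
  have h3 := isLocNorm_iff hC t.2 htF (((a : K) : Qb))
  refine Iff.trans h3 ?_
  obtain ⟨w, hw⟩ := TW.exists_NVal hq hA
  exact (H02L.mem_LN_iff_nrm hq hA hw (H02L.primeUnder_plc hq hA K) a).symm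

/-- the order of the local Brauer group modulo `p` -/
theorem card_H2_local (h2 : p ≠ 2) {A : ValuationSubring Qb} {q : ℕ}
    (hq : q.Prime) (hA : A.LiesOverPrime q) (hK : FiniteDimensional ℚ K)
    (hζ : ∃ ζ ∈ K, IsPrimitiveRoot ζ p) : Nat.card (H2 (lev.sub (DK A K)) (Mu p)) = p := by
  have hp : p.Prime := Fact.out
  have hL := CC.locLCF (p := p) hq hA (normIndexLe hp h2) (normIndexGe hp h2)
  exact hL.card_H2 (CC.tauT p) (𝓛 := lev.sub (DK A K))
    ⟨inferInstance, K, (DK A K).subtype, hK, hζ, CC.Act.self _, rfl⟩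

/-- **(H2LOW)** -/
theorem h2Low (h2 : p ≠ 2) : CC.H2Low p := by
  have hp : p.Prime := Fact.out
  rintro S K F hSK hC hFS ι _ A hR hns
  classical
  letI := algKF hC.le
  haveI := towKF hC.le
  haveI := numK hC
  haveI := numF hC
  haveI := galKF hC
  have hpS : ∀ q : Nat.Primes, (q : ℕ) = p → q ∈ S := by
    intro q hq
    have h1 := hSK.pS
    have h3 : q = CC.pP p := Nat.Primes.coe_nat_injective hq
    rwa [h3]
  obtain ⟨χ, hχ, t, hc, ht, hker⟩ := exists_chi_cyc hC hFS
  have htF : (t : GQ) ∉ F.fixingSubgroup := by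
    rw [← hker, ht]; exact one_ne_zero
  have hσ := gen_rs hC t htF
  choose q hqS hqA using hR.ov
  set v : ι → HeightOneSpectrum (𝓞 K) := fun i => H02L.plc (q i).2 (hqA i) K with hv
  have hvP : ∀ i, PrimeUnder (A i) K (v i) := fun i => H02L.primeUnder_plc (q i).2 (hqA i) K
  have hinj : Function.Injective v := by
    intro i j hij
    obtain ⟨g, hg, hgA⟩ := H02L.exists_conj (q i).2 (hqA i) (hvP i) (by rw [hij]; exact hvP j)
    exact hR.inj i j g hg hgA
  have hrange : Set.range v = SK S K := by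
    ext w
    constructor
    · rintro ⟨i, rfl⟩
      exact ⟨q i, hqS i, A i, hqA i, hvP i⟩
    · rintro ⟨q', hq', B, hB, hBw⟩
      obtain ⟨i, g, hg, hgA⟩ := hR.surj B q' hq' hB
      refine ⟨i, ?_⟩
      refine primeUnder_unique (A := B) ?_ hBw
      intro x
      rw [← hgA, ValuationSubring.mem_pointwise_smul_iff_inv_smul_mem, ← hvP i]
      have h3 : g⁻¹ • (x : Qb) = x := (IntermediateField.mem_fixingSubgroup_iff K _).mp
        (inv_mem hg) _ x.2
      rw [h3]
  -- the map
  set W := ∀ i, H2 (lev.sub (DK (A i) K)) (Mu p) with hW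
  set ps : ∀ i, Kˣ →* Multiplicative (H2 (lev.sub (DK (A i) K)) (Mu p)) := fun i =>
    (AddMonoidHom.toMultiplicative (psi (fun g : DK (A i) K => χ (Subgroup.inclusion DK_le_fix g))
      (chi_res_mul DK_le_fix χ hχ) (chi_res_const DK_le_fix χ hc))).comp (toH0 DK_le_fix) with hps
  set Φ : Kˣ →* Multiplicative W :=
    { toFun := fun a => Multiplicative.ofAdd (fun i => Multiplicative.toAdd (ps i a))
      map_one' := congrArg Multiplicative.ofAdd (funext fun i => by
        rw [map_one]; rfl)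
      map_mul' := fun a b => congrArg Multiplicative.ofAdd (funext fun i => by
        rw [map_mul]; rfl) } with hΦ
  have hkerΦ : Φ.ker = ⨅ w : SK S K, LN F w.1 := by
    ext a
    rw [MonoidHom.mem_ker, Subgroup.mem_iInf]
    have h3 : Φ a = 1 ↔ ∀ i, Multiplicative.toAdd (ps i a) = 0 := by
      constructor
      · intro h i
        exact congrFun (congrArg Multiplicative.toAdd h) i
      · intro h
        exact congrArg Multiplicative.ofAdd (funext h)
    have h4 : ∀ i, Multiplicative.toAdd (ps i a) = 0 ↔ a ∈ LN F (v i) := fun i =>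
      psi_local_eq_zero_iff hC (q i).2 (hqA i) χ hχ hc hker (hns i) a
    rw [h3]
    constructor
    · rintro h ⟨w, hw⟩
      rw [← hrange] at hw
      obtain ⟨i, rfl⟩ := hw
      exact (h4 i).mp (h i)
    · intro h i
      exact (h4 i).mpr (h ⟨v i, by rw [← hrange]; exact ⟨i, rfl⟩⟩)
  -- cardinalities
  have hcard : ∀ i, Nat.card (H2 (lev.sub (DK (A i) K)) (Mu p)) = p := fun i =>
    card_H2_local h2 (q i).2 (hqA i) hSK.unr.1 hSK.root
  haveI hfin : ∀ i, Finite (H2 (lev.sub (DK (A i) K)) (Mu p)) := fun i =>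
    Nat.finite_of_card_ne_zero (by rw [hcard i]; exact hp.ne_zero)
  haveI : Finite W := Pi.finite
  have hcardW : Nat.card (Multiplicative W) = p ^ Fintype.card ι := by
    rw [Nat.card_congr Multiplicative.toAdd, Nat.card_pi]
    simp only [hcard, Finset.prod_const, Finset.card_univ]
  haveI : Fintype (SK S K) := (SK_finite S K).fintype
  let e : ι ≃ SK S K := Equiv.ofBijective (fun i => ⟨v i, by rw [← hrange]; exact ⟨i, rfl⟩⟩)
    ⟨fun i j h => hinj (congrArg Subtype.val h), fun w => by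
      obtain ⟨w, hw⟩ := w
      have hw' := hw
      rw [← hrange] at hw'
      obtain ⟨i, rfl⟩ := hw'
      exact ⟨i, rfl⟩⟩
  have hidx : (⨅ w : SK S K, LN F w.1).index = p ^ Fintype.card ι := by
    rw [index_iInf_LN, ← e.prod_comp]
    have h3 : ∀ i, (LN F (e i).1).index = p := by
      intro i
      have h4 := index_LN_p (hp.odd_of_ne_two h2) hC (v i)
      obtain ⟨s, hs, hsF⟩ := SetLike.not_le_iff_exists.mp (hns i)
      have h5 := locDeg_of_nonsplit hC (q i).2 (hqA i) hs hsF (v i) (hvP i)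
      exact h4.trans h5
    rw [Finset.prod_congr rfl fun i _ => h3 i, Finset.prod_const, Finset.card_univ]
  have hsurj : Function.Surjective Φ := by
    rw [← MonoidHom.range_eq_top]
    apply Subgroup.eq_top_of_card_eq
    rw [← Subgroup.index_ker, hkerΦ, hidx, hcardW]
  -- the image of `VS`
  set R : AddSubgroup W := (AddMonoidHom.pi fun i => CC.res2S (Mu p) S (A i) K :
        H2 ((levS S).sub K.fixingSubgroup) (Mu p) →+ W).range with hR'
  have hVS : VS F (SK S K) ≤ (AddSubgroup.toSubgroup R).comap Φ := by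
    intro a ha
    obtain ⟨y, hy⟩ := exists_Sclass_VS hC hFS hpS χ hχ hker t ht hc a ha
    refine ⟨y, funext fun i => ?_⟩
    have h3 : CC.res2S (Mu p) S (A i) K y = rH2 DK_le_fix (Mu p) (infl S K.fixingSubgroup _ y) := by
      obtain ⟨y, rfl⟩ := H2.mk_surjective y
      rfl
    change CC.res2S (Mu p) S (A i) K y = _
    rw [h3, hy, res_psi]
    rfl
  have hLN : (⨅ w : SK S K, LN F w.1) ≤ (AddSubgroup.toSubgroup R).comap Φ := by
    rw [← hkerΦ]
    intro a ha
    rw [MonoidHom.mem_ker] at ha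
    rw [Subgroup.mem_comap, ha]
    exact one_mem _
  obtain ⟨h3, h4⟩ := index_VS (rs hC t) hσ (SK S K) (SK_finite S K) p (finrankKF hC)
    (fun P hP => ramE_eq_one hFS P hP)
  have h5 : ((AddSubgroup.toSubgroup R).comap Φ).index ∣
      ((⨅ w : SK S K, LN F w.1) ⊔ VS F (SK S K)).index :=
    Subgroup.index_dvd_of_le (sup_le hLN hVS)
  rw [Subgroup.index_comap_of_surjective _ hsurj] at h5
  have h6 : (AddSubgroup.toSubgroup R).index = R.index := rfl
  rw [h6] at h5
  exact (Nat.le_of_dvd (Nat.pos_of_ne_zero h3) h5).trans h4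

end Fermat.Agent.H02M
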