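import Mathlib
import Fermat.Agent.H02M.H2Low
import Fermat.Agent.CFT.HasseP

set_option autoImplicit false
set_option linter.unusedSectionVars false
set_option linter.style.haveILetI false

/-!
# Vanishing of `Ш¹`
-/

noncomputable section

namespace Fermat.Agent.H02M

open Module NumberField IsDedekindDomain WithZero Fermat.Agent.CFT
open scoped Pointwise
open Fermat.Agent.CC (lev levS UL TorP H0 H1 H2 Z1 H2coef chiZ carC CycExt IsLocNorm PrimeUnder
  Lev H2_killed chiKer cores0h Mu)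
open Fermat.Agent.LF (DK ZK DK_le_fix)
open Fermat.Agent.TW (NVal Bl Bs)

variable {S : Finset Nat.Primes} {p : ℕ} [Fact p.Prime] {K F : IntermediateField ℚ Qb}

/-- primes which split completely are unramified -/
theorem ramE_eq_one_of_split (hC : CycExt p K F) {A : ValuationSubring Qb} {q : ℕ}
    (hq : q.Prime) (hA : A.LiesOverPrime q) (hs : DK A K ≤ F.fixingSubgroup) :
    letI := algKF hC.le; letI := numK hC; letI := numF hC
    ∀ P : HeightOneSpectrum (𝓞 F), PrimeUnder A F P → ramE K P = 1 := by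
  letI := algKF hC.le
  haveI := towKF hC.le
  haveI := numK hC
  haveI := numF hC
  haveI := galKF hC
  intro P hP
  haveI := hC.fK
  obtain ⟨w, hw⟩ := TW.exists_NVal hq hA
  have hv := primeUnder_under (K := K) hP
  obtain ⟨εF, hεF, hwF⟩ := H02L.exists_eps hw hP
  obtain ⟨x, hx⟩ := H02L.exists_ordv_one P
  have hx0 : ((x : F) : Qb) ≠ 0 := by exact_mod_cast x.ne_zero
  have hxZ : ((x : F) : Qb) ∈ ZK A K := by
    rw [LF.mem_ZK]
    intro σ hσ
    exact (IntermediateField.mem_fixingSubgroup_iff F _).mp (hs hσ) _ (x : F).2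
  obtain ⟨y, hyK, hy⟩ := LF.dense hq hA hw K hxZ (w ((x : F) : Qb) + 1)
  have hyx : Bs w (w ((x : F) : Qb)) (y - ((x : F) : Qb)) := by
    rcases hy with h | h
    · exact Or.inl h
    · exact Or.inr (by linarith)
  obtain ⟨hy0, hwy⟩ := hw.w_eq_of_Bs_sub hx0 hyx
  have hy0' : (⟨y, hyK⟩ : K) ≠ 0 := fun h => hy0 (congrArg Subtype.val h)
  set y' : Kˣ := Units.mk0 ⟨y, hyK⟩ hy0' with hy'
  have h1 := hwF (incl K F y')
  have h2 : ((incl K F y' : F) : Qb) = y := by
    rw [incl_coe]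
    exact H02L.coe_algebraMap' K F _
  rw [h2, hwy, hwF x, hx, ordv_incl] at h1
  have h3 : (1 : ℝ) = ((ramE K P : ℤ) * ordv (under K F P) y' : ℤ) := by
    have h4 := mul_right_cancel₀ hεF.ne' h1
    push_cast at h4 ⊢
    exact h4
  have h5 : (ramE K P : ℤ) * ordv (under K F P) y' = 1 := by exact_mod_cast h3.symm
  have h6 : (ramE K P : ℤ) = 1 := Int.eq_one_of_mul_eq_one_right (by positivity) h5
  exact_mod_cast h6

theorem not_mem_of_notMem_SK [NumberField K] {v : HeightOneSpectrum (𝓞 K)} (hv : v ∉ SK S K)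
    (q : Nat.Primes) (hq : q ∈ S) : (((q : Nat.Primes) : ℕ) : 𝓞 K) ∉ v.asIdeal := by
  intro hmem
  obtain ⟨q', A, hA, hvA⟩ := exists_place v
  have h1 : A.LiesOverPrime (q : ℕ) := by
    rw [← H02L.primeOf_of_primeUnder hvA, L00.Unr.mem_primeOf] at hmem
    have h3 : ((((q : ℕ) : 𝓞 K) : K) : Qb) = ((q : ℕ) : Qb) := by push_cast; rfl
    rw [h3] at hmem
    exact hmem
  exact hv ((mem_SK_iff h1 hvA).mpr hq)

/-- no cyclic extension of degree `p` is unramified everywhere and split over `S` -/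
theorem no_split_ext (h2 : p ≠ 2) (hC : CycExt p K F) (hFS : F.IsUnramifiedOutside S)
    (hcl : CC.ClTriv p S K)
    (hs : ∀ A : ValuationSubring Qb, ∀ q ∈ S, A.LiesOverPrime ((q : Nat.Primes) : ℕ) →
      DK A K ≤ F.fixingSubgroup) : False := by
  classical
  have hp : p.Prime := Fact.out
  letI := algKF hC.le
  haveI := towKF hC.le
  haveI := numK hC
  haveI := numF hC
  haveI := galKF hC
  haveI := unrInf hC (hp.odd_of_ne_two h2)
  obtain ⟨t, htK, htF⟩ : ∃ s ∈ K.fixingSubgroup, s ∉ F.fixingSubgroup := by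
    by_contra hcon
    push Not at hcon
    have h1 := hC.idx
    rw [Subgroup.relIndex_eq_one.mpr hcon] at h1
    exact hp.one_lt.ne h1
  have hσ := gen_rs hC ⟨t, htK⟩ htF
  have hunr : ∀ P : HeightOneSpectrum (𝓞 F), ramE K P = 1 := by
    intro P
    obtain ⟨q, A, hA, hPA⟩ := exists_place P
    by_cases hq : q ∈ S
    · exact ramE_eq_one_of_split hC q.2 hA (hs A q hq hA) P hPA
    · refine ramE_eq_one hFS P fun h => hq ?_
      exact (mem_SK_iff hA (primeUnder_under (K := K) hPA)).mp h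
  have h1 := first_inequality (rs hC ⟨t, htK⟩) hσ p 1 (by rw [finrankKF hC, pow_one]) hunr
  rw [finrankKF hC] at h1
  have htop : NCl K F = ⊤ := by
    rw [eq_top_iff]
    intro x _
    obtain ⟨m, rfl⟩ := clOf_surjective x
    obtain ⟨c, hc⟩ := hcl inferInstance m.toAdd
    -- the divisor of `c`
    set d : HeightOneSpectrum (𝓞 K) →₀ ℤ := Finsupp.onFinset (ordv_finite c).toFinset
      (fun v => ordv v c) (fun v hv => (ordv_finite c).mem_toFinset.mpr hv) with hd
    have hd1 : clOf K (Multiplicative.ofAdd d) = 1 := clOf_ord c d fun v => rfl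
    refine ⟨Multiplicative.ofAdd (m.toAdd - d), ?_, ?_⟩
    · intro v
      change (locDeg K F v : ℤ) ∣ (m.toAdd - d) v
      obtain ⟨q, A, hA, hvA⟩ := exists_place v
      by_cases hsp : DK A K ≤ F.fixingSubgroup
      · rw [locDeg_of_split hC q.2 hA hsp v hvA, Nat.cast_one]
        exact one_dvd _
      · have hqS : q ∉ S := fun hq => hsp (hs A q hq hA)
        obtain ⟨g, hg, hgF⟩ := SetLike.not_le_iff_exists.mp hsp
        rw [locDeg_of_nonsplit hC q.2 hA hg hgF v hvA, Finsupp.sub_apply]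
        have hvS : v ∉ SK S K := fun h => hqS ((mem_SK_iff hA hvA).mp h)
        have h3 := hc v fun q' hq' => not_mem_of_notMem_SK hvS q' hq'
        have h4 : d v = ordv v c := rfl
        rw [h4, ← dvd_neg, neg_sub]
        exact h3
    · rw [ofAdd_sub, map_div, hd1, div_one]
      rfl
  rw [htop, Subgroup.index_top] at h1
  exact hp.one_lt.ne' (Nat.dvd_one.mp h1)

/-- the fixed field of an open subgroup of an `S`-level is unramified outside `S` -/
theorem unr_of_open (hK : K.IsUnramifiedOutside S) {H : Subgroup K.fixingSubgroup}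
    (hH : ((levS S).sub K.fixingSubgroup).isOpen H)
    (hFf : F.fixingSubgroup = H.map K.fixingSubgroup.subtype) : F.IsUnramifiedOutside S := by
  obtain ⟨W, ⟨L, hL, hLW⟩, hWH⟩ := hH
  refine (hL.sup hK).of_le ?_
  have h1 : (L ⊔ K).fixingSubgroup ≤ F.fixingSubgroup := by
    rw [hFf, IntermediateField.fixingSubgroup_sup]
    rintro g ⟨hgL, hgK⟩
    exact ⟨⟨g, hgK⟩, hWH (hLW hgL), rfl⟩
  intro x hx
  refine LF.mem_of_fixed _ fun σ hσ => ?_
  exact (IntermediateField.mem_fixingSubgroup_iff F _).mp (h1 hσ) x hx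

/-- **(N5)** -/
theorem sha1Van (h2 : p ≠ 2) : CC.Sha1Van p := by
  classical
  have hp : p.Prime := Fact.out
  intro S K hSK hcl x hx
  obtain ⟨f, rfl⟩ := CC.H1.mk_surjective x
  have htriv : ∀ (g : K.fixingSubgroup) (m : Mu p), g • m = m := by
    intro g m
    apply TorP.incl_injective
    rw [TorP.incl_smul]
    exact CC.triv_of_root (CC.Act.self K.fixingSubgroup) le_rfl hSK.root g _ (TorP.incl_mem m)
  set χ : K.fixingSubgroup → ZMod p := fun g => CC.tauT p (f.1 g) with hχdef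
  have hχ : ∀ g h, χ (g * h) = χ g + χ h := by
    intro g h
    rw [hχdef]
    simp only
    rw [f.2.2, htriv, map_add]
  have hcS : ((levS S).sub K.fixingSubgroup).Const1 χ := f.2.1.comp _
  have hc : (lev.sub K.fixingSubgroup).Const1 χ := by
    obtain ⟨V, hV, h⟩ := hcS
    exact ⟨V, contS V hV, h⟩
  by_cases h0 : ∀ g, χ g = 0
  · have h3 : f = 0 := by
      apply Subtype.ext
      funext g
      apply (CC.tauT p).injective
      rw [show CC.tauT p (f.1 g) = χ g from rfl, h0]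
      exact (map_zero _).symm
    rw [h3, map_zero]
  exfalso
  push Not at h0
  obtain ⟨g₀, hg₀⟩ := h0
  have ht : χ (g₀ ^ ((χ g₀)⁻¹).val) = 1 := by
    rw [CC.chi_pow _ hχ]
    simp [hg₀]
  obtain ⟨F, hC, hFf⟩ := cycExt_of_chi (CC.Act.self K.fixingSubgroup) hSK.unr.1 χ hχ hc _ ht
  have hopen := CC.chiKer_open (𝓛 := (levS S).sub K.fixingSubgroup) χ hχ hcS
  have hFS := unr_of_open hSK.unr hopen hFf
  refine no_split_ext h2 hC hFS hcl fun A q hq hA => ?_
  have h3 := hx A q hq hA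
  change CC.H1.mk _ _ _ = 0 at h3
  rw [CC.H1.mk_eq_zero] at h3
  obtain ⟨a, ha⟩ := h3
  intro g hg
  have h4 := ha ⟨g, hg⟩
  have h5 : (⟨g, hg⟩ : DK A K) • a = a := htriv ⟨g, DK_le_fix hg⟩ a
  rw [h5, sub_self] at h4
  have h6 : f.1 ⟨g, DK_le_fix hg⟩ = 0 := h4
  rw [hFf]
  refine ⟨⟨g, DK_le_fix hg⟩, ?_, rfl⟩
  change χ ⟨g, DK_le_fix hg⟩ = 0
  rw [hχdef]
  simp only
  rw [h6, map_zero]

end Fermat.Agent.H02M
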