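import Mathlib
import Fermat.Agent.H02M.Sha1
import Fermat.Agent.H02M.SUnitIndex
import Fermat.Agent.L00.CIface

set_option autoImplicit false
set_option linter.unusedSectionVars false
set_option linter.style.haveILetI false

/-!
# The order of `H¹(G_{K,S}, μ_p)`
-/

noncomputable section

namespace Fermat.Agent.H02M

open Module NumberField IsDedekindDomain WithZero Fermat.Agent.CFT
open scoped Pointwise
open Fermat.Agent.CC (lev levS UL TorP H0 H1 H2 Z1 H2coef chiZ carC CycExt IsLocNorm PrimeUnder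
  Lev H2_killed chiKer cores0h Mu kap kap_surjective kap_eq_zero_iff kap_eq exists_kap)
open Fermat.Agent.LF (DK ZK DK_le_fix)
open Fermat.Agent.TW (NVal Bl Bs)

/-- fields with `p`-th roots of unity are totally complex -/
theorem rank_eq {K : Type} [Field K] [NumberField K] {p : ℕ} (hp : p.Prime) (h2 : p ≠ 2)
    (hζ : ∃ ζ : K, IsPrimitiveRoot ζ p) : 2 * (Units.rank K + 1) = finrank ℚ K := by
  obtain ⟨ζ, hζ⟩ := hζ
  have hr : InfinitePlace.nrRealPlaces K = 0 :=
    InfinitePlace.IsPrimitiveRoot.nrRealPlaces_eq_zero_of_two_lt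
      (lt_of_le_of_ne hp.two_le (Ne.symm h2)) hζ
  have h3 := InfinitePlace.card_add_two_mul_card_eq_rank K
  have h4 := InfinitePlace.card_eq_nrRealPlaces_add_nrComplexPlaces K
  rw [hr, zero_add] at h3 h4
  have h5 : 0 < Fintype.card (InfinitePlace K) := Fintype.card_pos
  rw [Units.rank, ← h3, ← h4]
  omega

variable {S : Finset Nat.Primes} {p : ℕ} [Fact p.Prime] {K : IntermediateField ℚ Qb}

theorem triv_mu (hζ : ∃ ζ ∈ K, IsPrimitiveRoot ζ p) {H : Subgroup GQ} (hH : H ≤ K.fixingSubgroup)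
    (g : H) (m : Mu p) : g • m = m := by
  apply TorP.incl_injective
  rw [TorP.incl_smul]
  exact CC.triv_of_root (CC.Act.self H) hH hζ g _ (TorP.incl_mem m)

/-- `κ` on `Kˣ` -/
def kK (K : IntermediateField ℚ Qb) (p : ℕ) [Fact p.Prime] :
    Kˣ →* Multiplicative (H1 (lev.sub K.fixingSubgroup) (Mu p)) :=
  (AddMonoidHom.toMultiplicative (kap (smH K.fixingSubgroup) (divp p))).comp
    (toH0 (le_refl K.fixingSubgroup))

theorem toH0_surjective : Function.Surjective (toH0 (le_refl K.fixingSubgroup)) := by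
  intro a
  have h1 : (a.toAdd : H0 K.fixingSubgroup (UL Qb)).1.val ∈ K :=
    LF.mem_of_fixed K ((CC.Act.self K.fixingSubgroup).mem_H0.mp a.toAdd.2)
  refine ⟨Units.mk0 ⟨_, h1⟩ fun h => (a.toAdd).1.val_ne_zero (congrArg Subtype.val h), ?_⟩
  exact congrArg Multiplicative.ofAdd (Subtype.ext (UL.ext rfl))

theorem kK_surjective : Function.Surjective (kK K p) := by
  intro x
  obtain ⟨a, ha⟩ := kap_surjective (smH K.fixingSubgroup) (divp p) (h90H _) x.toAdd
  obtain ⟨b, hb⟩ := toH0_surjective (K := K) (Multiplicative.ofAdd a)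
  refine ⟨b, ?_⟩
  change Multiplicative.ofAdd (kap (smH K.fixingSubgroup) (divp p)
    (toH0 (le_refl K.fixingSubgroup) b).toAdd) = x
  rw [hb]
  exact congrArg Multiplicative.ofAdd ha

theorem ker_kK : (kK K p).ker = (powMonoidHom p : Kˣ →* Kˣ).range := by
  ext a
  rw [MonoidHom.mem_ker]
  constructor
  · intro h
    have h1 : kap (smH K.fixingSubgroup) (divp p)
        (toH0 (le_refl K.fixingSubgroup) a).toAdd = 0 := congrArg Multiplicative.toAdd h
    obtain ⟨b, hb⟩ := (kap_eq_zero_iff (smH K.fixingSubgroup) (divp p) _).mp h1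
    obtain ⟨c, hc⟩ := toH0_surjective (K := K) (Multiplicative.ofAdd b)
    refine ⟨c, ?_⟩
    apply Units.ext
    apply Subtype.ext
    have h2 := congrArg UL.val hb
    rw [UL.val_nsmul] at h2
    have h3 : ((c : K) : Qb) = b.1.val := by
      have := congrArg (fun z : Multiplicative (H0 K.fixingSubgroup (UL Qb)) => z.toAdd.1.val) hc
      exact this
    change (((c ^ p : Kˣ) : K) : Qb) = ((a : K) : Qb)
    rw [Units.val_pow_eq_pow_val]
    push_cast
    rw [h3, h2]
    rfl
  · rintro ⟨b, rfl⟩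
    change kK K p (b ^ p) = 1
    rw [map_pow]
    exact congrArg Multiplicative.ofAdd (CC.H1_killed TorP.killed (kK K p b).toAdd)

/-- inflation in degree one -/
def infl1 (S : Finset Nat.Primes) (H : Subgroup GQ) (A : Type*) [AddCommGroup A]
    [DistribMulAction H A] : H1 ((levS S).sub H) A →+ H1 (lev.sub H) A :=
  CC.H1map (MonoidHom.id H) contS (AddMonoidHom.id A) (fun _ _ => rfl)

theorem infl1_injective (hζ : ∃ ζ ∈ K, IsPrimitiveRoot ζ p) :
    Function.Injective (infl1 S K.fixingSubgroup (Mu p)) := by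
  rw [injective_iff_map_eq_zero]
  intro x hx
  obtain ⟨f, rfl⟩ := CC.H1.mk_surjective x
  change CC.H1.mk _ _ _ = 0 at hx
  rw [CC.H1.mk_eq_zero] at hx
  exact CC.H1.mk_eq_zero.mpr hx

/-- elements of order divisible by `p` outside `S` -/
def BS (S : Finset Nat.Primes) (K : IntermediateField ℚ Qb) [NumberField K] (p : ℕ) :
    Subgroup Kˣ where
  carrier := {a | ∀ v ∉ SK S K, (p : ℤ) ∣ ordv v a}
  one_mem' v _ := by rw [ordv_one]; exact dvd_zero _
  mul_mem' {a b} ha hb v hv := by rw [ordv_mul]; exact dvd_add (ha v hv) (hb v hv)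
  inv_mem' {a} ha v hv := by rw [ordv_inv]; exact (dvd_neg).mpr (ha v hv)

theorem comap_range_infl1 [NumberField K] (hSK : CC.SK p S K) :
    (AddSubgroup.toSubgroup (infl1 S K.fixingSubgroup (Mu p)).range).comap (kK K p) =
      BS S K p := by
  have hp : p.Prime := Fact.out
  have hnq : ∀ q : Nat.Primes, q ∉ S → ¬ (q : ℕ) ∣ p := by
    intro q hq hd
    have h3 : q = CC.pP p := Nat.Primes.coe_nat_injective
      ((Nat.prime_dvd_prime_iff_eq q.2 hp).mp hd)
    exact hq (by rw [h3]; exact hSK.pS)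
  ext a
  have ha0 : ((a : K) : Qb) ≠ 0 := by exact_mod_cast a.ne_zero
  constructor
  · rintro ⟨x, hx⟩
    obtain ⟨f, rfl⟩ := CC.H1.mk_surjective x
    obtain ⟨b, f', hb, hf', hk⟩ := exists_kap (smH K.fixingSubgroup) (divp p)
      (toH0 (le_refl K.fixingSubgroup) a).toAdd
    have h1 : CC.H1.mk (lev.sub K.fixingSubgroup) (Mu p) _ =
        kap (smH K.fixingSubgroup) (divp p) (toH0 (le_refl K.fixingSubgroup) a).toAdd :=
      hx
    rw [hk, CC.H1.mk_eq_mk] at h1
    obtain ⟨m, hm⟩ := h1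
    have h2 : ∀ g : K.fixingSubgroup, f.1 g = f'.1 g := by
      intro g
      have h3 := hm g
      rw [triv_mu hSK.root le_rfl, sub_self, add_zero] at h3
      exact h3
    have hb' : b.val ^ p = ((a : K) : Qb) := by
      have := congrArg UL.val hb
      rw [UL.val_nsmul] at this
      exact this
    -- `b` is of level `S`
    have hbS : SL S b.val := by
      intro q hq A hA σ hσ
      obtain ⟨U, ⟨W, ⟨L, hL, hLW⟩, hWU⟩, hU⟩ := f.2.1
      have hσK : σ ∈ K.fixingSubgroup := hSK.unr.2 q hq A hA hσ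
      have hσU : (⟨σ, hσK⟩ : K.fixingSubgroup) ∈ U := hWU (hLW (hL.2 q hq A hA hσ))
      have h3 := hU 1 _ hσU
      rw [one_mul, CC.Z1.map_one, h2] at h3
      have h4 := hf' ⟨σ, hσK⟩
      rw [h3, map_zero, eq_comm, sub_eq_zero] at h4
      exact congrArg UL.val h4
    intro v hv
    obtain ⟨q, A, hA, hvA⟩ := exists_place v
    have hq : q ∉ S := fun h => hv ((mem_SK_iff hA hvA).mpr h)
    obtain ⟨w, hw⟩ := TW.exists_NVal q.2 hA
    have h5 := eps_eq_one q.2 hA hw hvA (hSK.unr.2 q hq A hA) a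
    obtain ⟨n, hn⟩ := TW.PL.int_of_fixed ⟨q.2, hA, hw⟩ b.val_ne_zero (hbS q hq A hA)
    rw [← hb', hw.w_pow b.val_ne_zero, hn] at h5
    refine ⟨n, ?_⟩
    exact_mod_cast h5.symm
  · intro ha
    obtain ⟨α, hα⟩ := IsAlgClosed.exists_pow_nat_eq ((a : K) : Qb) hp.pos
    have hα0 : α ≠ 0 := by
      rintro rfl
      rw [zero_pow hp.ne_zero] at hα
      exact ha0 hα.symm
    have haS : SL S ((a : K) : Qb) := SL.of_mem hSK.unr (a : K).2
    have hαS : SL S α := by
      refine SL.root haS ha0 hα hnq fun q hq A hA => ?_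
      have hv := H02L.primeUnder_plc q.2 hA K
      have hvS : H02L.plc q.2 hA K ∉ SK S K := fun h => hq ((mem_SK_iff hA hv).mp h)
      obtain ⟨γ, hγ⟩ := exists_root_local (H02L.plc q.2 hA K) a p (ha _ hvS)
      refine ⟨((γ : K) : Qb), by exact_mod_cast γ.ne_zero, SL.of_mem hSK.unr (γ : K).2, ?_⟩
      have h1 : ((a : K) : Qb) / ((γ : K) : Qb) ^ p = (((a / γ ^ p : Kˣ) : K) : Qb) := by
        rw [Units.val_div_eq_div_val, Units.val_pow_eq_pow_val]
        push_cast
        rfl
      rw [h1]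
      exact (unit_iff hv _).mpr hγ
    -- the cocycle
    have hfix : ∀ g : K.fixingSubgroup, p • (g • UL.mk α hα0 - UL.mk α hα0) = 0 := by
      intro g
      apply UL.ext
      rw [UL.val_nsmul, UL.val_sub, UL.val_smul, UL.val_mk, UL.val_zero, div_pow]
      change ((g : GQ) α) ^ p / α ^ p = 1
      rw [← map_pow, hα, (IntermediateField.mem_fixingSubgroup_iff K _).mp g.2 _ (a : K).2,
        div_self ha0]
    let f : Z1 ((levS S).sub K.fixingSubgroup) (Mu p) :=
      ⟨fun g => TorP.mk _ (hfix g), by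
        constructor
        · refine ⟨(IntermediateField.adjoin ℚ {α}).fixingSubgroup.comap
            K.fixingSubgroup.subtype, ⟨_, ⟨_, hαS.unr, le_rfl⟩, le_rfl⟩, fun g s hs => ?_⟩
          apply TorP.incl_injective
          have hs' : (s : GQ) ∈ (IntermediateField.adjoin ℚ {α}).fixingSubgroup := hs
          rw [IntermediateField.mem_fixingSubgroup_iff] at hs'
          have h3 : s • UL.mk α hα0 = UL.mk α hα0 :=
            UL.ext (hs' _ (IntermediateField.mem_adjoin_simple_self ℚ _))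
          change (g * s) • UL.mk α hα0 - UL.mk α hα0 = g • UL.mk α hα0 - UL.mk α hα0
          rw [mul_smul, h3]
        · intro g h
          apply TorP.incl_injective
          change (g * h) • UL.mk α hα0 - UL.mk α hα0 =
            (g • UL.mk α hα0 - UL.mk α hα0) + g • (h • UL.mk α hα0 - UL.mk α hα0)
          rw [mul_smul, smul_sub]
          abel⟩
    refine ⟨CC.H1.mk _ _ f, ?_⟩
    have h4 : p • UL.mk α hα0 = ((toH0 (le_refl K.fixingSubgroup) a).toAdd : UL Qb) :=
      UL.ext (by rw [UL.val_nsmul, UL.val_mk, hα]; rfl)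
    exact (kap_eq (smH K.fixingSubgroup) (divp p) h4
      (f := CC.Z1map (MonoidHom.id _) contS (AddMonoidHom.id _) (fun _ _ => rfl) f)
      (fun g => rfl)).symm

end Fermat.Agent.H02M
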