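import Mathlib
import Fermat.Agent.H02M.CountH1

set_option autoImplicit false
set_option linter.unusedSectionVars false
set_option linter.style.haveILetI false

/-!
# The order of `H¹(G_{K,S}, μ_p)`: the class group
-/

noncomputable section

namespace Fermat.Agent.H02M

open Module NumberField IsDedekindDomain WithZero Fermat.Agent.CFT
open scoped Pointwise
open Fermat.Agent.CC (lev levS UL TorP H0 H1 H2 Z1 H2coef chiZ carC CycExt IsLocNorm PrimeUnder
  Lev H2_killed chiKer cores0h Mu kap kap_surjective kap_eq_zero_iff kap_eq exists_kap)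
open Fermat.Agent.LF (DK ZK DK_le_fix)

variable {S : Finset Nat.Primes} {p : ℕ} [Fact p.Prime] {K : IntermediateField ℚ Qb}
  [NumberField K]

/-- iterating the divisibility -/
theorem clTriv_fun (hcl : CC.ClTriv p S K) (n : HeightOneSpectrum (𝓞 K) → ℤ)
    (hn : (Function.support n).Finite) (k : ℕ) :
    ∃ c : Kˣ, ∀ v ∉ SK S K, ((p : ℤ) ^ k) ∣ n v - ordv v c := by
  have hp : p.Prime := Fact.out
  induction k with
  | zero => exact ⟨1, fun v _ => by rw [pow_zero]; exact one_dvd _⟩
  | succ k ih =>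
    obtain ⟨c, hc⟩ := ih
    have hm : (Function.support fun v => (n v - ordv v c) / (p : ℤ) ^ k).Finite := by
      refine ((ordv_finite c).union hn).subset fun v hv => ?_
      by_contra hv'
      rw [Set.mem_union, not_or] at hv'
      have h1 : ordv v c = 0 := not_not.mp hv'.1
      have h2 : n v = 0 := not_not.mp hv'.2
      apply hv
      change (n v - ordv v c) / (p : ℤ) ^ k = 0
      rw [h1, h2, sub_zero, Int.zero_ediv]
    obtain ⟨c', hc'⟩ := hcl inferInstance (Finsupp.ofSupportFinite _ hm)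
    refine ⟨c * c' ^ (p ^ k), fun v hv => ?_⟩
    obtain ⟨t, ht⟩ := hc v hv
    obtain ⟨s, hs⟩ := hc' v (not_mem_of_notMem_SK hv)
    have h1 : (Finsupp.ofSupportFinite _ hm) v = t := by
      change (n v - ordv v c) / (p : ℤ) ^ k = t
      rw [ht]
      exact Int.mul_ediv_cancel_left _ (pow_ne_zero _ (by exact_mod_cast hp.ne_zero))
    rw [h1] at hs
    refine ⟨-s, ?_⟩
    rw [ordv_mul, ordv_pow, ← sub_sub, ht, pow_succ]
    have h2 : ordv v c' = t + p * s := by linarith
    rw [h2]
    push_cast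
    ring

/-- the class group has no `p`-torsion -/
theorem principal_of_mul (hcl : CC.ClTriv p S K) (n : HeightOneSpectrum (𝓞 K) → ℤ)
    (hn : (Function.support n).Finite) (a : Kˣ) (ha : ∀ v ∉ SK S K, ordv v a = p * n v) :
    ∃ c : Kˣ, ∀ v ∉ SK S K, ordv v c = n v := by
  classical
  have hp : p.Prime := Fact.out
  obtain ⟨h, hh, hπ⟩ := exists_pi K
  choose π hπ using hπ
  obtain ⟨k, m, hm, hkm⟩ := Nat.exists_eq_pow_mul_and_not_dvd hh.ne' p hp.ne_one
  obtain ⟨c, hc⟩ := clTriv_fun hcl n hn k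
  set y : HeightOneSpectrum (𝓞 K) → ℤ := fun v => (n v - ordv v c) / (p : ℤ) ^ k with hy
  have hyf : (Function.support y).Finite := by
    refine ((ordv_finite c).union hn).subset fun v hv => ?_
    by_contra hv'
    rw [Set.mem_union, not_or] at hv'
    have h1 : ordv v c = 0 := not_not.mp hv'.1
    have h2 : n v = 0 := not_not.mp hv'.2
    apply hv
    change (n v - ordv v c) / (p : ℤ) ^ k = 0
    rw [h1, h2, sub_zero, Int.zero_ediv]
  set d : Kˣ := ∏ v ∈ hyf.toFinset, π v ^ y v with hd
  have hd' : ∀ w, ordv w d = h * y w := by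
    intro w
    rw [hd, ordv_prod]
    by_cases hw : w ∈ hyf.toFinset
    · rw [Finset.sum_eq_single w]
      · rw [ordv_zpow, hπ, if_pos rfl, mul_comm]
      · intro w' _ hne
        rw [ordv_zpow, hπ, if_neg (fun h => hne h.symm), mul_zero]
      · intro h
        exact absurd hw h
    · have hw0 : y w = 0 := by
        by_contra hne
        exact hw (hyf.mem_toFinset.mpr hne)
      rw [hw0, mul_zero]
      refine Finset.sum_eq_zero fun w' hw' => ?_
      rw [ordv_zpow, hπ, if_neg (fun h => hw (by rw [h]; exact hw')), mul_zero]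
  have hmn : ∀ v ∉ SK S K, ordv v (c ^ m * d) = m * n v := by
    intro v hv
    obtain ⟨t, ht⟩ := hc v hv
    have h1 : y v = t := by
      change (n v - ordv v c) / (p : ℤ) ^ k = t
      rw [ht]
      exact Int.mul_ediv_cancel_left _ (pow_ne_zero _ (by exact_mod_cast hp.ne_zero))
    rw [ordv_mul, ordv_pow, hd', h1, hkm]
    have h2 : n v = ordv v c + (p : ℤ) ^ k * t := by linarith
    rw [h2]
    push_cast
    ring
  have hco : IsCoprime (m : ℤ) (p : ℤ) :=
    Nat.isCoprime_iff_coprime.mpr (((Nat.Prime.coprime_iff_not_dvd hp).mpr hm).symm)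
  obtain ⟨u, w, huw⟩ := hco
  refine ⟨(c ^ m * d) ^ u * a ^ w, fun v hv => ?_⟩
  rw [ordv_mul, ordv_zpow, ordv_zpow, hmn v hv, ha v hv]
  calc u * (m * n v) + w * (p * n v) = (u * m + w * p) * n v := by ring
    _ = n v := by rw [huw, one_mul]

theorem BS_eq (hcl : CC.ClTriv p S K) :
    BS S K p = CFT.SU (SK S K) ⊔ (powMonoidHom p : Kˣ →* Kˣ).range := by
  classical
  have hp : p.Prime := Fact.out
  apply le_antisymm
  · intro a ha
    have hn : (Function.support fun v => ordv v a / (p : ℤ)).Finite := by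
      refine (ordv_finite a).subset fun v hv => ?_
      intro h1
      apply hv
      change ordv v a / (p : ℤ) = 0
      rw [h1, Int.zero_ediv]
    obtain ⟨c, hc⟩ := principal_of_mul hcl (fun v => ordv v a / (p : ℤ)) hn a
      (fun v hv => (Int.mul_ediv_cancel' (ha v hv)).symm)
    rw [Subgroup.mem_sup]
    refine ⟨a / c ^ p, ?_, c ^ p, ⟨c, rfl⟩, div_mul_cancel _ _⟩
    intro v hv
    rw [ordv_div, ordv_pow, hc v hv, Int.mul_ediv_cancel' (ha v hv), sub_self]
  · rw [sup_le_iff]
    constructor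
    · intro a ha v hv
      rw [ha v hv]
      exact dvd_zero _
    · rintro _ ⟨b, rfl⟩ v hv
      change (p : ℤ) ∣ ordv v (b ^ p)
      rw [ordv_pow]
      exact dvd_mul_right _ _

theorem relIndex_BS (hcl : CC.ClTriv p S K) :
    (powMonoidHom p : Kˣ →* Kˣ).range.relIndex (BS S K p) = pidx (CFT.SU (SK S K)) p := by
  have hp : p.Prime := Fact.out
  rw [BS_eq hcl, Subgroup.relIndex_sup_right, Subgroup.relIndex, pidx]
  congr 1
  ext ⟨x, hx⟩
  rw [Subgroup.mem_subgroupOf]
  constructor
  · rintro ⟨y, hy⟩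
    have hy' : y ^ p = x := hy
    refine ⟨⟨y, fun v hv => ?_⟩, Subtype.ext hy'⟩
    have h1 := hx v hv
    rw [← hy', ordv_pow] at h1
    rcases mul_eq_zero.mp h1 with h2 | h2
    · exact absurd (by exact_mod_cast h2) hp.ne_zero
    · exact h2
  · rintro ⟨y, hy⟩
    exact ⟨y.1, congrArg Subtype.val hy⟩

/-- **the order of `H¹(G_{K,S}, μ_p)`** -/
theorem card_H1S (hSK : CC.SK p S K) (hcl : CC.ClTriv p S K) [Fintype (SK S K)] :
    Nat.card (H1 ((levS S).sub K.fixingSubgroup) (Mu p)) =
      p ^ (Fintype.card (SK S K) + (Units.rank K + 1)) := by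
  have hp : p.Prime := Fact.out
  obtain ⟨ζ, hζK, hζ⟩ := hSK.root
  have hζ' : ∃ ζ : K, IsPrimitiveRoot ζ p :=
    ⟨⟨ζ, hζK⟩, IsPrimitiveRoot.of_map_of_injective (f := K.val) hζ K.val.injective⟩
  have h1 : Nat.card (H1 ((levS S).sub K.fixingSubgroup) (Mu p)) =
      Nat.card (AddSubgroup.toSubgroup (infl1 S K.fixingSubgroup (Mu p)).range) :=
    Nat.card_congr (AddMonoidHom.ofInjective (infl1_injective hSK.root)).toEquiv
  rw [h1, ← pidx_SU (SK S K) p hp hζ', ← relIndex_BS hcl, ← ker_kK, ← comap_range_infl1 hSK,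
    Subgroup.relIndex_ker, Subgroup.map_comap_eq_self_of_surjective kK_surjective]

end Fermat.Agent.H02M
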