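import Mathlib
import Fermat.Agent.H02M.CountH1b

set_option autoImplicit false
set_option linter.unusedSectionVars false
set_option linter.style.haveILetI false

/-!
# The order of `H¹(G_{K,S}, μ_p)`: comparison with the local orders
-/

noncomputable section

namespace Fermat.Agent.H02M

open Module NumberField IsDedekindDomain WithZero Fermat.Agent.CFT
open scoped Pointwise
open Fermat.Agent.CC (lev levS UL TorP H0 H1 H2 Z1 H2coef chiZ carC CycExt IsLocNorm PrimeUnder
  Lev H2_killed chiKer cores0h Mu kap kap_surjective kap_eq_zero_iff kap_eq exists_kap)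
open Fermat.Agent.LF (DK ZK DK_le_fix)
open Fermat.Agent.L00.Unr (primeOf)

variable {S : Finset Nat.Primes} {p : ℕ} [Fact p.Prime] {K : IntermediateField ℚ Qb}

/-- order of the local groups -/
theorem card_H1_local {A : ValuationSubring Qb} {q : ℕ} (hq : q.Prime) (hA : A.LiesOverPrime q)
    [FiniteDimensional ℚ K] (hζ : ∃ ζ ∈ K, IsPrimitiveRoot ζ p) :
    Nat.card (H1 (lev.sub (DK A K)) (Mu p)) =
      p ^ (2 + if q = p then L00.LKum.locDeg A K else 0) := by
  have hp : p.Prime := Fact.out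
  obtain ⟨ζ, hζK, hζ⟩ := hζ
  rw [← L00.LKum.index_pow_eq A hq hA hp hζ (LF.le_ZK hζK),
    ← CC.card_modP (CC.Act.self (DK A K)) rfl p]
  have hk : (kap (𝓛 := lev.sub (DK A K)) (smH (DK A K)) (divp p)).ker =
      (nsmulAddMonoidHom (α := H0 (DK A K) (UL Qb)) p).range := by
    ext a
    rw [AddMonoidHom.mem_ker, kap_eq_zero_iff]
    constructor
    · rintro ⟨b, hb⟩
      exact ⟨b, Subtype.ext hb⟩
    · rintro ⟨b, rfl⟩
      exact ⟨b, rfl⟩
  exact (Nat.card_congr ((QuotientAddGroup.quotientAddEquivOfEq hk).symm.trans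
    (QuotientAddGroup.quotientKerEquivOfSurjective _
      (kap_surjective _ (divp p) (h90H _)))).toEquiv).symm

theorem primeOf_smul {g : GQ} (hg : g ∈ K.fixingSubgroup) (A : ValuationSubring Qb) :
    primeOf (g • A) K = primeOf A K := by
  ext x
  rw [L00.Unr.mem_primeOf, L00.Unr.mem_primeOf, ValuationSubring.mem_nonunits_iff,
    ValuationSubring.mem_nonunits_iff]
  have h1 : ∀ y : K, (y : Qb) ∈ g • A ↔ (y : Qb) ∈ A := by
    intro y
    rw [ValuationSubring.mem_pointwise_smul_iff_inv_smul_mem]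
    have h3 : g⁻¹ • (y : Qb) = y := (IntermediateField.mem_fixingSubgroup_iff K _).mp
      (inv_mem hg) _ y.2
    rw [h3]
  by_cases hx : ((x : K) : Qb) = 0
  · rw [hx, map_zero, map_zero]
    simp
  · have hv : ∀ B : ValuationSubring Qb, B.valuation ((x : K) : Qb) < 1 ↔
        ((x : K)⁻¹ : Qb) ∉ B := by
      intro B
      rw [← ValuationSubring.valuation_le_one_iff, map_inv₀, not_le, one_lt_inv₀]
      exact zero_lt_iff.mpr ((map_ne_zero _).mpr hx)
    rw [hv, hv]
    have h2 := h1 ((x : K)⁻¹)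
    push_cast at h2
    rw [h2]

/-- **sum of the local degrees** -/
theorem sum_locDeg [NumberField K] (hpS : CC.pP p ∈ S) {ι : Type} [Fintype ι]
    {A : ι → ValuationSubring Qb} (hR : CC.Reps S K A) {q : ι → Nat.Primes}
    (hqA : ∀ i, (A i).LiesOverPrime ((q i : Nat.Primes) : ℕ)) :
    ∑ i, (if (q i : ℕ) = p then L00.LKum.locDeg (A i) K else 0) = finrank ℚ K := by
  classical
  have hp : p.Prime := Fact.out
  have hqZ : (Ideal.span {(p : ℤ)}) ≠ ⊥ := by
    rw [Ne, Ideal.span_singleton_eq_bot]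
    exact_mod_cast hp.ne_zero
  haveI hprime : (Ideal.span {(p : ℤ)}).IsPrime := by
    rw [Ideal.span_singleton_prime (by exact_mod_cast hp.ne_zero)]
    exact Nat.prime_iff_prime_int.mp hp
  -- primes over `p`
  have hlies : ∀ i, (q i : ℕ) = p → (primeOf (A i) K).LiesOver (Ideal.span {(p : ℤ)}) := by
    intro i hi
    obtain ⟨w, hw⟩ := TW.exists_NVal (q i).2 (hqA i)
    obtain ⟨π, u⟩ := L00.LKum.exists_unif (q i).2 (hqA i) hw K
    have := L00.LKum.liesOver (A i) (q i).2 (hqA i) hw u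
    rwa [hi] at this
  let f : {i // (q i : ℕ) = p} → (Ideal.span {(p : ℤ)}).primesOver (𝓞 K) := fun i =>
    ⟨primeOf (A i.1) K, inferInstance, hlies i.1 i.2⟩
  have hf : Function.Bijective f := by
    constructor
    · rintro ⟨i, hi⟩ ⟨j, hj⟩ hij
      have h1 : primeOf (A i) K = primeOf (A j) K := congrArg Subtype.val hij
      have h2 : PrimeUnder (A j) K (H02L.plc (q i).2 (hqA i) K) :=
        H02L.primeUnder_iff.mpr h1.symm
      obtain ⟨g, hg, hgA⟩ := H02L.exists_conj (q i).2 (hqA i)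
        (H02L.primeUnder_plc (q i).2 (hqA i) K) h2
      exact Subtype.ext (hR.inj i j g hg hgA)
    · rintro ⟨P, hP, hPp⟩
      have hP0 : P ≠ ⊥ := by
        rintro rfl
        have h1 := hPp.over
        rw [Ideal.under_bot] at h1
        exact hqZ h1
      obtain ⟨r, B, hB, hBv⟩ := exists_place (⟨P, hP, hP0⟩ : HeightOneSpectrum (𝓞 K))
      have hBP : primeOf B K = P := H02L.primeOf_of_primeUnder hBv
      have hpP : ((p : ℕ) : 𝓞 K) ∈ P := by
        have h1 : (p : ℤ) ∈ P.under ℤ := by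
          rw [← hPp.over]
          exact Ideal.mem_span_singleton_self _
        have h2 : algebraMap ℤ (𝓞 K) (p : ℤ) ∈ P := h1
        rwa [map_natCast] at h2
      have hBp : B.LiesOverPrime p := by
        rw [← hBP, L00.Unr.mem_primeOf] at hpP
        have h3 : (((p : 𝓞 K) : K) : Qb) = (p : Qb) := by push_cast; rfl
        rwa [h3] at hpP
      obtain ⟨i, g, hg, hgA⟩ := hR.surj B (CC.pP p) hpS hBp
      have hi : (q i : ℕ) = p := by
        have h1 : (g • A i).LiesOverPrime ((q i : Nat.Primes) : ℕ) :=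
          (H05.liesOverPrime_smul_iff g (A i) _).mpr (hqA i)
        rw [hgA] at h1
        exact eq_of_liesOver (q i).2 hp h1 hBp
      refine ⟨⟨i, hi⟩, Subtype.ext ?_⟩
      change primeOf (A i) K = P
      rw [← hBP, ← hgA, primeOf_smul hg]
  haveI : Finite ((Ideal.span {(p : ℤ)}).primesOver (𝓞 K)) := Finite.of_surjective f hf.2
  haveI : Fintype ((Ideal.span {(p : ℤ)}).primesOver (𝓞 K)) := Fintype.ofFinite _
  have h1 := Ideal.sum_ramification_inertia_eq_finrank (Ideal.span {(p : ℤ)}) (𝓞 K)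
  rw [RingOfIntegers.rank] at h1
  rw [← h1, ← (Equiv.ofBijective f hf).sum_comp, ← Finset.sum_filter,
    Finset.sum_subtype (p := fun i => (q i : ℕ) = p) _ (fun i => by simp)]
  rfl

/-- **(N6)** -/
theorem countH1 (h2 : p ≠ 2) : CC.CountH1 p := by
  have hp : p.Prime := Fact.out
  intro S K hSK hcl ι _ A hR
  classical
  haveI := hSK.unr.1
  haveI : NumberField K := ⟨⟩
  choose q hqS hqA using hR.ov
  -- the places
  set v : ι → HeightOneSpectrum (𝓞 K) := fun i => H02L.plc (q i).2 (hqA i) K with hv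
  have hvP : ∀ i, PrimeUnder (A i) K (v i) := fun i => H02L.primeUnder_plc (q i).2 (hqA i) K
  haveI : Fintype (SK S K) := (SK_finite S K).fintype
  have hcard : Fintype.card ι = Fintype.card (SK S K) := by
    refine Fintype.card_of_bijective (f := fun i => (⟨v i, q i, hqS i, A i, hqA i, hvP i⟩ : SK S K))
      ⟨fun i j hij => ?_, ?_⟩
    · have hij' : v i = v j := congrArg Subtype.val hij
      obtain ⟨g, hg, hgA⟩ := H02L.exists_conj (q i).2 (hqA i) (hvP i)
        (by rw [hij']; exact hvP j)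
      exact hR.inj i j g hg hgA
    · rintro ⟨w, q', hq', B, hB, hBw⟩
      obtain ⟨i, g, hg, hgA⟩ := hR.surj B q' hq' hB
      refine ⟨i, Subtype.ext ?_⟩
      refine primeUnder_unique (A := B) ?_ hBw
      intro x
      rw [← hgA, ValuationSubring.mem_pointwise_smul_iff_inv_smul_mem, ← hvP i]
      have h3 : g⁻¹ • (x : Qb) = x := (IntermediateField.mem_fixingSubgroup_iff K _).mp
        (inv_mem hg) _ x.2
      rw [h3]
  obtain ⟨ζ, hζK, hζ⟩ := hSK.root
  have hζ' : ∃ ζ : K, IsPrimitiveRoot ζ p :=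
    ⟨⟨ζ, hζK⟩, IsPrimitiveRoot.of_map_of_injective (f := K.val) hζ K.val.injective⟩
  rw [card_H1S hSK hcl,
    Finset.prod_congr rfl fun i _ => card_H1_local (q i).2 (hqA i) hSK.root,
    Finset.prod_pow_eq_pow_sum, Finset.sum_add_distrib, sum_locDeg hSK.pS hR hqA,
    ← rank_eq hp h2 hζ', ← hcard, ← pow_mul]
  congr 1
  rw [Finset.sum_const, Finset.card_univ, smul_eq_mul]
  ring

end Fermat.Agent.H02M
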