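import Mathlib
import Fermat.Agent.H25.SelE
import Fermat.Agent.TW.LocP3

set_option autoImplicit false
set_option linter.unusedSectionVars false
set_option linter.style.haveILetI false

/-!
# The strict ordinary condition for pseudocharacters
-/

namespace Fermat.Agent.H25.St

open Fermat.Agent.H25 Fermat.Agent.H25.PR Fermat.Agent.CC Fermat.Agent.TW IsLocalRing Matrix
open Fermat.Agent.H05 Fermat.Agent.H25.TR Fermat.Agent.H25.TWM Fermat.Agent.H25.GD
open Fermat.Agent.H25.PT Fermat.Agent.H19 Fermat.Agent.H25.GE Fermat.Agent.H25.SB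
open Fermat.Agent.H04 (DN M2)

section Basic

variable {R : Type*} [CommRing R]

/-- an adapted basis -/
theorem exists_adapted_of_mul {N : Mt R} {i j : Fin 2} (hu : IsUnit (N i j)) :
    ∃ M M' : Mt R, M * M' = 1 ∧ M' * M = 1 ∧ ∀ (X : Mt R) (x : R),
      (X - x • (1 : Mt R)) * N = 0 → (M' * X * M) 1 0 = 0 ∧ (M' * X * M) 0 0 = x := by
  obtain ⟨M, hM0, hMdet⟩ : ∃ M : Mt R, (∀ a, M a 0 = N a j) ∧ IsUnit M.det := by
    fin_cases i
    · refine ⟨!![N 0 j, 0; N 1 j, 1], fun a => by fin_cases a <;> rfl, ?_⟩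
      rw [Matrix.det_fin_two_of, zero_mul, sub_zero, mul_one]
      exact hu
    · refine ⟨!![N 0 j, 1; N 1 j, 0], fun a => by fin_cases a <;> rfl, ?_⟩
      rw [Matrix.det_fin_two_of, mul_zero, zero_sub, one_mul]
      exact hu.neg
  have h1 : M * M⁻¹ = 1 := Matrix.mul_nonsing_inv M hMdet
  have h2 : M⁻¹ * M = 1 := Matrix.nonsing_inv_mul M hMdet
  refine ⟨M, M⁻¹, h1, h2, fun X x hX => ?_⟩
  have h3 : ∀ a, (X * M) a 0 = x * M a 0 := by
    intro a
    have h4 := congrFun (congrFun hX a) j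
    rw [sub_mul, smul_mul_assoc, one_mul, Matrix.sub_apply, Matrix.smul_apply, smul_eq_mul,
      Matrix.zero_apply, sub_eq_zero] at h4
    rw [hM0, ← h4, Matrix.mul_apply, Matrix.mul_apply]
    exact Finset.sum_congr rfl fun b _ => by rw [hM0]
  have h5 : ∀ a, (M⁻¹ * X * M) a 0 = x * (1 : Mt R) a 0 := by
    intro a
    rw [mul_assoc, Matrix.mul_apply, ← h2, Matrix.mul_apply, Finset.mul_sum]
    refine Finset.sum_congr rfl fun b _ => ?_
    rw [h3]
    ring
  constructor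
  · rw [h5, Matrix.one_apply_ne (by decide), mul_zero]
  · rw [h5, Matrix.one_apply_eq, mul_one]

end Basic

/-- unramified quadratic characters of the decomposition group -/
structure UQ (A : ValuationSubring Qb) (psi : GQ → ℤ) : Prop where
  pm : ∀ σ ∈ A.decompositionSubgroup ℚ, psi σ = 1 ∨ psi σ = -1
  mul : ∀ σ ∈ A.decompositionSubgroup ℚ, ∀ τ ∈ A.decompositionSubgroup ℚ,
    psi (σ * τ) = psi σ * psi τ
  ine : ∀ σ ∈ A.inertiaSubgroupIn ℚ, psi σ = 1

theorem UQ.sq {A : ValuationSubring Qb} {psi : GQ → ℤ} (h : UQ A psi) {σ : GQ}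
    (hσ : σ ∈ A.decompositionSubgroup ℚ) : psi σ * psi σ = 1 := by
  rcases h.pm σ hσ with h1 | h1 <;> rw [h1] <;> norm_num

theorem UQ.sq' {A : ValuationSubring Qb} {psi : GQ → ℤ} (h : UQ A psi) {σ : GQ}
    (hσ : σ ∈ A.decompositionSubgroup ℚ) {R : Type*} [CommRing R] :
    ((psi σ : ℤ) : R) * (psi σ : R) = 1 := by
  rw [← Int.cast_mul, h.sq hσ, Int.cast_one]

/-- strict ordinarity of a pseudocharacter, general form -/
def StZ (A : ValuationSubring Qb) {P : Type*} [CommRing P] (x z : GQ → P) (t : GQ → P) : Prop :=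
  ∀ σ ∈ A.decompositionSubgroup ℚ, ∀ τ ∈ A.decompositionSubgroup ℚ, ∀ g,
    t (σ * τ * g) - z τ * t (σ * g) - x σ * t (τ * g) + x σ * z τ * t g = 0

/-- **strict ordinarity of a pseudocharacter** -/
def StT {O : Type*} [CommRing O] (A : ValuationSubring Qb) (chi : GQ → O) (psi : GQ → ℤ)
    {P : Type*} [CommRing P] [Algebra O P] (t : GQ → P) : Prop :=
  StZ A (fun σ => algebraMap O P (chi σ) * (psi σ : P)) (fun σ => (psi σ : P)) t

theorem StZ.map {A : ValuationSubring Qb} {P P' : Type*} [CommRing P] [CommRing P']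
    {x z t : GQ → P} (h : StZ A x z t) (f : P →+* P') :
    StZ A (fun σ => f (x σ)) (fun σ => f (z σ)) (fun σ => f (t σ)) := by
  intro σ hσ τ hτ g
  have h1 := congrArg f (h σ hσ τ hτ g)
  rw [map_add, map_sub, map_sub, map_mul, map_mul, map_mul, map_mul, map_zero] at h1
  exact h1

theorem StT.map {O : Type*} [CommRing O] {A : ValuationSubring Qb} {chi : GQ → O} {psi : GQ → ℤ}
    {P P' : Type*} [CommRing P] [CommRing P'] [Algebra O P] [Algebra O P'] {t : GQ → P}
    (h : StT A chi psi t) (f : P →ₐ[O] P') : StT A chi psi (fun g => f (t g)) := by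
  have h1 := StZ.map h (f : P →+* P')
  intro σ hσ τ hτ g
  have h2 := h1 σ hσ τ hτ g
  simp only [RingHom.coe_coe, map_mul, AlgHom.commutes, map_intCast] at h2
  exact h2

/-- the matrix identity gives the trace identity -/
theorem StZ.of_matrix {A : ValuationSubring Qb} {P : Type*} [CommRing P] {M : GQ →* Mt P}
    {x z : GQ → P} (h : ∀ σ ∈ A.decompositionSubgroup ℚ, ∀ τ ∈ A.decompositionSubgroup ℚ,
      (M σ - x σ • (1 : Mt P)) * (M τ - z τ • (1 : Mt P)) = 0) :
    StZ A x z (fun g => (M g).trace) := by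
  intro σ hσ τ hτ g
  have h1 := congrArg (fun X => (X * M g).trace) (h σ hσ τ hτ)
  beta_reduce at h1
  rw [zero_mul, Matrix.trace_zero] at h1
  refine Eq.trans ?_ h1
  have h2 : (M σ - x σ • (1 : Mt P)) * (M τ - z τ • (1 : Mt P)) * M g =
      M (σ * τ * g) - z τ • M (σ * g) - x σ • M (τ * g) + (x σ * z τ) • M g := by
    rw [map_mul, map_mul, map_mul, map_mul]
    simp only [sub_mul, mul_sub, smul_mul_assoc, mul_smul_comm, one_mul, mul_one, smul_smul,
      smul_sub]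
    rw [mul_comm (z τ) (x σ)]
    abel
  rw [h2, Matrix.trace_add, Matrix.trace_sub, Matrix.trace_sub, Matrix.trace_smul,
    Matrix.trace_smul, Matrix.trace_smul]
  simp only [smul_eq_mul]

/-- the trace identity gives the matrix identity when the trace form is nondegenerate -/
theorem StZ.matrix {A : ValuationSubring Qb} {P : Type*} [CommRing P] {M : GQ →* Mt P}
    {x z : GQ → P} (h : StZ A x z (fun g => (M g).trace))
    (hnd : ∀ X : Mt P, (∀ g, (X * M g).trace = 0) → X = 0)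
    {σ τ : GQ} (hσ : σ ∈ A.decompositionSubgroup ℚ) (hτ : τ ∈ A.decompositionSubgroup ℚ) :
    (M σ - x σ • (1 : Mt P)) * (M τ - z τ • (1 : Mt P)) = 0 := by
  refine hnd _ fun g => ?_
  have h2 : (M σ - x σ • (1 : Mt P)) * (M τ - z τ • (1 : Mt P)) * M g =
      M (σ * τ * g) - z τ • M (σ * g) - x σ • M (τ * g) + (x σ * z τ) • M g := by
    rw [map_mul, map_mul, map_mul, map_mul]
    simp only [sub_mul, mul_sub, smul_mul_assoc, mul_smul_comm, one_mul, mul_one, smul_smul,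
      smul_sub]
    rw [mul_comm (z τ) (x σ)]
    abel
  rw [h2, Matrix.trace_add, Matrix.trace_sub, Matrix.trace_sub, Matrix.trace_smul,
    Matrix.trace_smul, Matrix.trace_smul]
  simp only [smul_eq_mul]
  exact h σ hσ τ hτ g

section Resid

variable {O k : Type} [CommRing O] [Field k] (D : RD O k)

/-- nondegeneracy of the residual trace form -/
theorem rbar_nd {X : Mt k} (h : ∀ g, (X * D.rbar g).trace = 0) : X = 0 :=
  eq_zero_of_trace_mul (G := GQ) (t := D.tbar) (hf := D.res D.hf) (c := D.c) (r := D.r)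
    (s := D.s) (u := (entX D.tbar (D.res D.hf) D.c D.r D.s)⁻¹) (M := D.rbar) D.h2k D.cc D.ps
    D.tc (mul_inv_cancel₀ D.ent) D.rbar_eq h

/-- the residual strict ordinary condition -/
structure OrdD (A : ValuationSubring Qb) (psi : GQ → ℤ) : Prop where
  uq : UQ A psi
  st : StZ A (fun σ => D.res (D.chi σ) * (psi σ : k)) (fun σ => (psi σ : k)) D.tbar

variable {D} {A : ValuationSubring Qb} {psi : GQ → ℤ}

theorem OrdD.matrix (h : OrdD D A psi) {σ τ : GQ} (hσ : σ ∈ A.decompositionSubgroup ℚ)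
    (hτ : τ ∈ A.decompositionSubgroup ℚ) :
    (D.rbar σ - (D.res (D.chi σ) * (psi σ : k)) • (1 : Mt k)) *
      (D.rbar τ - (psi τ : k) • (1 : Mt k)) = 0 := by
  refine StZ.matrix (M := D.rbar) (x := fun σ => D.res (D.chi σ) * (psi σ : k))
    (z := fun σ => (psi σ : k)) ?_ (fun X => rbar_nd D) hσ hτ
  have h1 : (fun g => (D.rbar g).trace) = D.tbar := funext D.trace_rbar
  rw [h1]
  exact h.st

/-- a unit entry -/
theorem OrdD.exists_unit (h : OrdD D A psi) (hne : ∃ σ ∈ A.inertiaSubgroupIn ℚ,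
      D.res (D.chi σ) ≠ 1) :
    ∃ τ ∈ A.decompositionSubgroup ℚ, ∃ i j, (D.rbar τ - (psi τ : k) • (1 : Mt k)) i j ≠ 0 := by
  obtain ⟨σ, hσ, hne⟩ := hne
  refine ⟨σ, inertia_le_decomposition A hσ, ?_⟩
  by_contra hcon
  push Not at hcon
  apply hne
  rw [h.uq.ine σ hσ] at hcon
  have h1 : D.rbar σ = 1 := by
    ext i j
    have h2 := hcon i j
    rw [Int.cast_one, one_smul, Matrix.sub_apply, sub_eq_zero] at h2
    exact h2
  rw [← D.det_rbar, h1, Matrix.det_one]

/-- **the residual adapted basis** -/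
theorem OrdD.exists_BData (h : OrdD D A psi) (hne : ∃ σ ∈ A.inertiaSubgroupIn ℚ,
      D.res (D.chi σ) ≠ 1) :
    ∃ Q Q' : Mt k, BData A D.rbar Q Q' ∧ ∀ σ ∈ A.decompositionSubgroup ℚ,
      (Q' * D.rbar σ * Q) 0 0 = D.res (D.chi σ) * (psi σ : k) ∧
      (Q' * D.rbar σ * Q) 1 1 = (psi σ : k) := by
  obtain ⟨τ, hτ, i, j, hij⟩ := h.exists_unit hne
  obtain ⟨Q, Q', h1, h2, h3⟩ := exists_adapted_of_mul (IsUnit.mk0 _ hij)
  refine ⟨Q, Q', ⟨h1, h2, fun σ hσ => (h3 _ _ (h.matrix hσ hτ)).1⟩, fun σ hσ => ?_⟩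
  obtain ⟨h4, h5⟩ := h3 _ _ (h.matrix hσ hτ)
  refine ⟨h5, ?_⟩
  have h6 := det_conj_matrix (X := D.rbar σ) h1
  rw [Matrix.det_fin_two, h4, h5, mul_zero, sub_zero, D.det_rbar] at h6
  have h7 : D.res (D.chi σ) ≠ 0 := by
    intro h0
    have h8 : D.rbar σ * D.rbar σ⁻¹ = 1 := by rw [← map_mul, mul_inv_cancel, map_one]
    have h9 := congrArg Matrix.det h8
    rw [Matrix.det_mul, D.det_rbar, h0, zero_mul, Matrix.det_one] at h9
    exact zero_ne_one h9
  have h8 : D.res (D.chi σ) * ((psi σ : k) * (Q' * D.rbar σ * Q) 1 1) =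
      D.res (D.chi σ) * 1 := by rw [← mul_assoc, h6, mul_one]
  have h9 := mul_left_cancel₀ h7 h8
  have h10 : (psi σ : k) * ((psi σ : k) * (Q' * D.rbar σ * Q) 1 1) = (psi σ : k) := by
    rw [h9, mul_one]
  rwa [← mul_assoc, h.uq.sq' hσ, one_mul] at h10

/-- the residual trace on the decomposition group -/
theorem OrdD.tbar_eq (h : OrdD D A psi) (hne : ∃ σ ∈ A.inertiaSubgroupIn ℚ,
      D.res (D.chi σ) ≠ 1) {σ : GQ} (hσ : σ ∈ A.decompositionSubgroup ℚ) :
    D.tbar σ = (D.res (D.chi σ) + 1) * (psi σ : k) := by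
  obtain ⟨Q, Q', B, h1⟩ := h.exists_BData hne
  obtain ⟨h2, h3⟩ := h1 σ hσ
  have h4 : (Q' * D.rbar σ * Q).trace = D.tbar σ := by
    rw [Matrix.trace_mul_comm, ← mul_assoc, B.inv, one_mul, D.trace_rbar]
  rw [← h4, Matrix.trace_fin_two, h2, h3]
  ring

end Resid

end Fermat.Agent.H25.St
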