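import Mathlib
import Fermat.Agent.H02M.StT1

set_option autoImplicit false
set_option linter.unusedSectionVars false
set_option linter.style.haveILetI false

/-!
# The strict ordinary condition: first order deformations
-/

namespace Fermat.Agent.H25.St

open Fermat.Agent.H25 Fermat.Agent.H25.PR Fermat.Agent.CC Fermat.Agent.TW IsLocalRing Matrix
open Fermat.Agent.H05 Fermat.Agent.H25.TR Fermat.Agent.H25.TWM Fermat.Agent.H25.GD
open Fermat.Agent.H25.PT Fermat.Agent.H19 Fermat.Agent.H25.GE Fermat.Agent.H25.SB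
open Fermat.Agent.H04 (DN M2)

theorem map_sub_smul_one {R R' : Type*} [CommRing R] [CommRing R'] (f : R →+* R') (X : Mt R)
    (x : R) : (X - x • (1 : Mt R)).map f = X.map f - f x • (1 : Mt R') := by
  ext i j
  rw [Matrix.map_apply, Matrix.sub_apply, Matrix.sub_apply, Matrix.smul_apply, Matrix.smul_apply,
    Matrix.map_apply, map_sub, smul_eq_mul, smul_eq_mul, map_mul, Matrix.one_apply,
    Matrix.one_apply]
  split_ifs <;> simp

section Mem

variable {O : Type} [CommRing O] [IsLocalRing O] {D : RD O (ResidueField O)}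
  {B : Type} [CommRing B] [Algebra O B] (C : Comp D B) {A : ValuationSubring Qb}
  {psi : GQ → ℤ} {d : B → ResidueField O}

/-- the matrix identity for the deformation to the dual numbers -/
theorem matrix_sHom (hst : StT A D.chi psi C.t) (hd : IsDer O C.resB d) {σ τ : GQ}
    (hσ : σ ∈ A.decompositionSubgroup ℚ) (hτ : τ ∈ A.decompositionSubgroup ℚ) :
    (sHom hd C.rho σ - (dualHom hd (algebraMap O B (D.chi σ) * (psi σ : B))) • (1 : M2 (DN O))) *
      (sHom hd C.rho τ - ((psi τ : ℤ) : DN O) • (1 : M2 (DN O))) = 0 := by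
  have h1 : (C.rho σ - (algebraMap O B (D.chi σ) * (psi σ : B)) • (1 : Mt B)) *
      (C.rho τ - (psi τ : B) • (1 : Mt B)) = 0 := by
    refine StZ.matrix (M := C.rho) (x := fun σ => algebraMap O B (D.chi σ) * (psi σ : B))
      (z := fun σ => (psi σ : B)) ?_ (fun X hX => C.eq_zero_of_trace hX) hσ hτ
    have h2 : (fun g => (C.rho g).trace) = C.t := funext C.trace_rho
    rw [h2]
    exact hst
  have h2 := congrArg (fun X => X.map (dualHom hd)) h1
  beta_reduce at h2
  rw [Matrix.map_mul, map_sub_smul_one, map_sub_smul_one, map_intCast] at h2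
  refine Eq.trans h2 ?_
  ext i j
  rw [Matrix.map_apply, Matrix.zero_apply, map_zero, Matrix.zero_apply]

/-- **membership in the strict ordinary local condition** -/
theorem coc_mem_ZS (h2 : (2 : ResidueField O) ≠ 0) (hst : StT A D.chi psi C.t)
    (ho : OrdD D A psi) (hne : ∃ σ ∈ A.inertiaSubgroupIn ℚ, D.res (D.chi σ) ≠ 1)
    {Q Q' : Mt (ResidueField O)} (BD : BData A D.rbar Q Q')
    (hQ : ∀ σ ∈ A.decompositionSubgroup ℚ,
      (Q' * D.rbar σ * Q) 0 0 = D.res (D.chi σ) * (psi σ : ResidueField O) ∧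
      (Q' * D.rbar σ * Q) 1 1 = (psi σ : ResidueField O))
    (hd : IsDer O C.resB d) {S : Finset Nat.Primes}
    (hdet : ∀ g, ∃ a : O, (C.rho g).det = algebraMap O B a)
    (hcont : ∃ U, (levS S).isOpen U ∧ ∀ s ∈ U, MatCong (RingHom.ker C.resB ^ 2) (C.rho s) 1) :
    resD S (A.decompositionSubgroup ℚ) _ (H1.mk _ _ (coc hd C.rho_res hdet hcont)) ∈
      (ZS A D.rbar Q Q').map (H1.mk _ _) := by
  rw [← cls_eq_coc hd C.rho_res hdet hcont]
  have hs : ∀ g, FM (sHom hd C.rho g) = D.rbar g := fun g => C.rho_res g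
  obtain ⟨τ, hτ, i, j, hij⟩ := ho.exists_unit hne
  -- a unit entry
  have hu : IsUnit ((sHom hd C.rho τ - ((psi τ : ℤ) : DN O) • (1 : M2 (DN O))) i j) := by
    rw [isUnit_iff_fs]
    have h3 : fs ((sHom hd C.rho τ - ((psi τ : ℤ) : DN O) • (1 : M2 (DN O))) i j) =
        (D.rbar τ - (psi τ : ResidueField O) • (1 : Mt (ResidueField O))) i j := by
      have h4 := map_sub_smul_one (fs (𝒪 := O)) (sHom hd C.rho τ) ((psi τ : ℤ) : DN O)
      have h5 := congrFun (congrFun h4 i) j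
      rw [Matrix.map_apply] at h5
      rw [h5, map_intCast]
      have h6 : (sHom hd C.rho τ).map (fs (𝒪 := O)) = D.rbar τ := hs τ
      rw [h6]
    rw [h3]
    exact hij
  obtain ⟨M, M', hMM, hMM', hM⟩ := exists_adapted_of_mul hu
  have hM1 : ∀ σ ∈ A.decompositionSubgroup ℚ, (M' * sHom hd C.rho σ * M) 1 0 = 0 ∧
      (M' * sHom hd C.rho σ * M) 0 0 = dualHom hd (algebraMap O B (D.chi σ) * (psi σ : B)) :=
    fun σ hσ => hM _ _ (matrix_sHom C hst hd hσ hτ)
  have hconst : ∀ σ, dualHom hd (algebraMap O B (D.chi σ) * (psi σ : B)) =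
      DN.mk O (D.res (D.chi σ) * (psi σ : ResidueField O)) 0 := by
    intro σ
    have h4 : algebraMap O B (D.chi σ) * (psi σ : B) = algebraMap O B (D.chi σ * (psi σ : O)) := by
      rw [map_mul, map_intCast]
    rw [h4, dualHom_apply, hd.const, C.res_comp, map_mul, map_intCast]
  have hM0 : ∀ σ ∈ A.decompositionSubgroup ℚ, (FM M' * D.rbar σ * FM M) 0 0 =
      D.res (D.chi σ) * (psi σ : ResidueField O) := by
    intro σ hσ
    have h4 : FM M' * D.rbar σ * FM M = FM (M' * sHom hd C.rho σ * M) := by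
      rw [FM_mul, FM_mul, hs]
    rw [h4]
    change fs ((M' * sHom hd C.rho σ * M) 0 0) = _
    rw [(hM1 σ hσ).2, hconst, fs_mk]
  refine mem_ZS_of_adapted h2 _ _ _ BD hMM (fun σ hσ => (hM1 σ hσ).1) (fun σ hσ => ?_) ?_
  · rw [(hM1 σ hσ).2, hconst, sn_mk]
  · obtain ⟨σ, hσ, hσ1⟩ := hne
    have hσD := inertia_le_decomposition A hσ
    refine line_unique BD (BData.of_adapted hs hMM fun σ hσ => (hM1 σ hσ).1) hσD ?_ ?_
    · rw [(hQ σ hσD).1, (hQ σ hσD).2, ho.uq.ine σ hσ, Int.cast_one, mul_one]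
      exact hσ1
    · rw [hM0 σ hσD, (hQ σ hσD).1]

end Mem

section Cyc

variable {O k : Type} [CommRing O] [Field k] {D : RD O k} {p : ℕ}

theorem CY.pow_eq {ζ : Qb} {x : GQ → ZMod p} (C : CY p ζ x) (g : GQ) (μ : Qb)
    (hμ : μ ^ p ^ 1 = 1) : g μ = μ ^ (x g).val := by
  have : NeZero p := ⟨C.prime.ne_zero⟩
  rw [pow_one] at hμ
  obtain ⟨a, rfl⟩ := C.zp_surj hμ
  rw [C.act_zp, C.zp_mul]

theorem res_chi_eq [Algebra (ZMod p) k] {ζ : Qb} {x : GQ → ZMod p} (C : CY p ζ x)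
    (hchi : IsCyc p D.chi) (σ : GQ) : D.res (D.chi σ) = algebraMap (ZMod p) k (x σ) := by
  have : NeZero p := ⟨C.prime.ne_zero⟩
  have h1 := hchi 1 σ (x σ).val (CY.pow_eq C σ)
  rw [pow_one, Ideal.mem_span_singleton'] at h1
  obtain ⟨c, hc⟩ := h1
  have h2 := congrArg D.res hc
  have hp0 : ((p : ℕ) : k) = 0 := by
    have h3 : algebraMap (ZMod p) k ((p : ℕ) : ZMod p) = ((p : ℕ) : k) := map_natCast _ _
    rw [← h3, ZMod.natCast_self, map_zero]
  rw [map_mul, map_natCast, hp0, mul_zero, map_sub, map_natCast, eq_comm, sub_eq_zero] at h2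
  rw [h2]
  conv_rhs => rw [← ZMod.natCast_zmod_val (x σ)]
  rw [map_natCast]

/-- the cyclotomic character is nontrivial on inertia at `p` -/
theorem exists_res_chi_ne (hp2 : p ≠ 2) [Algebra (ZMod p) k] {A : ValuationSubring Qb}
    {w : Qb → ℝ} (P : PL p A w) {ζ : Qb} {x : GQ → ZMod p} (C : CY p ζ x)
    (hchi : IsCyc p D.chi) : ∃ σ ∈ A.inertiaSubgroupIn ℚ, D.res (D.chi σ) ≠ 1 := by
  have hf : Fact p.Prime := ⟨P.prime⟩
  obtain ⟨σ, hσ, hxσ⟩ := x_surj_inertia P C hp2
  refine ⟨σ, hσ, fun h => hxσ ?_⟩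
  rw [res_chi_eq C hchi] at h
  exact (algebraMap (ZMod p) k).injective (by rw [h, map_one])

end Cyc

end Fermat.Agent.H25.St
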