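import Mathlib
import Fermat.Agent.H02M.StT2
import Fermat.Agent.H25.SelF
import Fermat.Agent.TW.LocMain

set_option autoImplicit false
set_option linter.unusedSectionVars false
set_option linter.style.haveILetI false

/-!
# The strict ordinary local condition at `p`
-/

namespace Fermat.Agent.H25.St

open Fermat.Agent.H25 Fermat.Agent.H25.PR Fermat.Agent.CC Fermat.Agent.TW IsLocalRing Matrix
open Fermat.Agent.H05 Fermat.Agent.H25.TR Fermat.Agent.H25.TWM Fermat.Agent.H25.GD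
open Fermat.Agent.H25.PT Fermat.Agent.H19 Fermat.Agent.H25.GE Fermat.Agent.H25.SB
open Fermat.Agent.H04 (DN M2)

theorem ext_DN {O : Type} [CommRing O] [IsLocalRing O] {a b : DN O} (h : fs a = fs b)
    (h' : sn a = sn b) : a = b := by
  rw [eq_mk a, eq_mk b, h, h']

section Mem

variable {O : Type} [CommRing O] [IsLocalRing O] {D : RD O (ResidueField O)}
  {B : Type} [CommRing B] [Algebra O B] (C : Comp D B) {A : ValuationSubring Qb}
  {psi : GQ → ℤ} {d : B → ResidueField O}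

/-- the deformation to the dual numbers is strictly ordinary -/
theorem strictDN_sHom {p : ℕ} [Fact p.Prime] [CharP (ResidueField O) p] {ζ : Qb}
    {x : GQ → ZMod p} (CZ : CY p ζ x) (hchi : IsCyc p D.chi) (hst : StT A D.chi psi C.t)
    (ho : OrdD D A psi) (hne : ∃ σ ∈ A.inertiaSubgroupIn ℚ, D.res (D.chi σ) ≠ 1)
    (hd : IsDer O C.resB d) : StrictDN A x (sHom hd C.rho) := by
  let _ : Algebra (ZMod p) (ResidueField O) := ZMod.algebra _ p
  have hs : ∀ g, FM (sHom hd C.rho g) = D.rbar g := fun g => C.rho_res g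
  obtain ⟨τ, hτ, i, j, hij⟩ := ho.exists_unit hne
  -- a unit entry
  have hu : IsUnit ((sHom hd C.rho τ - ((psi τ : ℤ) : DN O) • (1 : M2 (DN O))) i j) := by
    rw [isUnit_iff_fs]
    have h3 : fs ((sHom hd C.rho τ - ((psi τ : ℤ) : DN O) • (1 : M2 (DN O))) i j) =
        (D.rbar τ - (psi τ : ResidueField O) • (1 : Mt (ResidueField O))) i j := by
      have h4 := map_sub_smul_one (fs (𝒪 := O)) (sHom hd C.rho τ) ((psi τ : ℤ) : DN O)
      have h5 := congrFun (congrFun h4 i) j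
      rw [Matrix.map_apply] at h5
      rw [h5, map_intCast]
      have h6 : (sHom hd C.rho τ).map (fs (𝒪 := O)) = D.rbar τ := hs τ
      rw [h6]
    rw [h3]
    exact hij
  obtain ⟨M, M', hMM, hMM', hM⟩ := exists_adapted_of_mul hu
  have hM1 : ∀ σ ∈ A.decompositionSubgroup ℚ, (M' * sHom hd C.rho σ * M) 1 0 = 0 ∧
      (M' * sHom hd C.rho σ * M) 0 0 = dualHom hd (algebraMap O B (D.chi σ) * (psi σ : B)) :=
    fun σ hσ => hM _ _ (matrix_sHom C hst hd hσ hτ)
  have hconst0 : ∀ o : O, dualHom hd (algebraMap O B o) = DN.mk O (D.res o) 0 := by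
    intro o
    rw [dualHom_apply, hd.const, C.res_comp]
  have hconst : ∀ σ, dualHom hd (algebraMap O B (D.chi σ) * (psi σ : B)) =
      DN.mk O (D.res (D.chi σ) * (psi σ : ResidueField O)) 0 := by
    intro σ
    have h4 : algebraMap O B (D.chi σ) * (psi σ : B) = algebraMap O B (D.chi σ * (psi σ : O)) := by
      rw [map_mul, map_intCast]
    rw [h4, hconst0, map_mul, map_intCast]
  have hI : ∀ g ∈ A.inertiaSubgroupIn ℚ, (M' * sHom hd C.rho g * M) 0 0 =
      DN.mk O (D.res (D.chi g)) 0 := by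
    intro g hg
    rw [(hM1 g (inertia_le_decomposition A hg)).2, hconst, ho.uq.ine g hg, Int.cast_one, mul_one]
  refine ⟨M, M', hMM, fun g hg => (hM1 g hg).1, fun g hg => ?_, fun g hg => ?_, fun g hg => ?_⟩
  · rw [(hM1 g hg).2, hconst, sn_mk]
  · have h1 : (M' * sHom hd C.rho g * M).det = (sHom hd C.rho g).det := by
      rw [Matrix.det_mul, Matrix.det_mul, mul_right_comm, ← Matrix.det_mul, hMM', Matrix.det_one,
        one_mul]
    rw [Matrix.det_fin_two, (hM1 g (inertia_le_decomposition A hg)).1, mul_zero, sub_zero,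
      hI g hg, det_sHom, C.det_rho, hconst0] at h1
    have h2 : IsUnit (DN.mk O (D.res (D.chi g)) 0) := by
      rw [isUnit_iff_fs, fs_mk]
      intro h0
      have h8 : D.rbar g * D.rbar g⁻¹ = 1 := by rw [← map_mul, mul_inv_cancel, map_one]
      have h9 := congrArg Matrix.det h8
      rw [Matrix.det_mul, D.det_rbar, h0, zero_mul, Matrix.det_one] at h9
      exact zero_ne_one h9
    exact h2.mul_left_cancel (by rw [h1, mul_one])
  · rw [hI g hg]
    refine ext_DN ?_ ?_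
    · rw [fs_mk, map_natCast, res_chi_eq CZ hchi, natCast_val_eq]
    · rw [sn_mk, sn_natCast]

end Mem

section Cond

variable {O : Type} [CommRing O] [IsLocalRing O]

/-- strictly ordinary deformations to the dual numbers -/
def StrictC (p : ℕ) (A : ValuationSubring Qb) (s : GQ →* M2 (DN O)) : Prop :=
  ∀ (ζ : Qb) (x : GQ → ZMod p), CY p ζ x → StrictDN A x s

variable [Finite (ResidueField O)] {p : ℕ} [CharP (ResidueField O) p]

theorem exists_CY' (hp : p.Prime) : ∃ (ζ : Qb) (x : GQ → ZMod p), CY p ζ x := by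
  obtain ⟨ζ, hζ⟩ : ∃ ζ : Qb, IsPrimitiveRoot ζ p := by
    haveI : NeZero p := ⟨hp.ne_zero⟩
    haveI : NeZero (p : Qb) := ⟨Nat.cast_ne_zero.2 hp.ne_zero⟩
    exact HasEnoughRootsOfUnity.exists_primitiveRoot Qb p
  exact ⟨ζ, exists_CY hp hζ⟩

theorem cycDet_eq {s : GQ →* M2 (DN O)} (h : CycDet p s) {ζ : Qb} {x : GQ → ZMod p}
    (C : CY p ζ x) (σ : GQ) : (s σ).det = ((x σ).val : DN O) :=
  h σ _ fun μ hμ => CY.pow_eq C σ μ (by rwa [pow_one])

/-- **the strictly ordinary local condition at `p`** -/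
theorem lcond_strict (hp : p.Prime) (hp2 : p ≠ 2) {A : ValuationSubring Qb}
    (hA : A.LiesOverPrime p) {rb : GQ →* Mt (ResidueField O)} (hU : lev.isOpen rb.ker) :
    LCond A rb 1 (StrictC p A) := by
  obtain ⟨w, hw⟩ := exists_NVal hp hA
  obtain ⟨ζ, x, C⟩ := exists_CY' hp
  obtain ⟨L, h1, h2, h3⟩ := exists_Lstrict ⟨hp, hA, hw⟩ hp2 C rb hU
  exact ⟨L, h1, by rwa [pow_one], fun S' s hs hU htr hc => h3 S' s hs hU htr (hc ζ x C)⟩

/-- **the flat and strictly ordinary local condition at `p`** -/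
theorem lcond_inter (hp : p.Prime) (hp2 : p ≠ 2) {A : ValuationSubring Qb}
    (hA : A.LiesOverPrime p) {rb : GQ →* Mt (ResidueField O)} (hU : lev.isOpen rb.ker) :
    LCond A rb 0 (fun s => CycDet p s ∧ HasLH A (actV A s) ∧ StrictC p A s) := by
  obtain ⟨w, hw⟩ := exists_NVal hp hA
  obtain ⟨ζ, x, C⟩ := exists_CY' hp
  obtain ⟨L, h1, h2, h3⟩ := exists_Linter ⟨hp, hA, hw⟩ hp2 C rb hU
  exact ⟨L, h1, by rwa [pow_zero, one_mul], fun S' s hs hU htr hc =>
    h3 S' s hs hU htr (cycDet_eq hc.1 C) hc.2.1 (hc.2.2 ζ x C)⟩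

theorem exists_inertia_ne {k : Type} [Field k] [CharP k p] {D : RD O k} (hp : p.Prime)
    (hp2 : p ≠ 2) {A : ValuationSubring Qb}
    (hA : A.LiesOverPrime p) (hchi : IsCyc p D.chi) :
    ∃ σ ∈ A.inertiaSubgroupIn ℚ, D.res (D.chi σ) ≠ 1 := by
  obtain ⟨w, hw⟩ := exists_NVal hp hA
  obtain ⟨ζ, x, C⟩ := exists_CY' hp
  let _ : Algebra (ZMod p) k := ZMod.algebra _ p
  exact exists_res_chi_ne hp2 ⟨hp, hA, hw⟩ C hchi

end Cond

section Fam

variable {O : Type} [CommRing O] [IsLocalRing O] [IsNoetherianRing O]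
    [IsAdicComplete (maximalIdeal O) O] {D : RD O (ResidueField O)}
    {S : Finset Nat.Primes} {bad : Finset ℕ} {κ : Type} [Finite κ] [Nonempty κ]
    (H : κ → CData D S bad) (hbar : HBar D S) {A : ValuationSubring Qb} {psi : GQ → ℤ}

/-- strict ordinarity on the trace ring -/
theorem stT_CA (h : ∀ i x, StT A D.chi psi ((H i).t x)) : StT A D.chi psi (CA H hbar).t := by
  intro σ hσ τ hτ g
  refine ext_pt H hbar fun i x => ?_
  have h1 := h i x σ hσ τ hτ g
  beta_reduce at h1 ⊢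
  simp only [map_add, map_sub, map_mul, AlgHom.commutes, map_intCast, pt_t, map_zero]
  exact h1

variable [Finite (ResidueField O)] {p : ℕ} [hpf : Fact p.Prime] [CharP (ResidueField O) p]

/-- the strict condition holds for all first order deformations of a strict family -/
theorem strict_cond (hp2 : p ≠ 2) (hchi : IsCyc p D.chi) (hA : A.LiesOverPrime p)
    (ho : OrdD D A psi) (h : ∀ i x, StT A D.chi psi ((H i).t x))
    (d : AR H hbar → ResidueField O) (hd : IsDer O (CA H hbar).resB d) :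
    StrictC p A (sHom hd (CA H hbar).rho) := fun _ _ C =>
  strictDN_sHom (CA H hbar) C hchi (stT_CA H hbar h) ho
    (exists_inertia_ne (O := O) hpf.out hp2 hA hchi) hd

open scoped Classical in
/-- **(W6), strict mode.** -/
theorem exists_SelB_strict (hGW : GWad p) (hp2 : p ≠ 2) {χ : GQ →* ResidueField O}
    {S T : Finset Nat.Primes} {pp : Nat.Primes} (hpp : (pp : ℕ) = p) (hpS : pp ∈ S)
    (hpT : pp ∉ T) (hTS : T ⊆ S) (hTW : TWData p S D.rbar χ)
    (hram : ∀ q ∈ S, q ∉ T → q ≠ pp → ∃ τ ∈ (plv q q.2).inertiaSubgroupIn ℚ, D.rbar τ ≠ 1)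
    (hchi : IsCyc p D.chi) (hpO : (p : O) ∈ maximalIdeal O)
    (ho : OrdD D (plv pp pp.2) psi) :
    ∃ r : ℕ, ∀ n : ℕ, ∀ E : Finset ℕ, ∃ qv : Fin r → Nat.Primes, Function.Injective qv ∧
      (∀ j, (qv j : ℕ) ∉ E ∧ qv j ∉ S ∧ TWData.IsTW p n D.rbar χ (qv j)) ∧
      ∀ (S' : Finset Nat.Primes), S' = S ∪ Finset.univ.image qv →
      ∀ (κ : Type) [Finite κ] [Nonempty κ] (bad : Finset ℕ) (H : κ → CData D S' bad)
        (hbar : HBar D S'), (∀ i x, StT (plv pp pp.2) D.chi psi ((H i).t x)) →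
        (∀ q ∈ S, q ∉ T → q ≠ pp → ∀ i x, ∀ τ ∈ (plv q q.2).inertiaSubgroupIn ℚ,
          (H i).t x τ = 2) →
        GE.SelB H hbar r (fun t : T => (t : Nat.Primes)) := by
  obtain ⟨r, hr⟩ := exists_SelB_cond (D := D) hGW hp2 hpp hpS hpT hTS hTW hram hchi hpO
  have hA : (plv pp pp.2).LiesOverPrime p := hpp ▸ plv_over pp pp.2
  refine ⟨r, fun n E => ?_⟩
  obtain ⟨qv, h1, h2, h3⟩ := hr (n + 1) (Nat.succ_ne_zero n) E
  refine ⟨qv, h1, fun j => ⟨(h2 j).1, (h2 j).2.1, isTW_of_succ (h2 j).2.2⟩,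
    fun S' hS' κ _ _ bad H hbar hst hun => ?_⟩
  exact SelB.of_cond (cond := StrictC p (plv pp pp.2))
    (strict_cond H hbar hp2 hchi hA ho hst)
    (h3 _ 1 (lcond_strict hpf.out hp2 hA (lev_isOpen_of_levS hTW.open_ker)) S' hS' κ bad H hbar
      hun)

end Fam

end Fermat.Agent.H25.St
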