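import Mathlib
import Fermat.Agent.H02M.StT3
import Fermat.Agent.H12.LL.RDW
import Fermat.Agent.H25.PtE
import Fermat.Agent.H01.StrictNew

set_option autoImplicit false
set_option linter.unusedSectionVars false
set_option linter.style.haveILetI false

/-!
# Residual representations with given trace: irreducibility and ordinarity
-/

namespace Fermat.Agent.H25.St

open Fermat.Agent.H25 Fermat.Agent.H25.PR Fermat.Agent.CC Fermat.Agent.TW IsLocalRing Matrix
open Fermat.Agent.H05 Fermat.Agent.H25.TR Fermat.Agent.H25.TWM Fermat.Agent.H25.GD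
open Fermat.Agent.H25.PT Fermat.Agent.H19 Fermat.Agent.H25.GE Fermat.Agent.H25.SB
open Fermat.Agent.Strict (OrdLine zc xc mem_line)
open scoped Pointwise

/-- conjugation of decomposition groups -/
theorem mem_dec_conj {A : ValuationSubring Qb} (g σ : GQ) :
    σ ∈ (g • A).decompositionSubgroup ℚ ↔ g⁻¹ * σ * g ∈ A.decompositionSubgroup ℚ := by
  change σ • (g • A) = g • A ↔ (g⁻¹ * σ * g) • A = A
  rw [mul_smul, mul_smul, inv_smul_eq_iff]

section OrdOne

variable {T : Type} [CommRing T] [IsLocalRing T] {ρ : GaloisRepAdic T}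

/-- ordinarity at one place suffices -/
theorem isOrdinaryAt_of_one {p : ℕ} (hp : p.Prime) {A : ValuationSubring Qb}
    (hA : A.LiesOverPrime p) {b : Module.Basis (Fin 2) T ρ.V} (hb : OrdLine b A) :
    ρ.IsOrdinaryAt p := by
  intro P hP
  haveI := Fermat.Agent.H51.isGalois_Qbar
  obtain ⟨g, rfl⟩ := Fermat.Agent.H05.exists_smul_eq hp hA hP
  have hinv : ∀ v, ρ.ρ g⁻¹ (ρ.ρ g v) = v := by
    intro v
    rw [← Module.End.mul_apply, ← map_mul, inv_mul_cancel, map_one, Module.End.one_apply]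
  have hinv' : ∀ v, ρ.ρ g (ρ.ρ g⁻¹ v) = v := by
    intro v
    rw [← Module.End.mul_apply, ← map_mul, mul_inv_cancel, map_one, Module.End.one_apply]
  let e : ρ.V ≃ₗ[T] ρ.V := LinearEquiv.ofLinearMap (ρ.ρ g) (ρ.ρ g⁻¹)
    (LinearMap.ext hinv') (LinearMap.ext hinv)
  have he : ∀ v, e v = ρ.ρ g v := fun v => rfl
  have hconj : ∀ σ v, ρ.ρ σ v = ρ.ρ g (ρ.ρ (g⁻¹ * σ * g) (ρ.ρ g⁻¹ v)) := by
    intro σ v
    rw [map_mul, map_mul, Module.End.mul_apply, Module.End.mul_apply, hinv', hinv']
  have hspan : ∀ w, w ∈ T ∙ b 0 → ρ.ρ g w ∈ T ∙ (b.map e) 0 := by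
    intro w hw
    obtain ⟨c, rfl⟩ := Submodule.mem_span_singleton.1 hw
    rw [map_smul]
    exact Submodule.smul_mem _ _ (by
      have : (b.map e) 0 = ρ.ρ g (b 0) := by rw [Module.Basis.map_apply, he]
      rw [this]
      exact Submodule.mem_span_singleton_self _)
  refine ⟨T ∙ (b.map e) 0, ⟨b.map e, rfl⟩, fun σ hσ v hv => ?_, fun σ hσ v => ?_⟩
  · obtain ⟨c, rfl⟩ := Submodule.mem_span_singleton.1 hv
    rw [map_smul]
    refine Submodule.smul_mem _ _ ?_
    have h2 : ρ.ρ σ ((b.map e) 0) = ρ.ρ g (ρ.ρ (g⁻¹ * σ * g) (b 0)) := by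
      rw [hconj σ, Module.Basis.map_apply, he, hinv]
    rw [h2]
    exact hspan _ (hb.dec _ ((mem_dec_conj g σ).1 hσ) _ (Submodule.mem_span_singleton_self _))
  · have h1 : ρ.ρ σ v - v = ρ.ρ g (ρ.ρ (g⁻¹ * σ * g) (ρ.ρ g⁻¹ v) - ρ.ρ g⁻¹ v) := by
      rw [map_sub, hinv', ← hconj]
    rw [h1]
    exact hspan _ (hb.ine _ ((Fermat.Agent.H12.mem_inertia_conj hp hA g σ).1 hσ) _)

end OrdOne

/-- upper triangular representations have no off-diagonal entries -/
theorem entX_eq_zero_of_tri {G K : Type*} [Group G] [CommRing K] {M : G →* Mt K} {c : G}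
    (hc : c * c = 1) (h : ∀ g, M g 1 0 = 0) (hf : K) (r s : G) :
    entX (fun g => (M g).trace) hf c r s = 0 := by
  have h1 : M c * M c = 1 := by rw [← map_mul, hc, map_one]
  have h00 := congrFun (congrFun h1 0) 0
  have h11 := congrFun (congrFun h1 1) 1
  rw [Matrix.mul_apply, Fin.sum_univ_two, h c, Matrix.one_apply_eq] at h00 h11
  simp only [entX, map_mul, Matrix.trace_fin_two, Matrix.mul_apply, Fin.sum_univ_two, h]
  linear_combination (-(hf * hf) * M r 0 0 * M s 0 0) * h00 - (hf * hf) * M r 1 1 * M s 1 1 * h11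

/-- irreducibility from a nonzero off-diagonal entry -/
theorem isIrreducible_of_ent {K : Type} [Field K] (r' : ResidualGaloisRep K) {hf : K}
    {c r s : GQ} (hc : c * c = 1)
    (h : entX (fun g => LinearMap.trace K r'.V (r'.ρ g)) hf c r s ≠ 0) : r'.IsIrreducible := by
  intro W hW
  by_contra hcon
  rw [not_or] at hcon
  obtain ⟨v, hv, hv0⟩ := Submodule.exists_mem_ne_zero_of_ne_bot hcon.1
  obtain ⟨w, hw⟩ : ∃ w, w ∉ W := by
    by_contra h1
    push Not at h1
    exact hcon.2 (Submodule.eq_top_iff'.2 h1)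
  have hli : LinearIndependent K ![v, w] := by
    rw [LinearIndependent.pair_iff]
    intro a b hab
    have hb : b = 0 := by
      by_contra hb
      apply hw
      have h1 : w = (-(b⁻¹ * a)) • v := by
        have h2 : b⁻¹ • (a • v + b • w) = 0 := by rw [hab, smul_zero]
        rw [smul_add, smul_smul, smul_smul, inv_mul_cancel₀ hb, one_smul] at h2
        rw [neg_smul]
        exact eq_neg_of_add_eq_zero_right h2
      rw [h1]
      exact Submodule.smul_mem _ _ hv
    rw [hb, zero_smul, add_zero] at hab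
    exact ⟨(smul_eq_zero.1 hab).resolve_right hv0, hb⟩
  let b := basisOfLinearIndependentOfCardEqFinrank hli (by rw [Fintype.card_fin, r'.finrank_eq])
  have hb : ⇑b = ![v, w] := coe_basisOfLinearIndependentOfCardEqFinrank _ _
  have hb0 : b 0 = v := by rw [hb]; rfl
  have hb1 : b 1 = w := by rw [hb]; rfl
  let M : GQ →* Mt K := ((LinearMap.toMatrixAlgEquiv b : Module.End K r'.V →ₐ[K] Mt K) :
    Module.End K r'.V →* Mt K).comp r'.ρ
  have hM : ∀ g, M g = LinearMap.toMatrix b b (r'.ρ g) := fun g => rfl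
  have htr : (fun g => (M g).trace) = fun g => LinearMap.trace K r'.V (r'.ρ g) := by
    funext g
    rw [hM, LinearMap.trace_eq_matrix_trace K b]
  apply h
  rw [← htr]
  refine entX_eq_zero_of_tri hc (fun g => ?_) hf r s
  rw [hM, LinearMap.toMatrix_apply]
  by_contra hne
  apply hw
  have h1 := b.sum_repr (r'.ρ g (b 0))
  rw [Fin.sum_univ_two] at h1
  have h2 : b 1 = (b.repr (r'.ρ g (b 0)) 1)⁻¹ • (r'.ρ g (b 0) - b.repr (r'.ρ g (b 0)) 0 • b 0) := by
    rw [← h1]
    simp only [map_add, map_smul, Module.Basis.repr_self, Finsupp.add_apply, Finsupp.smul_apply,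
      Finsupp.single_apply]
    simp only [smul_eq_mul, Fin.isValue, one_ne_zero, if_false, mul_zero, add_zero, if_true,
      mul_one, zero_ne_one, zero_add]
    rw [add_sub_cancel_left, smul_smul, inv_mul_cancel₀ hne, one_smul]
  rw [← hb1, h2, hb0]
  exact Submodule.smul_mem _ _ (Submodule.sub_mem _ (hW g v hv) (Submodule.smul_mem _ _ hv))

/-- absolute irreducibility from the residual data -/
theorem isAbsIrr_of_trace {O k K : Type} [CommRing O] [Field k] [Field K] (D : RD O k)
    (r' : ResidualGaloisRep K) (ι : k →+* K)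
    (ht : ∀ g, LinearMap.trace K r'.V (r'.ρ g) = ι (D.tbar g)) : r'.IsAbsolutelyIrreducible := by
  refine isIrreducible_of_ent (hf := algebraMap K (AlgebraicClosure K) (ι (D.res D.hf)))
    (r := D.r) (s := D.s) _ D.cc ?_
  have h1 : (fun g => LinearMap.trace (AlgebraicClosure K) (r'.baseChange (AlgebraicClosure K)).V
      ((r'.baseChange (AlgebraicClosure K)).ρ g)) =
      fun g => algebraMap K (AlgebraicClosure K) (ι (D.tbar g)) := by
    funext g
    rw [← ht]
    exact LinearMap.trace_baseChange (r'.ρ g) (AlgebraicClosure K)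
  rw [h1, Fermat.Agent.H12.LL.map_entX (algebraMap K (AlgebraicClosure K))
    (fun g => ι (D.tbar g)), Fermat.Agent.H12.LL.map_entX ι]
  rw [map_ne_zero, map_ne_zero]
  exact D.ent

end Fermat.Agent.H25.St
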