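import Mathlib
import Fermat.Agent.H02M.StT4

set_option autoImplicit false
set_option linter.unusedSectionVars false
set_option linter.style.haveILetI false

/-!
# Strictly ordinary lines and traces
-/

namespace Fermat.Agent.H25.St

open Fermat.Agent.H25 Fermat.Agent.H25.PR Fermat.Agent.CC Fermat.Agent.TW IsLocalRing Matrix
open Fermat.Agent.H05 Fermat.Agent.H25.TR Fermat.Agent.H25.TWM Fermat.Agent.H25.GD
open Fermat.Agent.H25.PT Fermat.Agent.H19 Fermat.Agent.H25.GE Fermat.Agent.H25.SB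
open Fermat.Agent.Strict (OrdLine zc xc mem_line)

section Lines

variable {T : Type} [CommRing T] [IsLocalRing T] {ρ : GaloisRepAdic T} {A : ValuationSubring Qb}

/-- ordinary lines from matrices -/
theorem ordLine_of_matrix {P P' : Mt T} (h : P * P' = 1) (h' : P' * P = 1)
    (hD : ∀ g ∈ A.decompositionSubgroup ℚ, (P' * mat ρ g * P) 1 0 = 0)
    (hI : ∀ g ∈ A.inertiaSubgroupIn ℚ, (P' * mat ρ g * P) 1 1 = 1) :
    ∃ b : Module.Basis (Fin 2) T ρ.V, OrdLine b A ∧ ∀ g, zc b g = (P' * mat ρ g * P) 1 1 ∧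
      xc b g = (P' * mat ρ g * P) 0 0 := by
  let e : ρ.V ≃ₗ[T] ρ.V := LinearEquiv.ofLinearMap (Matrix.toLin (bs ρ) (bs ρ) P)
    (Matrix.toLin (bs ρ) (bs ρ) P')
    (by rw [← Matrix.toLin_mul, h, Matrix.toLin_one])
    (by rw [← Matrix.toLin_mul, h', Matrix.toLin_one])
  have hkey : ∀ (f : Module.End T ρ.V) (i j : Fin 2),
      ((bs ρ).map e).repr (f (((bs ρ).map e) j)) i =
        (P' * LinearMap.toMatrix (bs ρ) (bs ρ) f * P) i j := by
    intro f i j
    have h1 : P' * LinearMap.toMatrix (bs ρ) (bs ρ) f * P =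
        LinearMap.toMatrix (bs ρ) (bs ρ) ((Matrix.toLin (bs ρ) (bs ρ) P') ∘ₗ f ∘ₗ
          (Matrix.toLin (bs ρ) (bs ρ) P)) := by
      rw [LinearMap.toMatrix_comp (bs ρ) (bs ρ) (bs ρ), LinearMap.toMatrix_comp (bs ρ) (bs ρ) (bs ρ),
        LinearMap.toMatrix_toLin, LinearMap.toMatrix_toLin, mul_assoc]
    rw [h1, LinearMap.toMatrix_apply]
    rfl
  have hM : ∀ (g : GQ) (i j : Fin 2), ((bs ρ).map e).repr (ρ.ρ g (((bs ρ).map e) j)) i =
        (P' * mat ρ g * P) i j := fun g i j => hkey _ i j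
  refine ⟨(bs ρ).map e, ⟨fun σ hσ v hv => ?_, fun σ hσ v => ?_⟩, fun g => ⟨hM g 1 1, hM g 0 0⟩⟩
  · obtain ⟨c, rfl⟩ := Submodule.mem_span_singleton.1 hv
    rw [map_smul]
    refine Submodule.smul_mem _ _ ?_
    rw [mem_line, hM]
    exact hD σ hσ
  · rw [mem_line, map_sub, Finsupp.sub_apply]
    have h1 := ((bs ρ).map e).sum_repr v
    rw [Fin.sum_univ_two] at h1
    have h2 : ((bs ρ).map e).repr (ρ.ρ σ v) 1 = ((bs ρ).map e).repr v 1 := by
      conv_lhs => rw [← h1]
      rw [map_add, map_smul, map_smul, map_add, map_smul, map_smul, Finsupp.add_apply,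
        Finsupp.smul_apply, Finsupp.smul_apply, hM, hM, hD σ (inertia_le_decomposition A hσ),
        hI σ hσ, smul_zero, zero_add, smul_eq_mul, mul_one]
    rw [h2, sub_self]

/-- matrices in a basis adapted to a line -/
noncomputable def matB (b : Module.Basis (Fin 2) T ρ.V) : GQ →* Mt T :=
  (LinearMap.toMatrixAlgEquiv b).toAlgHom.toRingHom.toMonoidHom.comp ρ.ρ

theorem matB_apply (b : Module.Basis (Fin 2) T ρ.V) (g : GQ) (i j : Fin 2) :
    matB b g i j = b.repr (ρ.ρ g (b j)) i := LinearMap.toMatrix_apply b b (ρ.ρ g) i j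

theorem trace_matB (b : Module.Basis (Fin 2) T ρ.V) (g : GQ) : (matB b g).trace = ρ.trace g := by
  rw [GaloisRepAdic.trace, LinearMap.trace_eq_matrix_trace T b]
  rfl

theorem matB_10 {b : Module.Basis (Fin 2) T ρ.V} (hb : OrdLine b A) {σ : GQ}
    (hσ : σ ∈ A.decompositionSubgroup ℚ) : matB b σ 1 0 = 0 := by
  rw [matB_apply]
  exact (mem_line b).mp (hb.dec σ hσ (b 0) (Submodule.mem_span_singleton_self _))

/-- the trace on the decomposition group -/
theorem ordLine_trace_eq {b : Module.Basis (Fin 2) T ρ.V} {σ : GQ} :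
    ρ.trace σ = xc b σ + zc b σ := by
  rw [← trace_matB b, Matrix.trace_fin_two, matB_apply, matB_apply]
  rfl

theorem tri_mul_zero {R : Type*} [CommRing R] {X Y : Mt R} {x z : R} (h1 : X 1 0 = 0)
    (h2 : Y 1 0 = 0) (h3 : X 0 0 = x) (h4 : Y 1 1 = z) :
    (X - x • (1 : Mt R)) * (Y - z • (1 : Mt R)) = 0 := by
  rw [Matrix.eta_fin_two X, Matrix.eta_fin_two Y, h1, h2, h3, h4, Matrix.one_fin_two]
  ext i j
  fin_cases i <;> fin_cases j <;> simp

/-- **strict ordinarity of the trace** -/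
theorem stT_of_ordLine {O : Type} [CommRing O] [Algebra O T] {chi : GQ → O} {psi : GQ → ℤ}
    {b : Module.Basis (Fin 2) T ρ.V} (hb : OrdLine b A) (uq : UQ A psi)
    (hz : ∀ σ ∈ A.decompositionSubgroup ℚ, zc b σ = (psi σ : T))
    (hdet : ∀ g, LinearMap.det (ρ.ρ g) = algebraMap O T (chi g)) : StT A chi psi ρ.trace := by
  have h1 : (fun g => (matB b g).trace) = ρ.trace := funext (trace_matB b)
  rw [← h1]
  have hx : ∀ σ ∈ A.decompositionSubgroup ℚ, xc b σ = algebraMap O T (chi σ) * (psi σ : T) := by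
    intro σ hσ
    have h2 := hb.det_eq hσ
    rw [hdet, hz σ hσ] at h2
    rw [h2, mul_assoc, uq.sq' hσ, mul_one]
  refine StZ.of_matrix fun σ hσ τ hτ => ?_
  have e1 := matB_10 hb hσ
  have e2 := matB_10 hb hτ
  have e3 : matB b σ 0 0 = algebraMap O T (chi σ) * (psi σ : T) := (matB_apply b σ 0 0).trans (hx σ hσ)
  have e4 : matB b τ 1 1 = (psi τ : T) := (matB_apply b τ 1 1).trans (hz τ hτ)
  exact tri_mul_zero e1 e2 e3 e4

end Lines

section Resid

variable {O k : Type} [CommRing O] [Field k] {D : RD O k} {A : ValuationSubring Qb} {psi : GQ → ℤ}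

/-- **residual ordinarity** -/
theorem exists_ordLine_resid {K : Type} [Field K] (ho : OrdD D A psi)
    (hne : ∃ σ ∈ A.inertiaSubgroupIn ℚ, D.res (D.chi σ) ≠ 1) (r' : GaloisRepAdic K)
    (ι : k →+* K) (ht : ∀ g, r'.trace g = ι (D.tbar g)) :
    ∃ b : Module.Basis (Fin 2) K r'.V, OrdLine b A := by
  obtain ⟨Q0, Q0', B, hQ0⟩ := ho.exists_BData hne
  have e : (fun g => (mat r' g).trace) = fun g => ι (D.tbar g) := by
    funext g
    rw [trace_mat, ht]
  have hent : entX (fun g => (mat r' g).trace) (ι (D.res D.hf)) D.c D.r D.s ≠ 0 := by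
    rw [e, Fermat.Agent.H12.LL.map_entX ι]
    exact (map_ne_zero ι).2 D.ent
  have htc : (mat r' D.c).trace = 0 := by
    rw [trace_mat, ht, D.tc, map_zero]
  obtain ⟨Q, Q', h, h', hQ⟩ := Fermat.Agent.H12.LL.exists_conj (M := mat r') (c := D.c) D.cc htc
    (hf := ι (D.res D.hf)) (by rw [← map_ofNat ι 2, ← map_mul, D.h2k, map_one])
    (r := D.r) (s := D.s) hent
    (N := ((ι.mapMatrix : Mt k →+* Mt K).toMonoidHom).comp D.rbar) (fun g => by
      change (D.rbar g).map ι = _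
      rw [D.rbar_eq, repMat_map, e, Fermat.Agent.H12.LL.map_entX ι, map_inv₀])
  have hQ' : ∀ g, (D.rbar g).map ι = Q' * mat r' g * Q := hQ
  have hm1 : (Q0.map ι) * (Q0'.map ι) = 1 := by
    rw [← Matrix.map_mul, B.inv]
    exact (ι.mapMatrix : Mt k →+* Mt K).map_one
  have hm2 : (Q0'.map ι) * (Q0.map ι) = 1 := by
    rw [← Matrix.map_mul, B.inv']
    exact (ι.mapMatrix : Mt k →+* Mt K).map_one
  have hP : ∀ g, (Q0'.map ι * Q') * mat r' g * (Q * Q0.map ι) = (Q0' * D.rbar g * Q0).map ι := by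
    intro g
    rw [Matrix.map_mul, Matrix.map_mul, hQ']
    simp only [mul_assoc]
  obtain ⟨b, hb, -⟩ := ordLine_of_matrix (ρ := r') (A := A) (P := Q * Q0.map ι)
    (P' := Q0'.map ι * Q')
    (by rw [mul_assoc, ← mul_assoc (Q0.map ι), hm1, one_mul, h])
    (by rw [mul_assoc, ← mul_assoc Q', h', one_mul, hm2])
    (fun g hg => by rw [hP, Matrix.map_apply, B.tri g hg, map_zero])
    (fun g hg => by
      rw [hP, Matrix.map_apply, (hQ0 g (inertia_le_decomposition A hg)).2, ho.uq.ine g hg,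
        Int.cast_one, map_one])
  exact ⟨b, hb⟩

theorem two_ne_of_RD (D : RD O k) {K : Type} [Field K] (ι : k →+* K) : (2 : K) ≠ 0 := by
  intro h
  have h1 := congrArg ι D.h2k
  rw [map_mul, map_ofNat, h, mul_zero, map_one] at h1
  exact zero_ne_one h1

theorem res_chi_mul (D : RD O k) (σ τ : GQ) :
    D.res (D.chi (σ * τ)) = D.res (D.chi σ) * D.res (D.chi τ) := by
  rw [← D.det_rbar, ← D.det_rbar, ← D.det_rbar, map_mul, Matrix.det_mul]

/-- **comparison of the quotient character with the residual one** -/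
theorem zc_eq_psi {Q : Type} [CommRing Q] [IsDomain Q] [IsLocalRing Q] [Algebra O Q]
    {ρ : GaloisRepAdic Q} {b : Module.Basis (Fin 2) Q ρ.V} (hb : OrdLine b A)
    (hsq : ∀ σ ∈ A.decompositionSubgroup ℚ, zc b σ ^ 2 = 1)
    (hdet : ∀ g, LinearMap.det (ρ.ρ g) = algebraMap O Q (D.chi g))
    (ι : k →+* ResidueField Q) (hι : ∀ g, residue Q (ρ.trace g) = ι (D.tbar g))
    (hc : ∀ a : O, residue Q (algebraMap O Q a) = ι (D.res a))
    (ho : OrdD D A psi) (hne : ∃ σ ∈ A.inertiaSubgroupIn ℚ, D.res (D.chi σ) ≠ 1) :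
    ∀ σ ∈ A.decompositionSubgroup ℚ, zc b σ = (psi σ : Q) := by
  have claim : ∀ σ ∈ A.decompositionSubgroup ℚ, zc b σ ≠ (psi σ : Q) →
      D.res (D.chi σ) = -1 := by
    intro σ hσ hz
    have h1 : zc b σ = -(psi σ : Q) := by
      have h2 : (zc b σ - (psi σ : Q)) * (zc b σ + (psi σ : Q)) = 0 := by
        linear_combination hsq σ hσ - (ho.uq.sq' hσ (R := Q))
      rcases mul_eq_zero.1 h2 with h3 | h3
      · exact absurd (sub_eq_zero.1 h3) hz
      · exact eq_neg_of_add_eq_zero_left h3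
    have h2 : xc b σ = algebraMap O Q (D.chi σ) * zc b σ := by
      have h3 := hb.det_eq hσ
      rw [hdet] at h3
      rw [h3, mul_assoc, ← pow_two, hsq σ hσ, mul_one]
    have h4 := hι σ
    rw [ordLine_trace_eq (b := b), h2, h1, ho.tbar_eq hne hσ] at h4
    simp only [map_add, map_mul, map_neg, map_intCast, hc, map_one] at h4
    have hpsi : ((psi σ : ℤ) : ResidueField Q) * (psi σ : ResidueField Q) = 1 := ho.uq.sq' hσ
    have h5 : (2 : ResidueField Q) * (ι (D.res (D.chi σ)) + 1) = 0 := by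
      linear_combination (-(psi σ : ResidueField Q)) * h4 -
        2 * (ι (D.res (D.chi σ)) + 1) * hpsi
    have h6 := (mul_eq_zero.1 h5).resolve_left (two_ne_of_RD D ι)
    apply ι.injective
    rw [map_neg, map_one]
    exact eq_neg_of_add_eq_zero_left h6
  intro σ hσ
  by_contra hz
  obtain ⟨τ, hτ, hτ1⟩ := hne
  have hτD := inertia_le_decomposition A hτ
  have h1 := claim σ hσ hz
  have h2 := claim (τ * σ) (mul_mem hτD hσ) (by
    rw [hb.zc_mul hτD, hb.zc_inertia hτ, one_mul, ho.uq.mul τ hτD σ hσ, ho.uq.ine τ hτ, one_mul]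
    exact hz)
  rw [res_chi_mul, h1, mul_neg, mul_one, neg_inj] at h2
  exact hτ1 h2

end Resid

end Fermat.Agent.H25.St
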