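import Mathlib
import Fermat.Agent.H02M.StT5
import Fermat.Agent.H01.OrdLev
import Fermat.Agent.TFin.WComp

set_option autoImplicit false
set_option linter.unusedSectionVars false
set_option linter.style.haveILetI false

/-!
# Strict ordinarity at the points of level exactly divisible by `p` and for elliptic curves
-/

namespace Fermat.Agent.H25.St

open Fermat.Agent.H25 Fermat.Agent.H25.PR Fermat.Agent.CC Fermat.Agent.TW IsLocalRing Matrix
open Fermat.Agent.H05 Fermat.Agent.H25.TR Fermat.Agent.H25.TWM Fermat.Agent.H25.GD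
open Fermat.Agent.H25.PT Fermat.Agent.H19 Fermat.Agent.H25.GE Fermat.Agent.H25.SB
open Fermat.Agent.Strict (OrdLine zc xc mem_line)
open CongruenceSubgroup

/-- the residual embedding at a point of a component -/
theorem exists_iota_of_comp {O k B Q : Type} [CommRing O] [IsLocalRing O] [IsNoetherianRing O]
    [Field k] {D : RD O k} [CommRing B] [Algebra O B] [Module.Finite O B] (C : Comp D B)
    [CommRing Q] [IsLocalRing Q] [Algebra O Q] [IsLocalHom (algebraMap O Q)]
    (f : B →ₐ[O] Q) : ∃ ι : k →+* ResidueField Q, ∀ b, residue Q (f b) = ι (C.resB b) := by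
  haveI := C.isLocalRing
  haveI := C.isLocalHom
  have hker : RingHom.ker C.resB ≤ RingHom.ker ((residue Q).comp (f : B →+* Q)) := by
    intro b hb
    rw [RingHom.mem_ker] at hb ⊢
    obtain ⟨c, hc⟩ := exists_pow_le_lamI (O := O) (B := B)
    have h1 : b ^ c ∈ lamI O B := hc (Ideal.pow_mem_pow ((C.mem_maximalIdeal b).2 hb) c)
    have h2 : f (b ^ c) ∈ lamI O Q := by
      have h3 := Ideal.mem_map_of_mem (f : B →+* Q) h1
      rw [lamI, Ideal.map_map] at h3
      have h4 : (f : B →+* Q).comp (algebraMap O B) = algebraMap O Q := by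
        ext a
        exact f.commutes a
      rw [h4] at h3
      exact h3
    have h3 : lamI O Q ≤ maximalIdeal Q := by
      rw [lamI, Ideal.map_le_iff_le_comap]
      intro a ha
      exact map_nonunit (algebraMap O Q) a ha
    have h4 : residue Q (f b) ^ c = 0 := by
      rw [← map_pow, ← map_pow, residue_eq_zero_iff]
      exact h3 h2
    exact IsReduced.eq_zero _ ⟨c, h4⟩
  refine ⟨C.resB.liftOfSurjective C.surj ⟨(residue Q).comp (f : B →+* Q), hker⟩, fun b => ?_⟩
  exact (RingHom.liftOfRightInverse_comp_apply C.resB (Function.surjInv C.surj)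
    (Function.rightInverse_surjInv C.surj) ⟨(residue Q).comp (f : B →+* Q), hker⟩ b).symm

section Pts

variable {O k : Type} [CommRing O] [IsDomain O] [IsDiscreteValuationRing O]
  [IsAdicComplete (maximalIdeal O) O] [Finite (ResidueField O)] [CharZero O] [Field k]
  {D : RD O k}
  {K : Type} [Field K] [IsAlgClosed K] [Algebra O K] [FaithfulSMul O K]
  {p : ℕ} [hp : Fact p.Prime] (hpO : (p : O) ∈ maximalIdeal O) (G : Geo p)
  (hchi : IsCyc p D.chi) (hc : D.chi D.c = -1)
  {S : Finset Nat.Primes} {bad : Finset ℕ} (H : HIn D K p S bad) (hbar : HBar D S)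

include hchi hc hbar in
/-- the residual embedding at a point -/
theorem exists_iota (x : H.X) : ∃ ι : k →+* ResidueField (H.rep hpO G x).Q,
    (∀ g, residue _ ((H.rep hpO G x).ρ.trace g) = ι (D.tbar g)) ∧
    ∀ a : O, residue _ (algebraMap O (H.rep hpO G x).Q a) = ι (D.res a) := by
  let f : (H.cd hpO G hchi hc).B →ₐ[O] (H.rep hpO G x).Q := (H.cd hpO G hchi hc).ev x
  obtain ⟨ι, hι⟩ := exists_iota_of_comp (Q := (H.rep hpO G x).Q)
    ((H.cd hpO G hchi hc).C hbar) f
  refine ⟨ι, fun g => ?_, fun a => ?_⟩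
  · have h1 := hι (((H.cd hpO G hchi hc).C hbar).t g)
    rw [((H.cd hpO G hchi hc).C hbar).res_t] at h1
    have h2 : f (((H.cd hpO G hchi hc).C hbar).t g) = (H.rep hpO G x).ρ.trace g :=
      CData.ev_C (H.cd hpO G hchi hc) hbar g x
    rwa [h2] at h1
  · have h1 := hι (algebraMap O _ a)
    rw [((H.cd hpO G hchi hc).C hbar).res_comp, AlgHom.commutes] at h1
    exact h1

/-- the trace of the residual representation -/
theorem trace_residual {T : Type} [CommRing T] [IsLocalRing T] (ρ : GaloisRepAdic T) (g : GQ) :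
    LinearMap.trace (ResidueField T) ρ.residual.V (ρ.residual.ρ g) = residue T (ρ.trace g) :=
  LinearMap.trace_baseChange (ρ.ρ g) (ResidueField T)

include hchi hc hbar in
/-- absolute irreducibility of the residual representation at a point -/
theorem residual_absIrr (x : H.X) : (H.rep hpO G x).ρ.residual.IsAbsolutelyIrreducible := by
  obtain ⟨ι, hι, -⟩ := exists_iota hpO G hchi hc H hbar x
  exact isAbsIrr_of_trace D _ ι fun g => (trace_residual _ g).trans (hι g)

variable {A : ValuationSubring Qb} {psi : GQ → ℤ}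

include hchi hc hbar in
/-- ordinarity of the residual representation at a point -/
theorem residual_ordinary (x : H.X) (hA : A.LiesOverPrime p) (ho : OrdD D A psi)
    (hne : ∃ σ ∈ A.inertiaSubgroupIn ℚ, D.res (D.chi σ) ≠ 1) :
    (GaloisRepAdic.ofResidualGaloisRep (H.rep hpO G x).ρ.residual).IsOrdinaryAt p := by
  obtain ⟨ι, hι, -⟩ := exists_iota hpO G hchi hc H hbar x
  obtain ⟨b, hb⟩ := exists_ordLine_resid ho hne
    (GaloisRepAdic.ofResidualGaloisRep (H.rep hpO G x).ρ.residual) ι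
    fun g => (trace_residual _ g).trans (hι g)
  exact isOrdinaryAt_of_one hp.out hA hb

/-- **strict ordinarity of the representation at a point of level exactly divisible by `p`** -/
theorem isStrictOrdinaryAt_NRep {N0 : ℕ} [NeZero N0] {g : CuspForm (Gamma0 N0) 2}
    {hg : g.IsNewform} {τ : integralClosure ℤ ℂ →+* K} (R : NRep O p hg τ) (hp2 : p ≠ 2)
    (hpQ : (p : R.Q) ∈ maximalIdeal R.Q) (hN : p ∣ N0 ∧ ¬ p ^ 2 ∣ N0)
    (habs : R.ρ.residual.IsAbsolutelyIrreducible)
    (hres : (GaloisRepAdic.ofResidualGaloisRep R.ρ.residual).IsOrdinaryAt p) :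
    R.ρ.IsStrictOrdinaryAt p := by
  have hker : RingHom.ker (H23.eigenCharC hg.1 (↑(bd N0 p) : Set ℕ)).rangeRestrict ≤
      RingHom.ker R.π := by
    intro x hx
    rw [RingHom.mem_ker] at hx ⊢
    exact R.π_eq_zero (congrArg Subtype.val hx)
  let iota := (H23.eigenCharC hg.1 (↑(bd N0 p) : Set ℕ)).rangeRestrict.liftOfSurjective
    (H23.eigenCharC hg.1 (↑(bd N0 p) : Set ℕ)).rangeRestrict_surjective ⟨R.π, hker⟩
  have hiota : ∀ x, iota ((H23.eigenCharC hg.1 (↑(bd N0 p) : Set ℕ)).rangeRestrict x) = R.π x :=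
    fun x => RingHom.liftOfRightInverse_comp_apply _ _ _ _ x
  refine Fermat.Agent.Strict.isStrictOrdinaryAt_of_newform hp.out hp2 hN hg
    (S := bd N0 p) (mem_bd_of_dvd hp.out) hpQ (H23.eigenCharC hg.1 (↑(bd N0 p) : Set ℕ))
    (fun ℓ hℓ hℓM hℓS => H23.eigenCharC_T hg.1 hℓ hℓM hℓS) iota R.ρ habs ?_ hres
  intro ℓ hℓ hℓN hℓS A hA σ hσ
  rw [RingHom.comp_apply, hiota]
  exact R.hfrob ℓ hℓ hℓN hℓS A hA σ hσ

include hbar in
/-- **strict ordinarity at the points of level exactly divisible by `p`** -/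
theorem stT_pt (hp2 : p ≠ 2) (x : H.X) (hN : p ∣ (H.np x).N0 ∧ ¬ p ^ 2 ∣ (H.np x).N0)
    (hA : A.LiesOverPrime p) (ho : OrdD D A psi)
    (hne : ∃ σ ∈ A.inertiaSubgroupIn ℚ, D.res (D.chi σ) ≠ 1) :
    StT A D.chi psi ((H.cd hpO G hchi hc).t x) := by
  obtain ⟨ι, hι, hιc⟩ := exists_iota hpO G hchi hc H hbar x
  have hstr := isStrictOrdinaryAt_NRep (H.rep hpO G x) hp2 ((H.rep hpO G x).hpQ hpO) hN
    (residual_absIrr hpO G hchi hc H hbar x) (residual_ordinary hpO G hchi hc H hbar x hA ho hne)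
  have hdet : ∀ g, LinearMap.det ((H.rep hpO G x).ρ.ρ g) =
      algebraMap O (H.rep hpO G x).Q (D.chi g) := fun g => (H.rep hpO G x).det_eq hpO hchi g
  have hcyc : (H.rep hpO G x).ρ.DetIsCyclotomic p :=
    Fermat.Agent.Strict.detIsCyclotomic_of_frob hp.out (S := bd (H.np x).N0 p)
      (mem_bd_self hp.out) (mem_bd_of_dvd hp.out) ((H.rep hpO G x).hpQ hpO) (H.rep hpO G x).ρ
      (H.rep hpO G x).π (H.rep hpO G x).hfrob
  obtain ⟨b, hb, hsq⟩ := Fermat.Agent.Strict.exists_ordLine_of_strict hp.out hcyc hstr hA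
  have h1 : StT (P := (H.rep hpO G x).Q) A D.chi psi (H.rep hpO G x).ρ.trace :=
    stT_of_ordLine hb ho.uq (zc_eq_psi hb hsq hdet ι hι hιc ho hne) hdet
  exact h1

end Pts

section Curve

open Fermat.Agent.H12.LL Fermat.Agent.TFin Fermat.Agent.Ell Fermat.Agent.H08
open WeierstrassCurve WeierstrassCurve.Affine WeierstrassCurve.Affine.Point
open scoped Pointwise

variable {W : WeierstrassCurve ℤ} {p : ℕ} [hp : Fact p.Prime]
  (hΔ : W.Δ ≠ 0) (hirr : W.ModRepIsIrreducible p) (hp2 : p ≠ 2)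
  (O : Type) [CommRing O] [IsDomain O] [IsLocalRing O] [Algebra ℤ_[p] O]
  [IsLocalHom (algebraMap ℤ_[p] O)]

/-- **strict ordinarity for elliptic curves with multiplicative reduction at `p`** -/
theorem exists_ordD_RDW (hpΔ : (p : ℤ) ∣ W.Δ) (hc₄ : ¬ (p : ℤ) ∣ W.c₄)
    {A : ValuationSubring Qb} (hA : A.LiesOverPrime p) :
    ∃ psi : GQ → ℤ, OrdD (RDW hΔ hirr hp2 O) A psi ∧
      StT A (RDW hΔ hirr hp2 O).chi psi (tW W p O) := by
  have hns := exists_nonscalar_of_irr hΔ hirr
  obtain ⟨b, s, h1, h2, h3, h4, h5⟩ := exists_mult_structure p hΔ hp.out hpΔ hc₄ hns hA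
  have uq : UQ A s := ⟨fun σ _ => h1 σ, fun σ hσ τ hτ => h3 σ τ hσ hτ, h2⟩
  have hst : StT A (RDW hΔ hirr hp2 O).chi s (tW W p O) := by
    rw [← tW_eq_trace O b]
    refine StZ.of_matrix fun σ hσ τ hτ => ?_
    have hm : ∀ (g : GQ) (i j : Fin 2), MR b (algebraMap ℤ_[p] O) g i j =
        algebraMap ℤ_[p] O (b.repr (rr (WQ W) p g (b j)) i) := fun g i j => by
      rw [MR_apply, Matrix.map_apply, mtx_apply]
    have h10 : ∀ g : GQ, g • A = A → MR b (algebraMap ℤ_[p] O) g 1 0 = 0 := by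
      intro g hg
      rw [hm, h4 g hg, map_smul, Finsupp.smul_apply, b.repr_self, Finsupp.single_apply]
      simp
    refine tri_mul_zero (h10 σ hσ) (h10 τ hτ) ?_ ?_
    · rw [hm, h4 σ hσ, map_smul, Finsupp.smul_apply, b.repr_self, Finsupp.single_eq_same,
        smul_eq_mul, mul_one, map_mul, map_intCast, RDW_chi]
      rfl
    · rw [hm]
      obtain ⟨c, hc⟩ := Submodule.mem_span_singleton.1 (h5 τ hτ (b 1))
      have h6 : rr (WQ W) p τ (b 1) = c • b 0 + (s τ : ℤ_[p]) • b 1 := by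
        rw [hc, sub_add_cancel]
      rw [h6, map_add, map_smul, map_smul, Finsupp.add_apply, Finsupp.smul_apply,
        Finsupp.smul_apply, b.repr_self, b.repr_self, Finsupp.single_eq_same,
        Finsupp.single_apply]
      simp
  refine ⟨s, ⟨uq, ?_⟩, hst⟩
  have h6 := StZ.map hst (residue O)
  intro σ hσ τ hτ g
  have h7 := h6 σ hσ τ hτ g
  beta_reduce at h7 ⊢
  rw [map_mul, map_intCast, map_intCast] at h7
  exact h7

end Curve

end Fermat.Agent.H25.St
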